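import Mathlib

/-!
# S27/L-EMB : a field of characteristic `0` which is algebraic over a finitely generated field embeds into `ℂ`.   (Mathlib only)

## Proof
(1) `#k ≤ ℵ₀` : `k` is algebraic over `Subfield.closure C` (`C` finite), which is countable (`Subfield.cardinalMk_closure_le_max` in `Mathlib/SetTheory/Cardinal/Subfield.lean`);
    `Algebra.IsAlgebraic.cardinalMk_le_max`.
(2) `L := AlgebraicClosure (FractionRing (MvPolynomial ℝ k))` (any index type of cardinality continuum; mind universes: use `ULift ℝ` or `Cardinal.lift`) is algebraically closed of characteristic `0`,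
    of cardinality `𝔠` : `≤` by `MvPolynomial.cardinalMk_le_max`, `IsLocalization`/`FractionRing` cardinality (`IsLocalization.cardinalMk_le`), `Algebra.IsAlgebraic.cardinalMk_le_max`;
    `≥` since `X : ℝ → L` is injective.
(3) `IsAlgClosed.ringEquiv_of_equiv_of_charZero` (`Mathlib/FieldTheory/IsAlgClosed/Classification.lean`): `L ≃+* ℂ` (`Cardinal.mk_complex`).  Compose with `k → L`.
ALTERNATIVE: a transcendence basis of `k/ℚ` is countable, `ℂ/ℚ` has an uncountable one; map the basis injectively, `IsAlgClosed.lift`.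
-/

set_option autoImplicit false

namespace Fermat.Agent.S27.L

open Cardinal

theorem embAux_card {k : Type*} [Field k] (C : Set k) (hC : C.Finite)
    (halg : ∀ z : k, IsAlgebraic (Subfield.closure C) z) : #k ≤ ℵ₀ := by
  have h1 : Algebra.IsAlgebraic (Subfield.closure C) k := ⟨halg⟩
  have h2 := Algebra.IsAlgebraic.cardinalMk_le_max (Subfield.closure C) k
  have h3 : #(Subfield.closure C) ≤ ℵ₀ := by
    refine (Subfield.cardinalMk_closure_le_max C).trans (max_le ?_ le_rfl)
    have := hC.to_subtype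
    exact (Cardinal.lt_aleph0_of_finite _).le
  exact h2.trans (max_le h3 le_rfl)

/-- [S27/L-EMB] -/
theorem exists_emb_complex {k : Type*} [Field k] [CharZero k] (C : Set k) (hC : C.Finite)
    (halg : ∀ z : k, IsAlgebraic (Subfield.closure C) z) : Nonempty (k →+* ℂ) := by
  have hk : #k ≤ ℵ₀ := embAux_card C hC halg
  obtain ⟨s, hs⟩ := exists_isTranscendenceBasis ℤ k
  obtain ⟨t, ht⟩ := exists_isTranscendenceBasis ℤ ℂ
  have hC' : ℵ₀ < #ℂ := by
    rw [Cardinal.mk_complex]
    exact Cardinal.aleph0_lt_continuum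
  have htc : #ℂ = #t :=
    IsAlgClosed.cardinal_eq_cardinal_transcendence_basis_of_aleph0_lt' _ ht (le_of_eq mk_int) hC'
  have hsc : #s ≤ ℵ₀ := (Cardinal.mk_set_le s).trans hk
  obtain ⟨e⟩ : Nonempty (s ↪ t) := by
    rw [← Cardinal.lift_mk_le']
    calc Cardinal.lift #s ≤ Cardinal.lift ℵ₀ := Cardinal.lift_le.2 hsc
      _ = ℵ₀ := Cardinal.lift_aleph0
      _ = Cardinal.lift ℵ₀ := Cardinal.lift_aleph0.symm
      _ ≤ Cardinal.lift #t := Cardinal.lift_le.2 (by rw [← htc]; exact hC'.le)
  have hind : AlgebraicIndependent ℤ (fun i : s => ((e i : t) : ℂ)) :=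
    ht.1.comp e e.injective
  let φ : Algebra.adjoin ℤ (Set.range ((↑) : s → k)) →+* ℂ :=
    (MvPolynomial.aeval (fun i : s => ((e i : t) : ℂ)) : MvPolynomial s ℤ →ₐ[ℤ] ℂ).toRingHom.comp
      hs.1.aevalEquiv.symm.toRingEquiv.toRingHom
  have hφ : Function.Injective φ := by
    intro a b hab
    exact hs.1.aevalEquiv.symm.injective (hind hab)
  let _ : Algebra (Algebra.adjoin ℤ (Set.range ((↑) : s → k))) ℂ := φ.toAlgebra
  have h1 : Algebra.IsAlgebraic (Algebra.adjoin ℤ (Set.range ((↑) : s → k))) k := hs.isAlgebraic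
  have h2 : FaithfulSMul (Algebra.adjoin ℤ (Set.range ((↑) : s → k))) ℂ :=
    (faithfulSMul_iff_algebraMap_injective _ _).2 hφ
  exact ⟨(IsAlgClosed.lift : k →ₐ[Algebra.adjoin ℤ (Set.range ((↑) : s → k))] ℂ).toRingHom⟩

end Fermat.Agent.S27.L
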