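import Fermat.Agent.S27.L.BC
import Fermat.Agent.S27.AR.Step
import Fermat.Agent.S24.Embed

/-!
# S27, block L : general lemmas on ONE function field `F/K` (`K` algebraically closed, characteristic `0`, `h : IsFF K F`).     (owner helper3)

Black boxes: `S27/AR/Main.lean` (reg_iff, van_sub_val, val_eq_of_van, val_add, val_mul, val_algebraMap, finite_L, rr, finrank_H1_mono, exists_eq_algebraMap, infinite_place,
exists_nonspecial), `S27/AR/Local.lean` (`AR.exists_unif`, `AR.dv`, `AR.dv_apply`, `AR.degree_dv`, `AR.degree_nonneg`, `AR.degree_pos_of`, `AR.degree_add_single`),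
`S27/AR/Step.lean` (`AR.L_le_sup_span`), `S37/Riemann.lean` (`IsFF.riemann`, `RiemannAux.eq_zero_of_degree_eq_zero`, `RiemannAux.finrank_le_step`; `RiemannAux.LL D` and `riemannRochSpace D` have the same carrier),
Prelude `mem_riemannRochSpace_iff : f ∈ riemannRochSpace D ↔ ∀ v, f = 0 ∨ -D v ≤ v.ord f`.

## key S27/L-FF1 : `exists_place_of_valuationSubring`  (~60 lines)
`h = ⟨x, hx, hfin⟩`; `x ∈ O` or `x⁻¹ ∈ O` (`O.mem_or_inv_mem`); replace `x` by `y = x⁻¹` in the second case (`S24.transcendental_inv`, `S24.finiteDimensional_adjoin_inv`).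
Set-up EXACTLY as in `S24.finite_residueField_of_mem` (`S24/Places.lean`): `R := integralClosure (Algebra.adjoin K {y}) F` is a Dedekind domain with fraction field `F`.
`R ⊆ O`: `S24.adjoin_le_valuationSubring y O hK hy` + `S24.mem_valuationSubring_of_isIntegral` (see the proof of `S24.exists_heightOneSpectrum_of_le'`).
`S24.exists_heightOneSpectrum_of_valuationSubring O hO _ : ∃ w, O = (w.valuation F).valuationSubring`;  `P := Place.ofHeightOneSpectrum w`, `Place.ofHeightOneSpectrum_toValuationSubring`.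
## key S27/L-FF2 : `reg_smul`, `val_smul`, `ord_smul'`  (~50 lines)
`SemilinearAut.ord_smul g v f : (g • v).ord (g • f) = v.ord f`.  `val_smul`: `c = val P z`, `Van P (z - c)` (`van_sub_val`), so `Van (g • P) (g • z - algebraMap (baseAut g c))`
(`smul_sub`, `SemilinearAut.smul_algebraMap`, `ord_smul`; `g • y = 0 ↔ y = 0`), `val_eq_of_van`.
## key S27/L-FF3 : `L_eq_bot`, `finrank_L_add_single_le`, `finrank_L_add_dv`, `principal_of_L_ne_bot`, `exists_mem_L`  (~200 lines)
`L_eq_bot`: `f ∈ L(D)`, `f ≠ 0`: `D + dv f ≥ 0`, so `0 ≤ deg (D + dv f) = deg D`.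
`finrank_L_add_single_le`: `AR.L_le_sup_span` (or `L(D+P) = L(D)`), `Submodule.finrank_add_le_finrank_add_finrank`, `finrank_span_singleton`; finiteness: `finite_L`.
`finrank_L_add_dv`: `y ↦ f * y` is a `K`-linear equivalence `L(D + dv f) ≃ L(D)` (`LinearEquiv.finrank_eq`; `Place.ord_mul`).
`principal_of_L_ne_bot`: `f ∈ L(D)`, `f ≠ 0`, `D + dv f ≥ 0` of degree `0`, so `= 0` (`RiemannAux.eq_zero_of_degree_eq_zero`), `D v = v.ord f⁻¹` (`Place.ord_inv`).
`exists_mem_L`: restatement of `IsFF.riemann`.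
## key S27/L-FF4 : `le_genus`, `exists_eq_genus`  (~100 lines)
`le_genus`: `rr`, `0 ≤ finrank H1`.   `exists_eq_genus`: `exists_nonspecial h ∅` gives `D₁ = sumPl P'` with `finrank H1 D₁ = 0`; `γ` from `exists_mem_L`; `m₀ = (γ + deg D₁).toNat`.  For `m ≥ m₀`:
`f ≠ 0` in `L(mP - D₁)`, i.e. `D₁ ≤ mP + dv f`; `finrank_H1_mono`: `finrank H1 (mP + dv f) = 0`; `rr` for `mP + dv f` (degree `m`: `AR.degree_dv`, `RiemannAux.degree_single_one`, `map_nsmul`/`Divisor.degree_single` + `h.deg_eq_one`) and `finrank_L_add_dv`.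
-/

set_option autoImplicit false

noncomputable section

namespace Fermat.Agent.S27.L

open AlgebraicCurve Fermat.Agent.S37

variable {K F : Type*} [Field K] [Field F] [Algebra K F] [IsAlgClosed K] [CharZero K]

/-- [S27/L-FF1] a nontrivial valuation ring of `F/K` is a place -/
theorem exists_place_of_valuationSubring (h : IsFF K F) (O : ValuationSubring F)
    (hK : ∀ a : K, algebraMap K F a ∈ O) (hO : O ≠ ⊤) :
    ∃ P : Place K F, P.toValuationSubring = O := by
  obtain ⟨x, hx, hfin⟩ := h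
  rcases O.mem_or_inv_mem x with hxO | hxO
  · exact S24.exists_place_of_valuationSubring x hx hfin O hO hK hxO
  · exact S24.exists_place_of_valuationSubring x⁻¹ (S24.transcendental_inv x hx)
      (S24.finiteDimensional_adjoin_inv x hfin) O hO hK hxO

omit [IsAlgClosed K] [CharZero K] in
/-- [S27/L-FF2] -/
theorem reg_smul (g : SemilinearAut K F) (P : Place K F) (z : F) :
    Reg (g • P) (g • z) ↔ Reg P z := by
  rw [Reg, Reg, S24.mem_iff_ord_nonneg, S24.mem_iff_ord_nonneg, SemilinearAut.ord_smul]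

/-- [S27/L-FF2] -/
theorem val_smul (h : IsFF K F) (g : SemilinearAut K F) (P : Place K F) {z : F} (hz : Reg P z) :
    val (g • P) (g • z) = SemilinearAut.baseAut g (val P z) := by
  apply val_eq_of_van h
  have h1 := van_sub_val h hz
  rw [← SemilinearAut.smul_algebraMap, ← smul_sub]
  rcases h1 with h1 | h1
  · left
    rw [h1, smul_zero]
  · right
    rw [SemilinearAut.ord_smul]
    exact h1

omit [IsAlgClosed K] [CharZero K] in
/-- [S27/L-FF2] -/
theorem ord_smul' (g : SemilinearAut K F) (P : Place K F) (z : F) :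
    P.ord (g • z) = (g⁻¹ • P).ord z := by
  have := SemilinearAut.ord_smul g (g⁻¹ • P) z
  rwa [smul_inv_smul] at this

/-- [S27/L-FF3] -/
theorem L_eq_bot (h : IsFF K F) {D : Divisor K F} (hD : Divisor.degree D < 0) :
    riemannRochSpace D = ⊥ :=
  AR.L_eq_bot_of_degree_neg h hD

/-- [S27/L-FF3] -/
theorem finrank_L_add_single_le (h : IsFF K F) (D : Divisor K F) (P : Place K F) :
    Module.finrank K (riemannRochSpace (D + Finsupp.single P 1)) ≤
      Module.finrank K (riemannRochSpace D) + 1 := by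
  by_cases hex : ∃ f ∈ riemannRochSpace (D + Finsupp.single P 1), f ∉ riemannRochSpace D
  · rw [(AR.finrank_L_step h D P).2 hex]
  · rw [(AR.finrank_L_step h D P).1 hex]
    omega

/-- [S27/L-FF3] -/
theorem finrank_L_add_dv (h : IsFF K F) (D : Divisor K F) {f : F} (hf : f ≠ 0) :
    Module.finrank K (riemannRochSpace (D + AR.dv h f)) =
      Module.finrank K (riemannRochSpace D) :=
  AR.finrank_L_add_dv h D hf

/-- [S27/L-FF3] -/
theorem principal_of_L_ne_bot (h : IsFF K F) {D : Divisor K F} (hD : Divisor.degree D = 0)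
    (hL : riemannRochSpace D ≠ ⊥) : D ∈ Divisor.principal (K := K) (F := F) := by
  obtain ⟨f, hf, hf0⟩ := (Submodule.ne_bot_iff _).1 hL
  have h1 : ∀ v, 0 ≤ (D + AR.dv h f) v := by
    intro v
    rw [Finsupp.add_apply, AR.dv_apply h hf0]
    rcases (mem_riemannRochSpace_iff.1 hf) v with h2 | h2
    · exact absurd h2 hf0
    · omega
  have h2 : D + AR.dv h f = 0 := by
    apply RiemannAux.eq_zero_of_degree_eq_zero h _ h1
    rw [map_add, AR.degree_dv, hD, add_zero]
  refine ⟨f⁻¹, inv_ne_zero hf0, fun v => ?_⟩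
  have h3 := DFunLike.congr_fun h2 v
  rw [Finsupp.add_apply, AR.dv_apply h hf0, Finsupp.zero_apply] at h3
  rw [Place.ord_inv]
  omega

/-- [S27/L-FF3] Riemann -/
theorem exists_mem_L (h : IsFF K F) : ∃ γ : ℤ, ∀ D : Divisor K F, γ ≤ Divisor.degree D →
    ∃ f ∈ riemannRochSpace D, f ≠ 0 := by
  obtain ⟨γ, hγ⟩ := h.riemann
  refine ⟨γ, fun D hD => ?_⟩
  obtain ⟨g, hg, hg'⟩ := hγ D hD
  refine ⟨g, mem_riemannRochSpace_iff.2 fun v => Or.inr ?_, hg⟩
  have := hg' v
  omega

/-- [S27/L-FF4] -/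
theorem le_genus (h : IsFF K F) (D : Divisor K F) :
    Divisor.degree D + 1 - Module.finrank K (riemannRochSpace D) ≤ genusFF K F := by
  have := rr h D
  omega

/-- [S27/L-FF4] -/
theorem exists_eq_genus (h : IsFF K F) (P : Place K F) : ∃ m₀ : ℕ, ∀ m : ℕ, m₀ ≤ m →
    (m : ℤ) + 1 - Module.finrank K (riemannRochSpace (Finsupp.single P (m : ℤ))) =
      genusFF K F := by
  obtain ⟨P', -, -, hP'⟩ := exists_nonspecial h ∅ Set.finite_empty
  obtain ⟨γ, hγ⟩ := exists_mem_L h
  refine ⟨(γ + Divisor.degree (sumPl P')).toNat, fun m hm => ?_⟩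
  have hdeg : Divisor.degree (Finsupp.single P (m : ℤ) : Divisor K F) = m := by
    rw [Divisor.degree_single, h.deg_eq_one]; simp
  obtain ⟨f, hf, hf0⟩ := hγ (Finsupp.single P (m : ℤ) - sumPl P') (by
    rw [map_sub, hdeg]
    have := Int.self_le_toNat (γ + Divisor.degree (sumPl P'))
    omega)
  have hle : sumPl P' ≤ Finsupp.single P (m : ℤ) + AR.dv h f := by
    intro v
    rw [Finsupp.add_apply, AR.dv_apply h hf0]
    rcases (mem_riemannRochSpace_iff.1 hf) v with h2 | h2
    · exact absurd h2 hf0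
    · rw [Finsupp.sub_apply] at h2
      omega
  have h1 := finrank_H1_mono h hle
  have h2 := rr h (Finsupp.single P (m : ℤ) + AR.dv h f)
  rw [finrank_L_add_dv h _ hf0, map_add, AR.degree_dv, hdeg] at h2
  omega

end Fermat.Agent.S27.L
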