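import Fermat.Agent.S27.L.Lift
import Fermat.Agent.S27.L.FF

/-!
# S27, block L : extension of places in a base change situation.      (owner helper3)

`H : BC j ι`.  `Above ι Q P := ∀ f, Reg Q (ι f) ↔ Reg P f`  (`Reg P y := y ∈ P.toValuationSubring`, `reg_iff : Reg P y ↔ 0 ≤ P.ord y`).

## key S27/L-EXT1 : `exists_functional`, `exists_above`  (~250 lines)
`exists_functional`: `(I, 𝔅, 𝔟)` from `exists_basis H`; `l1 := 𝔟.constr K1 (fun i => j (l (𝔅 i)))`; `l1 (ι f) = ∑ j (f_i) * j (l 𝔅_i) = j (l f)` (second part of `exists_basis`, `Module.Basis.constr_apply`, `𝔅.sum_repr`).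
`exists_above`: `π` with `P.ord π = 1` (`AR.exists_unif`).  `B := ` the subring of `F1` with carrier `span K1 (ι '' O_P)` (closed under `*` as in `mul_mem_A`; contains `K1`).
(i) `ι π` is not a unit of `B`: the `K0`-subspace `π O_P = {f | f = 0 ∨ 1 ≤ P.ord f}` of `F0` does not contain `1`; choose `l : F0 →ₗ[K0] K0` with `l = 0` on it and `l 1 = 1`
   (`Submodule.exists_le_ker_of_notMem`/`Submodule.exists_dual_map_eq_bot_of_notMem`-type lemma, or a complement); `l1` from `exists_functional`.  If `ι π * b = 1`, `b = ∑ e_k • ι f_k`, `f_k ∈ O_P`, then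
   `1 = l1 1 = ∑ e_k * j (l (π f_k)) = 0`.
(ii) a maximal ideal `𝔪 ∋ ι π` of `B` (`Ideal.exists_le_maximal`), `R := Localization.AtPrime 𝔪 → F1` (`IsLocalization.lift`, as in `S14.Br.exists_over`, file `S14/BridgePlaces.lean`), `IsLocalRing.exists_factor_valuationRing` gives
   `O : ValuationSubring F1` with `B ⊆ O` and `ι π` a nonunit of `O`.   (or `LocalSubring.ofPrime`, `LocalSubring.exists_le_valuationSubring`, `Mathlib/RingTheory/Valuation/LocalSubring.lean`.)
(iii) `O ≠ ⊤`, `K1 ⊆ O`: `Q` from `exists_place_of_valuationSubring H.ff1`.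
(iv) `Above`: `f ∈ O_P ⟹ ι f ∈ B ⊆ O`.  `f ∉ O_P ⟹ f⁻¹ = π * h`, `h ∈ O_P`, so `ι f⁻¹ = ι π * ι h` is a nonunit of `O`, so `ι f ∉ O`.
## key S27/L-EXT2 : `gauss`  (~200 lines)
`a = ∑ e_i ι f_i`, `e_i` independent over `K0` (`exists_repr_left H.comm ha`); some `f_i ≠ 0`; `m := min {P.ord f_i | f_i ≠ 0}`; `f_i = π^m f_i'`, `f_i'` regular at `P`, `P.ord f_{i0}' = 0`.
`c_i := val P f_i'`, `c_{i0} ≠ 0` (`val_eq_zero_iff`), `f_i' - c_i = π h_i`, `h_i` regular at `P` (`van_sub_val H.ff0`).  `a = (ι π)^m (C + ι π * ∑ e_i ι h_i)`, `C = algebraMap (∑ e_i j c_i)`, `∑ e_i j c_i ≠ 0`.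
For `Q` above `P`: `ι h_i`, `e_i ∈ O_Q`; `0 < Q.ord (ι π)` (`π ∈ O_P`, `π⁻¹ ∉ O_P`); `Q.ord C = 0` (`C` and `C⁻¹` are in `O_Q`: `Q.algebraMap_mem'`).  So `Q.ord (C + ι π * s) = 0` (`C + ι π s` is in `O_Q`, and it is a unit:
otherwise `C = (C + ι π s) - ι π s` would be a nonunit.  In terms of `Q.adicValuation`: `Valuation.map_add_eq_of_lt_right`).  `Place.ord_mul`, `Place.ord_zpow`.
## key S27/L-EXT3 : `above_unique`, `ord_of_above`  (~150 lines)
`z ∈ F1`, `z ≠ 0`, `z * b = a` (`H.gen`), `a ≠ 0`: `Q.ord z = (m_a - m_b) * Q.ord (ι π)` with `m_a, m_b` from `gauss`, independent of `Q`; `Q.ord (ι π) > 0`.  So `Reg Q z ↔ m_b ≤ m_a ↔ Reg Q' z`; `Place.ext`, `ValuationSubring.ext`.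
`Q.ord (ι π) = 1`: take `z` with `Q.ord z = 1` (`AR.exists_unif`): `1 = (m_a - m_b) * Q.ord (ι π)`, `Int.eq_one_or_neg_one_of_mul_eq_one`-type.  `f ≠ 0`: `f = π^n u`, `n = P.ord f`, `P.ord u = 0`, so `u, u⁻¹ ∈ O_P`, `ι u, ι u⁻¹ ∈ O_Q`,
`Q.ord (ι u) = 0`; `Q.ord (ι f) = n`.
## key S27/L-EXT4 : `exists_below` and the API of `ext`  (~200 lines)
`exists_below`: `O := Q.toValuationSubring.comap ι`, contains `K0` (`H.comm`, `Q.algebraMap_mem'`), `≠ ⊤` (`y` or `y⁻¹` is not in it: `Place.ord_inv`, `reg_iff`); `exists_place_of_valuationSubring H.ff0`.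
`ext_injective`: `Place.ext`, `ValuationSubring.ext`.   `val_ext`: `van_sub_val H.ff0`, `ord_ext`, `H.comm`, `val_eq_of_van H.ff1`.   `smul_ext`: `Above ι (g • ext H P) P` by `reg_smul` and `hg`; `eq_ext`.
-/

set_option autoImplicit false

noncomputable section

namespace Fermat.Agent.S27.L

open AlgebraicCurve Fermat.Agent.S37

variable {K0 K1 F0 F1 : Type*} [Field K0] [Field K1] [Field F0] [Field F1]
  [Algebra K0 F0] [Algebra K1 F1] {j : K0 →+* K1} {ι : F0 →+* F1}

/-- [S27/L-EXT1] extension of `K0`-linear functionals -/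
theorem exists_functional (H : BC j ι) (l : F0 →ₗ[K0] K0) :
    ∃ l1 : A (K1 := K1) ι →ₗ[K1] K1, ∀ f : F0, l1 ⟨ι f, map_mem_A f⟩ = j (l f) := by
  obtain ⟨I, 𝔅, 𝔟, -, h2⟩ := exists_basis H
  refine ⟨𝔟.constr K1 (fun i => j (l (𝔅 i))), fun f => ?_⟩
  rw [Module.Basis.constr_apply]
  have hsub : (𝔟.repr ⟨ι f, map_mem_A f⟩).support ⊆ (𝔅.repr f).support := by
    intro i hi
    rw [Finsupp.mem_support_iff, h2] at hi
    rw [Finsupp.mem_support_iff]
    intro h0
    exact hi (by rw [h0, map_zero])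
  rw [Finsupp.sum_of_support_subset _ hsub (fun b a => a • j (l (𝔅 b))) (fun i _ => zero_smul _ _)]
  have h3 : f = ∑ i ∈ (𝔅.repr f).support, 𝔅.repr f i • 𝔅 i := by
    conv_lhs => rw [← 𝔅.linearCombination_repr f, Finsupp.linearCombination_apply, Finsupp.sum]
  conv_rhs => rw [h3]
  rw [map_sum, map_sum]
  refine Finset.sum_congr rfl fun i _ => ?_
  rw [h2, map_smul, smul_eq_mul, smul_eq_mul, map_mul]

variable [IsAlgClosed K0] [CharZero K0] [IsAlgClosed K1] [CharZero K1]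

omit [IsAlgClosed K0] [CharZero K0] [IsAlgClosed K1] [CharZero K1] in
theorem extAux_unif_ne_zero {P : Place K0 F0} {π : F0} (hπ : P.ord π = 1) : π ≠ 0 := by
  rintro rfl
  rw [Place.ord_zero] at hπ
  exact zero_ne_one hπ

/-- [S27/L-EXT1] -/
theorem exists_above (H : BC j ι) (P : Place K0 F0) : ∃ Q : Place K1 F1, Above ι Q P := by
  obtain ⟨π, hπ⟩ := AR.exists_unif P
  have hπ0 : π ≠ 0 := extAux_unif_ne_zero hπ
  have hπv : P.adicValuation π < 1 := by
    rw [P.adicValuation_eq_exp_neg_ord hπ0, hπ, ← WithZero.exp_zero, WithZero.exp_lt_exp]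
    omega
  set S : Set F1 := ι '' (P.toValuationSubring : Set F0) with hS
  let B : Subalgebra K1 F1 := Algebra.adjoin K1 S
  have hSB : ∀ f ∈ P.toValuationSubring, ι f ∈ B := fun f hf =>
    Algebra.subset_adjoin ⟨f, hf, rfl⟩
  have hBspan : ∀ b ∈ B, b ∈ Submodule.span K1 S := by
    intro b hb
    have h1 : b ∈ Subalgebra.toSubmodule B := hb
    rw [Algebra.adjoin_eq_span] at h1
    have h2 : (Submonoid.closure S : Set F1) = S := by
      have : S = ((P.toValuationSubring.toSubring.toSubmonoid.map (ι : F0 →* F1) :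
          Submonoid F1) : Set F1) := rfl
      rw [this, Submonoid.closure_eq]
    rwa [h2] at h1
  -- the functional
  let W : Submodule K0 F0 :=
    { carrier := {f | P.adicValuation f < 1}
      add_mem' := fun {a b} ha hb => by
        show P.adicValuation (a + b) < 1
        exact lt_of_le_of_lt (Valuation.map_add _ _ _) (max_lt ha hb)
      zero_mem' := by
        show P.adicValuation 0 < 1
        rw [map_zero]; exact zero_lt_one
      smul_mem' := fun c f hf => by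
        show P.adicValuation (c • f) < 1
        rw [Algebra.smul_def, map_mul]
        exact lt_of_le_of_lt (mul_le_of_le_one_left' (P.adicValuation_algebraMap_le_one c)) hf }
  have h1W : (1 : F0) ∉ W := by
    intro h
    have h' : P.adicValuation 1 < 1 := h
    rw [map_one] at h'
    exact lt_irrefl _ h'
  obtain ⟨l0, hl0, hl0W⟩ := Submodule.exists_le_ker_of_notMem h1W
  let l : F0 →ₗ[K0] K0 := (l0 1)⁻¹ • l0
  have hl1 : l 1 = 1 := by
    show (l0 1)⁻¹ * l0 1 = 1
    exact inv_mul_cancel₀ hl0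
  have hlW : ∀ w ∈ W, l w = 0 := by
    intro w hw
    show (l0 1)⁻¹ * l0 w = 0
    rw [LinearMap.mem_ker.1 (hl0W hw), mul_zero]
  obtain ⟨l1, hl1'⟩ := exists_functional H l
  have key : Submodule.span K1 S ≤
      ((LinearMap.ker l1).map (A (K1 := K1) ι).subtype).comap (LinearMap.mulLeft K1 (ι π)) := by
    rw [Submodule.span_le]
    rintro _ ⟨f, hf, rfl⟩
    refine ⟨⟨ι (π * f), map_mem_A _⟩, ?_, ?_⟩
    · show l1 _ = 0
      rw [hl1', hlW, map_zero]
      show P.adicValuation (π * f) < 1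
      rw [map_mul]
      exact lt_of_le_of_lt (mul_le_of_le_one_right' ((RiemannAux.val_le_one_iff P f).2 hf)) hπv
    · show ι (π * f) = ι π * ι f
      rw [map_mul]
  have hπB : ι π ∈ B.toSubring := hSB π ((S24.mem_iff_ord_nonneg P).2 (by omega))
  have hI : Ideal.span {(⟨ι π, hπB⟩ : B.toSubring)} ≠ ⊤ := by
    rw [Ne, Ideal.span_singleton_eq_top]
    intro hu
    obtain ⟨b, hb⟩ := isUnit_iff_exists_inv.1 hu
    have hb' : ι π * (b : F1) = 1 := congrArg Subtype.val hb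
    obtain ⟨x, hx, hx1⟩ := key (hBspan b b.2)
    have hx2 : x = ⟨ι 1, map_mem_A 1⟩ := by
      apply Subtype.ext
      show (x : F1) = ι 1
      rw [map_one, ← hb']
      exact hx1
    have hx3 : l1 x = 0 := hx
    rw [hx2, hl1', hl1, map_one] at hx3
    exact one_ne_zero hx3
  obtain ⟨O, hBO, hIO⟩ := Ideal.image_subset_nonunits_valuationSubring _ hI
  have hπO : ι π ∈ O.nonunits :=
    hIO ⟨⟨ι π, hπB⟩, Ideal.subset_span rfl, rfl⟩
  have hιπ0 : ι π ≠ 0 := (map_ne_zero ι).2 hπ0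
  have hO : O ≠ ⊤ := by
    intro h
    rcases (ValuationSubring.mem_nonunits_iff_or O).1 hπO with h1 | h1
    · exact hιπ0 h1
    · exact h1 (by rw [h]; exact ValuationSubring.mem_top _)
  obtain ⟨Q, hQ⟩ := exists_place_of_valuationSubring H.ff1 O
    (fun c => hBO (B.algebraMap_mem c)) hO
  refine ⟨Q, fun f => ?_⟩
  rw [Reg, Reg, hQ]
  constructor
  · intro hf
    by_contra hfP
    have hf0 : f ≠ 0 := by
      rintro rfl
      exact hfP (zero_mem _)
    have hord : P.ord f < 0 := by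
      rw [S24.mem_iff_ord_nonneg] at hfP
      omega
    have hh : f⁻¹ * π⁻¹ ∈ P.toValuationSubring := by
      rw [S24.mem_iff_ord_nonneg, P.ord_mul (inv_ne_zero hf0) (inv_ne_zero hπ0), P.ord_inv,
        P.ord_inv, hπ]
      omega
    have h1 : (ι f)⁻¹ = ι π * ι (f⁻¹ * π⁻¹) := by
      rw [← map_mul, ← map_inv₀]
      congr 1
      field_simp
    have h2 : (ι f)⁻¹ ∈ O.nonunits := by
      rw [h1, ValuationSubring.mem_nonunits_iff, map_mul]
      have h3 : O.valuation (ι π) < 1 := (ValuationSubring.mem_nonunits_iff O).1 hπO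
      have h4 : O.valuation (ι (f⁻¹ * π⁻¹)) ≤ 1 :=
        (ValuationSubring.valuation_le_one_iff O _).2 (hBO (hSB _ hh))
      exact lt_of_le_of_lt (mul_le_of_le_one_right' h4) h3
    rcases (ValuationSubring.inv_mem_nonunits_iff O).1 h2 with h3 | h3
    · exact (map_ne_zero ι).2 hf0 h3
    · exact h3 hf
  · intro hf
    exact hBO (hSB f hf)

omit [IsAlgClosed K0] [CharZero K0] [IsAlgClosed K1] [CharZero K1] in
theorem extAux_unif_pos {P : Place K0 F0} {Q : Place K1 F1} (hQ : Above ι Q P) {π : F0}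
    (hπ : P.ord π = 1) : 0 < Q.ord (ι π) := by
  have h1 : ¬ Reg P π⁻¹ := by
    rw [Reg, S24.mem_iff_ord_nonneg, P.ord_inv, hπ]
    omega
  have h2 : ¬ Reg Q (ι π⁻¹) := fun h => h1 ((hQ _).1 h)
  rw [Reg, S24.mem_iff_ord_nonneg, map_inv₀, Q.ord_inv] at h2
  omega

/-- [S27/L-EXT2] the Gauss valuation -/
theorem gauss (H : BC j ι) (P : Place K0 F0) {π : F0} (hπ : P.ord π = 1) {a : F1}
    (ha : a ∈ A (K1 := K1) ι) (ha0 : a ≠ 0) :
    ∃ m : ℤ, ∀ Q : Place K1 F1, Above ι Q P → Q.ord a = m * Q.ord (ι π) := by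
  classical
  have hπ0 : π ≠ 0 := extAux_unif_ne_zero hπ
  obtain ⟨n, e, f, hind, hsum⟩ := exists_repr_left H.comm ha
  have hex : (Finset.univ.filter fun i => f i ≠ 0).Nonempty := by
    by_contra hcon
    rw [Finset.not_nonempty_iff_eq_empty, Finset.filter_eq_empty_iff] at hcon
    apply ha0
    rw [hsum]
    refine Finset.sum_eq_zero fun i _ => ?_
    have : f i = 0 := not_not.1 (hcon (Finset.mem_univ i))
    rw [this, map_zero, mul_zero]
  obtain ⟨i0, hi0, hmin⟩ := Finset.exists_min_image _ (fun i => P.ord (f i)) hex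
  rw [Finset.mem_filter] at hi0
  have hi0' : f i0 ≠ 0 := hi0.2
  set m : ℤ := P.ord (f i0) with hm
  have hmin' : ∀ i, f i ≠ 0 → m ≤ P.ord (f i) := fun i hi =>
    hmin i (Finset.mem_filter.2 ⟨Finset.mem_univ i, hi⟩)
  let f' : Fin n → F0 := fun i => f i * π ^ (-m)
  have hπm : π ^ (-m) ≠ 0 := zpow_ne_zero _ hπ0
  have hf'ord : ∀ i, f i ≠ 0 → P.ord (f' i) = P.ord (f i) - m := by
    intro i hi
    show P.ord (f i * π ^ (-m)) = _
    rw [P.ord_mul hi hπm, P.ord_zpow, hπ]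
    ring
  have hf'reg : ∀ i, Reg P (f' i) := by
    intro i
    by_cases hi : f i = 0
    · show f i * π ^ (-m) ∈ _
      rw [hi, zero_mul]
      exact zero_mem _
    · rw [reg_iff, hf'ord i hi]
      have := hmin' i hi
      omega
  let c : Fin n → K0 := fun i => val P (f' i)
  have hc0 : c i0 ≠ 0 := by
    intro h0
    rcases (val_eq_zero_iff H.ff0 (hf'reg i0)).1 h0 with h1 | h1
    · exact mul_ne_zero hi0' hπm h1
    · rw [hf'ord i0 hi0'] at h1
      omega
  let h : Fin n → F0 := fun i => (f' i - algebraMap K0 F0 (c i)) * π⁻¹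
  have hreg : ∀ i, Reg P (h i) := by
    intro i
    rcases van_sub_val H.ff0 (hf'reg i) with h1 | h1
    · show (f' i - algebraMap K0 F0 (c i)) * π⁻¹ ∈ _
      have h1' : f' i - algebraMap K0 F0 (c i) = 0 := h1
      rw [h1', zero_mul]
      exact zero_mem _
    · have h1' : 0 < P.ord (f' i - algebraMap K0 F0 (c i)) := h1
      have hne : f' i - algebraMap K0 F0 (c i) ≠ 0 := by
        intro h0
        rw [h0, Place.ord_zero] at h1'
        exact lt_irrefl _ h1'
      rw [reg_iff]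
      show 0 ≤ P.ord ((f' i - algebraMap K0 F0 (c i)) * π⁻¹)
      rw [P.ord_mul hne (inv_ne_zero hπ0), P.ord_inv, hπ]
      omega
  have hfi : ∀ i, f i = π ^ m * (algebraMap K0 F0 (c i) + π * h i) := by
    intro i
    show f i = π ^ m * (algebraMap K0 F0 (c i) + π * ((f i * π ^ (-m) - algebraMap K0 F0 (c i)) * π⁻¹))
    rw [zpow_neg]
    have : π ^ m ≠ 0 := zpow_ne_zero _ hπ0
    field_simp
    ring
  set C0 : K1 := ∑ i, e i * j (c i) with hC0
  have hC0ne : C0 ≠ 0 := by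
    intro h0
    apply hc0
    apply hind c
    rw [← h0, hC0]
    exact Finset.sum_congr rfl fun i _ => mul_comm _ _
  set s : F1 := ∑ i, algebraMap K1 F1 (e i) * ι (h i) with hs
  have hιπ0 : ι π ≠ 0 := (map_ne_zero ι).2 hπ0
  have ha' : a = (ι π) ^ m * (algebraMap K1 F1 C0 + ι π * s) := by
    rw [hsum, hC0, hs, map_sum, Finset.mul_sum, ← Finset.sum_add_distrib, Finset.mul_sum]
    refine Finset.sum_congr rfl fun i _ => ?_
    conv_lhs => rw [hfi i]
    rw [map_mul (algebraMap K1 F1), map_mul ι, map_zpow₀, map_add ι, map_mul ι π, H.comm]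
    ring
  refine ⟨m, fun Q hQ => ?_⟩
  have hpos := extAux_unif_pos hQ hπ
  have hsQ : Q.adicValuation s ≤ 1 := by
    rw [RiemannAux.val_le_one_iff, hs]
    exact sum_mem fun i _ => mul_mem (Q.algebraMap_mem' _) ((hQ _).2 (hreg i))
  have hπQ : Q.adicValuation (ι π) < 1 := by
    rw [Q.adicValuation_eq_exp_neg_ord hιπ0, ← WithZero.exp_zero, WithZero.exp_lt_exp]
    omega
  have hCQ : Q.adicValuation (algebraMap K1 F1 C0) = 1 := by
    rw [Q.adicValuation_eq_exp_neg_ord ((map_ne_zero _).2 hC0ne), AR.ord_algebraMap, neg_zero,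
      WithZero.exp_zero]
  have hlt : Q.adicValuation (ι π * s) < Q.adicValuation (algebraMap K1 F1 C0) := by
    rw [hCQ, map_mul]
    exact lt_of_le_of_lt (mul_le_of_le_one_right' hsQ) hπQ
  have hval : Q.adicValuation (algebraMap K1 F1 C0 + ι π * s) = WithZero.exp (0 : ℤ) := by
    rw [Valuation.map_add_eq_of_lt_left _ hlt, hCQ, WithZero.exp_zero]
  obtain ⟨hne, hord⟩ := (AR.adic_eq_exp_iff Q).1 hval
  rw [ha', Q.ord_mul (zpow_ne_zero _ hιπ0) hne, Q.ord_zpow, hord]
  ring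

theorem extAux_ord (H : BC j ι) (P : Place K0 F0) {π : F0} (hπ : P.ord π = 1) {z : F1}
    (hz : z ≠ 0) :
    ∃ m : ℤ, ∀ Q : Place K1 F1, Above ι Q P → Q.ord z = m * Q.ord (ι π) := by
  obtain ⟨a, ha, b, hb, hb0, hzb⟩ := H.gen z
  have ha0 : a ≠ 0 := by
    rw [← hzb]
    exact mul_ne_zero hz hb0
  obtain ⟨ma, hma⟩ := gauss H P hπ ha ha0
  obtain ⟨mb, hmb⟩ := gauss H P hπ hb hb0
  refine ⟨ma - mb, fun Q hQ => ?_⟩
  have h1 := hma Q hQ
  rw [← hzb, Q.ord_mul hz hb0, hmb Q hQ] at h1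
  rw [sub_mul]
  omega

/-- [S27/L-EXT3] -/
theorem above_unique (H : BC j ι) {P : Place K0 F0} {Q Q' : Place K1 F1} (hQ : Above ι Q P)
    (hQ' : Above ι Q' P) : Q = Q' := by
  obtain ⟨π, hπ⟩ := AR.exists_unif P
  have h1 := extAux_unif_pos hQ hπ
  have h2 := extAux_unif_pos hQ' hπ
  apply Place.ext
  apply ValuationSubring.ext
  intro z
  by_cases hz : z = 0
  · rw [hz]
    exact ⟨fun _ => zero_mem _, fun _ => zero_mem _⟩
  obtain ⟨m, hm⟩ := extAux_ord H P hπ hz
  rw [S24.mem_iff_ord_nonneg, S24.mem_iff_ord_nonneg, hm Q hQ, hm Q' hQ',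
    mul_nonneg_iff_of_pos_right h1, mul_nonneg_iff_of_pos_right h2]

/-- [S27/L-EXT3] -/
theorem ord_of_above (H : BC j ι) {P : Place K0 F0} {Q : Place K1 F1} (hQ : Above ι Q P)
    (f : F0) : Q.ord (ι f) = P.ord f := by
  obtain ⟨π, hπ⟩ := AR.exists_unif P
  have hπ0 : π ≠ 0 := extAux_unif_ne_zero hπ
  have h1 := extAux_unif_pos hQ hπ
  have hone : Q.ord (ι π) = 1 := by
    obtain ⟨z, hz⟩ := AR.exists_unif Q
    obtain ⟨m, hm⟩ := extAux_ord H P hπ (extAux_unif_ne_zero hz)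
    have h2 := hm Q hQ
    rw [hz] at h2
    exact Int.eq_one_of_mul_eq_one_left h1.le h2.symm
  by_cases hf : f = 0
  · rw [hf, map_zero, Place.ord_zero, Place.ord_zero]
  set n := P.ord f with hn
  have hπn : π ^ (-n) ≠ 0 := zpow_ne_zero _ hπ0
  have hu0 : f * π ^ (-n) ≠ 0 := mul_ne_zero hf hπn
  have hu : P.ord (f * π ^ (-n)) = 0 := by
    rw [P.ord_mul hf hπn, P.ord_zpow, hπ]
    omega
  have hu1 : Reg Q (ι (f * π ^ (-n))) := (hQ _).2 (by rw [reg_iff, hu])
  have hu2 : Reg Q (ι (f * π ^ (-n))⁻¹) := (hQ _).2 (by rw [reg_iff, P.ord_inv, hu, neg_zero])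
  rw [reg_iff] at hu1
  rw [reg_iff, map_inv₀, Q.ord_inv] at hu2
  have hu3 : Q.ord (ι (f * π ^ (-n))) = 0 := by omega
  rw [map_mul, map_zpow₀, Q.ord_mul ((map_ne_zero ι).2 hf)
    (zpow_ne_zero _ ((map_ne_zero ι).2 hπ0)), Q.ord_zpow, hone] at hu3
  omega

/-- [S27/L-EXT4] -/
theorem exists_below (H : BC j ι) (Q : Place K1 F1) {y : F0} (hy : Q.ord (ι y) ≠ 0) :
    ∃ P : Place K0 F0, Above ι Q P := by
  obtain ⟨P, hP⟩ := exists_place_of_valuationSubring H.ff0 (Q.toValuationSubring.comap ι)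
    (fun a => by
      rw [ValuationSubring.mem_comap, H.comm]
      exact Q.algebraMap_mem' _)
    (by
      intro htop
      have h1 : y ∈ Q.toValuationSubring.comap ι := by rw [htop]; exact ValuationSubring.mem_top _
      have h2 : y⁻¹ ∈ Q.toValuationSubring.comap ι := by
        rw [htop]; exact ValuationSubring.mem_top _
      rw [ValuationSubring.mem_comap, S24.mem_iff_ord_nonneg] at h1
      rw [ValuationSubring.mem_comap, S24.mem_iff_ord_nonneg, map_inv₀, Q.ord_inv] at h2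
      omega)
  refine ⟨P, fun f => ?_⟩
  rw [Reg, Reg, hP, ValuationSubring.mem_comap]

/-- the unique extension of a place of `F0` to `F1` -/
def ext (H : BC j ι) (P : Place K0 F0) : Place K1 F1 := (exists_above H P).choose

theorem ext_above (H : BC j ι) (P : Place K0 F0) : Above ι (ext H P) P :=
  (exists_above H P).choose_spec

theorem ord_ext (H : BC j ι) (P : Place K0 F0) (f : F0) : (ext H P).ord (ι f) = P.ord f :=
  ord_of_above H (ext_above H P) f

theorem eq_ext (H : BC j ι) {P : Place K0 F0} {Q : Place K1 F1} (hQ : Above ι Q P) :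
    Q = ext H P := above_unique H hQ (ext_above H P)

theorem exists_eq_ext (H : BC j ι) (Q : Place K1 F1) {y : F0} (hy : Q.ord (ι y) ≠ 0) :
    ∃ P : Place K0 F0, Q = ext H P := by
  obtain ⟨P, hP⟩ := exists_below H Q hy
  exact ⟨P, eq_ext H hP⟩

/-- [S27/L-EXT4] -/
theorem ext_injective (H : BC j ι) : Function.Injective (ext H) := by
  intro P P' h
  apply Place.ext
  apply ValuationSubring.ext
  intro f
  have h1 := ext_above H P f
  have h2 := ext_above H P' f
  rw [← h] at h2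
  exact h1.symm.trans h2

/-- [S27/L-EXT4] -/
theorem val_ext (H : BC j ι) (P : Place K0 F0) {f : F0} (hf : Reg P f) :
    val (ext H P) (ι f) = j (val P f) := by
  apply val_eq_of_van H.ff1
  rw [← H.comm, ← map_sub]
  rcases van_sub_val H.ff0 hf with h1 | h1
  · left
    rw [h1, map_zero]
  · right
    rw [ord_ext]
    exact h1

/-- [S27/L-EXT4] -/
theorem smul_ext (H : BC j ι) {g : SemilinearAut K1 F1} (hg : Fix ι g) (P : Place K0 F0) :
    g • ext H P = ext H P := by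
  apply eq_ext H
  intro f
  rw [← ext_above H P f, ← reg_smul g (ext H P) (ι f), hg f]

end Fermat.Agent.S27.L
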