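import Fermat.Agent.S27.L.Dom
import Fermat.Agent.S27.L.Emb
import Fermat.Agent.S27.L.Ext

/-!
# S27, block L : descent of a function field (and finitely many places) to a countable algebraically closed subfield.      (owner helper3)

## key S27/L-SUB1 : `exists_subfield`  (~120 lines; Mathlib + `exists_emb_complex`)
`k0 := Subfield.closure (C : Set K)`; `K3' := algebraicClosure k0 K : IntermediateField k0 K`; `K3 := K3'.toSubfield`.  `IsAlgClosed`: `algebraicClosure.isAlgClosure`/`IsAlgClosure.isAlgClosed k0` (instance for `[IsAlgClosed K]`).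
`C ⊆ K3`: `Subfield.subset_closure`, `algebraMap_mem`.  Embedding: `exists_emb_complex (C' : Set K3)` with `C' = Subtype.val ⁻¹' C` (finite: `Set.Finite.preimage Subtype.val_injective.injOn`); each `z : K3` is algebraic over `k0`
(`mem_algebraicClosure_iff`); transport the polynomial from `k0` to `Subfield.closure C'` (the inclusion `K3 → K` maps `closure C'` ONTO `k0`: `Subfield.map_closure`/`Subfield.closure_image`; or show `IsAlgebraic` via `IsAlgebraic.of_ringHom_of_comp_eq`-type lemma / by hand with `Polynomial.map`).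
## key S27/L-SUB2 : `isFF_of_rel`, `closure_preimage_eq_top`  (~150 lines; Mathlib only)
`isFF_of_rel`: `u` is algebraic over `k⟮x⟯`: the polynomial `Φ.map (k[X] → k⟮x⟯)` (`Polynomial.aeval ⟨x, _⟩`/`AdjoinSimple.gen`) is nonzero since `k[X] → k⟮x⟯` is injective (`hx`), and kills `u`.  `k⟮x⟯⟮u⟯` is finite dimensional over `k⟮x⟯`
(`IntermediateField.adjoin.finiteDimensional`), and it is `⊤`: its underlying subfield contains `range (algebraMap k E)`, `x`, `u`, hence `Subfield.closure .. = ⊤`.
`closure_preimage_eq_top`: `Subfield.closure_induction` on the membership proof of `z.2`.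
## key S27/L-SUB3 : `exists_rel`  (~150 lines; Mathlib only)
`h = ⟨x, hx, hfin⟩`.  `Field.exists_primitive_element K⟮x⟯ F` (separable: characteristic `0`): `K⟮x⟯⟮u⟯ = ⊤`.  `u` is algebraic over `K⟮x⟯`, hence over `Algebra.adjoin K {x}` (`IsFractionRing.isAlgebraic_iff`, `open scoped IntermediateField.algebraAdjoinAdjoin`), every element of which
is `aeval x p` (`Algebra.adjoin_singleton_eq_range_aeval`): lift the coefficients to get `Φ` (`Polynomial.map` surjectivity: `Polynomial.map_surjective`/`Polynomial.mem_lifts`), `Φ ≠ 0`.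
Generation: `IntermediateField.adjoin_simple_adjoin_simple`, `IntermediateField.adjoin K {x, u}` has `toSubfield = Subfield.closure (range (algebraMap K F) ∪ {x, u})` by definition.
## key S27/L-SUB4 : `exists_sub`  (~300 lines)   ASSEMBLY
`(x, u, Φ)` from `exists_rel h`.  `C := ` (all coefficients of all coefficients of `Φ`) `∪ S.image (fun P => val P x)`.  `K3` from `exists_subfield C`.  `Φ = Φ3.map (Polynomial.mapRingHom K3.subtype)`, `Φ3 ≠ 0` (`Polynomial.lifts`/`Polynomial.toSubring`).
`F3 := Subfield.closure (algebraMap K F '' K3 ∪ {x, u})`; `Algebra K3 F3 := (((algebraMap K F).comp K3.subtype).codRestrict F3 _).toAlgebra`; `j := K3.subtype`, `ι := F3.subtype`; `x3 u3 : F3`.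
`Transcendental K3 x3` (a polynomial over `K3` killing `x3` maps to one over `K` killing `x`).  `Φ3 (x3, u3) = 0` (apply the injective `ι`).  `closure_preimage_eq_top` gives the generation of `F3`.  `isFF_of_rel`.
`BC j ι`: `comm` is `rfl`; `ld := ld_of_transcendental j ι _ x3 _ _ hx`; `gen := gen_of_closure _` (the closure contains `range (algebraMap K F)`, `x = ι x3`, `u = ι u3`); `ff0`; `ff1 := h`.
Places: `P ∈ S`.  If `Reg P x`: `c := val P x ∈ K3`; `y := x3 - algebraMap K3 F3 ⟨c, _⟩`; `ι y = x - algebraMap K F c ≠ 0` (`x` transcendental), `Van P (ι y)` (`van_sub_val h`), so `0 < P.ord (ι y)`; `exists_eq_ext`.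
Otherwise `P.ord x < 0` (`reg_iff`), `y := x3`.
-/

set_option autoImplicit false

noncomputable section

namespace Fermat.Agent.S27.L

open AlgebraicCurve Fermat.Agent.S37 IntermediateField Polynomial

universe u v

/-- [S27/L-SUB1] -/
theorem exists_subfield {K : Type u} [Field K] [IsAlgClosed K] [CharZero K] (C : Finset K) :
    ∃ K3 : Subfield K, IsAlgClosed K3 ∧ (∀ c ∈ C, c ∈ K3) ∧ Nonempty (K3 →+* ℂ) := by
  classical
  let k0 : Subfield K := Subfield.closure (C : Set K)
  let K3' : IntermediateField k0 K := algebraicClosure k0 K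
  have hac : IsAlgClosed K3' := IsAlgClosure.isAlgClosed k0
  have hCmem : ∀ c ∈ C, c ∈ K3'.toSubfield := fun c hc =>
    K3'.algebraMap_mem ⟨c, Subfield.subset_closure hc⟩
  refine ⟨K3'.toSubfield, hac, hCmem, ?_⟩
  haveI : CharZero K3'.toSubfield :=
    (RingHom.charZero_iff (K3'.toSubfield.subtype).injective).2 inferInstance
  apply exists_emb_complex (k := K3'.toSubfield) (Subtype.val ⁻¹' (C : Set K))
    (C.finite_toSet.preimage Subtype.val_injective.injOn)
  intro z
  have hz : IsAlgebraic k0 (z.1 : K) := mem_algebraicClosure_iff.1 z.2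
  have hle : Subfield.closure (Subtype.val ⁻¹' (C : Set K) : Set K3'.toSubfield) ≤
      k0.comap K3'.toSubfield.subtype := by
    apply Subfield.closure_le.2
    intro c hc
    exact Subfield.subset_closure hc
  have hge : k0 ≤ (Subfield.closure (Subtype.val ⁻¹' (C : Set K) : Set K3'.toSubfield)).map
      K3'.toSubfield.subtype := by
    apply Subfield.closure_le.2
    intro c hc
    exact ⟨⟨c, hCmem c hc⟩, Subfield.subset_closure hc, rfl⟩
  let f : Subfield.closure (Subtype.val ⁻¹' (C : Set K) : Set K3'.toSubfield) →+* k0 :=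
    (K3'.toSubfield.subtype.comp (Subfield.subtype _)).codRestrict k0 (fun x => hle x.2)
  have hf : Function.Surjective f := by
    rintro ⟨y, hy⟩
    obtain ⟨x, hx, hxy⟩ := hge hy
    exact ⟨⟨x, hx⟩, Subtype.ext hxy⟩
  exact IsAlgebraic.of_ringHom_of_comp_eq (a := z) f K3'.toSubfield.subtype hz hf
    (K3'.toSubfield.subtype).injective rfl

/-- [S27/L-SUB2] -/
theorem isFF_of_rel {k E : Type*} [Field k] [Field E] [Algebra k E] (x u : E)
    (hx : Transcendental k x) (Φ : k[X][X]) (hΦ : Φ ≠ 0)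
    (hrel : Φ.eval₂ (aeval x : k[X] →ₐ[k] E).toRingHom u = 0)
    (hgen : Subfield.closure (Set.range (algebraMap k E) ∪ {x, u}) = ⊤) :
    FiniteDimensional k⟮x⟯ E := by
  let g : k[X] →+* k⟮x⟯ := (aeval (AdjoinSimple.gen k x) : k[X] →ₐ[k] k⟮x⟯).toRingHom
  have hcomp : (algebraMap k⟮x⟯ E).comp g = (aeval x : k[X] →ₐ[k] E).toRingHom := by
    apply Polynomial.ringHom_ext
    · intro a
      simp [g]
    · simp [g]
  have hg : Function.Injective g := by
    rw [injective_iff_map_eq_zero]
    intro p hp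
    have h1 : (aeval x : k[X] →ₐ[k] E).toRingHom p = 0 := by
      rw [← hcomp, RingHom.comp_apply, hp, map_zero]
    exact transcendental_iff.1 hx p h1
  have hu : IsAlgebraic k⟮x⟯ u := by
    refine ⟨Φ.map g, (Polynomial.map_ne_zero_iff hg).2 hΦ, ?_⟩
    rw [aeval_def, eval₂_map, hcomp]
    exact hrel
  have hfd : FiniteDimensional k⟮x⟯ k⟮x⟯⟮u⟯ := adjoin.finiteDimensional hu.isIntegral
  have htop : k⟮x⟯⟮u⟯ = ⊤ := by
    rw [eq_top_iff]
    intro z _
    have hz : z ∈ Subfield.closure (Set.range (algebraMap k E) ∪ {x, u}) := by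
      rw [hgen]
      trivial
    have hle : Subfield.closure (Set.range (algebraMap k E) ∪ {x, u}) ≤
        (k⟮x⟯⟮u⟯).toSubfield := by
      apply Subfield.closure_le.2
      rintro y (⟨a, rfl⟩ | hy)
      · exact (k⟮x⟯⟮u⟯).algebraMap_mem (algebraMap k k⟮x⟯ a)
      · rcases hy with hy | hy
        · rw [hy]
          exact (k⟮x⟯⟮u⟯).algebraMap_mem (AdjoinSimple.gen k x)
        · rw [Set.mem_singleton_iff.1 hy]
          exact mem_adjoin_simple_self _ _
    exact hle hz
  rw [htop] at hfd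
  exact (IntermediateField.topEquiv (F := k⟮x⟯) (E := E)).toLinearEquiv.finiteDimensional

/-- [S27/L-SUB2] -/
theorem closure_preimage_eq_top {E : Type*} [Field E] (s : Set E) :
    Subfield.closure ((Subtype.val : Subfield.closure s → E) ⁻¹' s) = ⊤ := by
  rw [eq_top_iff]
  rintro ⟨z, hz⟩ -
  induction hz using Subfield.closure_induction with
  | mem x hx => exact Subfield.subset_closure hx
  | one => exact one_mem _
  | add x y hx hy ihx ihy => exact add_mem ihx ihy
  | neg x hx ih => exact neg_mem ih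
  | inv x hx ih => exact inv_mem ih
  | mul x y hx hy ihx ihy => exact mul_mem ihx ihy

open scoped IntermediateField.algebraAdjoinAdjoin in
/-- [S27/L-SUB3] -/
theorem exists_rel {K F : Type*} [Field K] [Field F] [Algebra K F] [CharZero K] (h : IsFF K F) :
    ∃ (x u : F) (Φ : K[X][X]), Transcendental K x ∧ Φ ≠ 0 ∧
      Φ.eval₂ (aeval x : K[X] →ₐ[K] F).toRingHom u = 0 ∧
      Subfield.closure (Set.range (algebraMap K F) ∪ {x, u}) = ⊤ := by
  obtain ⟨x, hx, hfin⟩ := h
  haveI : CharZero K⟮x⟯ := charZero_of_injective_algebraMap (algebraMap K K⟮x⟯).injective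
  obtain ⟨u, hu⟩ := Field.exists_primitive_element K⟮x⟯ F
  have halg : IsAlgebraic K⟮x⟯ u := (Algebra.IsIntegral.isIntegral u).isAlgebraic
  have halg' : IsAlgebraic (Algebra.adjoin K {x}) u :=
    (IsFractionRing.isAlgebraic_iff (Algebra.adjoin K {x}) K⟮x⟯ F).2 halg
  obtain ⟨p, hp0, hp⟩ := halg'
  let ψ : K[X] →+* Algebra.adjoin K {x} :=
    (aeval (⟨x, Algebra.self_mem_adjoin_singleton K x⟩ : Algebra.adjoin K {x}) :
      K[X] →ₐ[K] Algebra.adjoin K {x}).toRingHom
  have hψ : ∀ g : K[X], ((ψ g : Algebra.adjoin K {x}) : F) = aeval x g := fun g =>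
    Polynomial.aeval_subalgebra_coe g _ _
  have hsurj : Function.Surjective ψ := by
    rintro ⟨y, hy⟩
    rw [Algebra.adjoin_singleton_eq_range_aeval] at hy
    obtain ⟨g, hg⟩ := hy
    exact ⟨g, Subtype.ext ((hψ g).trans hg)⟩
  obtain ⟨Φ, hΦ⟩ := Polynomial.map_surjective ψ hsurj p
  refine ⟨x, u, Φ, hx, ?_, ?_, ?_⟩
  · rintro rfl
    exact hp0 (by rw [← hΦ, Polynomial.map_zero])
  · have hcomp : (algebraMap (Algebra.adjoin K {x}) F).comp ψ =
        (aeval x : K[X] →ₐ[K] F).toRingHom := RingHom.ext fun g => hψ g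
    rw [← hcomp, ← eval₂_map, hΦ]
    exact hp
  · rw [eq_top_iff]
    intro z _
    have hz : z ∈ K⟮x⟯⟮u⟯ := by rw [hu]; trivial
    have hle : (K⟮x⟯⟮u⟯).toSubfield ≤ Subfield.closure (Set.range (algebraMap K F) ∪ {x, u}) := by
      show Subfield.closure (Set.range (algebraMap K⟮x⟯ F) ∪ {u}) ≤ _
      rw [Subfield.closure_le]
      rintro y (⟨a, rfl⟩ | hy)
      · have ha : (a : F) ∈ Subfield.closure (Set.range (algebraMap K F) ∪ {x}) := a.2
        exact Subfield.closure_mono (Set.union_subset_union_right _ (by simp)) ha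
      · exact Subfield.subset_closure (Or.inr (Or.inr hy))
    exact hle hz

theorem subAux_bc {K F K3 F3 : Type*} [Field K] [Field F] [Algebra K F] [Field K3] [Field F3]
    [Algebra K3 F3] [IsAlgClosed K3] [CharZero K3] (h : IsFF K F) (j : K3 →+* K) (ι : F3 →+* F)
    (hcomm : ∀ a : K3, ι (algebraMap K3 F3 a) = algebraMap K F (j a))
    (x3 u3 : F3) (hx : Transcendental K (ι x3)) (Φ3 : K3[X][X]) (hΦ3 : Φ3 ≠ 0)
    (hrel : (Φ3.map (Polynomial.mapRingHom j)).eval₂
      (aeval (ι x3) : K[X] →ₐ[K] F).toRingHom (ι u3) = 0)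
    (hgen3 : Subfield.closure (Set.range (algebraMap K3 F3) ∪ {x3, u3}) = ⊤)
    (hgen : Subfield.closure (Set.range (algebraMap K F) ∪ {ι x3, ι u3}) = ⊤) : BC j ι := by
  have hae : ∀ p : K3[X], ι (aeval x3 p) = aeval (ι x3) (p.map j) := by
    intro p
    rw [aeval_def, aeval_def, Polynomial.hom_eval₂, Polynomial.eval₂_map]
    congr 1
    ext a
    exact hcomm a
  have hx3 : Transcendental K3 x3 := by
    rw [transcendental_iff]
    intro p hp
    have h1 := hae p
    rw [hp, map_zero] at h1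
    have h2 := (transcendental_iff.1 hx) _ h1.symm
    exact (Polynomial.map_eq_zero_iff j.injective).1 h2
  have hrel3 : Φ3.eval₂ (aeval x3 : K3[X] →ₐ[K3] F3).toRingHom u3 = 0 := by
    apply ι.injective
    rw [map_zero, Polynomial.hom_eval₂, ← hrel, Polynomial.eval₂_map]
    congr 1
    exact RingHom.ext fun p => hae p
  have hfin3 := isFF_of_rel x3 u3 hx3 Φ3 hΦ3 hrel3 hgen3
  refine ⟨hcomm, ld_of_transcendental j ι hcomm x3 hx3 hfin3 hx, gen_of_closure ?_,
    ⟨x3, hx3, hfin3⟩, h⟩
  rw [eq_top_iff, ← hgen]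
  apply Subfield.closure_mono
  apply Set.union_subset_union_right
  rintro _ (rfl | rfl)
  exacts [⟨x3, rfl⟩, ⟨u3, rfl⟩]

theorem subAux_place {K F K3 F3 : Type*} [Field K] [Field F] [Algebra K F] [Field K3] [Field F3]
    [Algebra K3 F3] [IsAlgClosed K] [CharZero K] [IsAlgClosed K3] [CharZero K3] {j : K3 →+* K}
    {ι : F3 →+* F} (H : BC j ι) (x3 : F3) (hx : Transcendental K (ι x3)) (P : Place K F)
    (hP : val P (ι x3) ∈ Set.range j) : ∃ P3, P = ext H P3 := by
  by_cases hreg : Reg P (ι x3)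
  · obtain ⟨c, hc⟩ := hP
    apply exists_eq_ext H P (y := x3 - algebraMap K3 F3 c)
    have h1 := van_sub_val H.ff1 hreg
    rw [← hc, ← H.comm, ← map_sub] at h1
    rcases h1 with h1 | h1
    · exfalso
      apply hx
      rw [map_sub, sub_eq_zero] at h1
      rw [h1, H.comm]
      exact isAlgebraic_algebraMap _
    · exact h1.ne'
  · apply exists_eq_ext H P (y := x3)
    rw [reg_iff] at hreg
    omega

/-- [S27/L-SUB4] -/
theorem exists_sub {K : Type u} {F : Type v} [Field K] [Field F] [Algebra K F] [IsAlgClosed K]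
    [CharZero K] (h : IsFF K F) (S : Finset (Place K F)) :
    ∃ (K3 : Type u) (F3 : Type v) (_ : Field K3) (_ : Field F3) (_ : Algebra K3 F3)
      (_ : IsAlgClosed K3) (_ : CharZero K3) (j : K3 →+* K) (ι : F3 →+* F) (_ : K3 →+* ℂ)
      (H : BC j ι), ∀ P ∈ S, ∃ P3, P = ext H P3 := by
  classical
  obtain ⟨x, u, Φ, hx, hΦ, hrel, hgen⟩ := exists_rel h
  let C : Finset K := (Φ.coeffs.biUnion fun p => p.coeffs) ∪ S.image (fun P => val P x)
  obtain ⟨K3, hAC, hC, ⟨emb⟩⟩ := exists_subfield C
  have hlift : ∃ Φ3 : (K3)[X][X], Φ3.map (Polynomial.mapRingHom K3.subtype) = Φ := by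
    rw [← Polynomial.mem_lifts, Polynomial.lifts_iff_coeff_lifts]
    intro m
    have h1 : Φ.coeff m ∈ Polynomial.lifts K3.subtype := by
      rw [Polynomial.lifts_iff_coeff_lifts]
      intro k
      by_cases h0 : (Φ.coeff m).coeff k = 0
      · exact ⟨0, by rw [h0, map_zero]⟩
      · refine ⟨⟨_, hC _ ?_⟩, rfl⟩
        apply Finset.mem_union_left
        rw [Finset.mem_biUnion]
        refine ⟨Φ.coeff m, Polynomial.coeff_mem_coeffs ?_, Polynomial.coeff_mem_coeffs h0⟩
        intro h2
        rw [h2, Polynomial.coeff_zero] at h0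
        exact h0 rfl
    obtain ⟨q, hq⟩ := (Polynomial.mem_lifts _).1 h1
    exact ⟨q, hq⟩
  obtain ⟨Φ3, hΦ3⟩ := hlift
  let s : Set F := (algebraMap K F '' (K3 : Set K)) ∪ {x, u}
  let F3 : Subfield F := Subfield.closure s
  letI : Algebra K3 F3 := (((algebraMap K F).comp K3.subtype).codRestrict F3
    (fun a => Subfield.subset_closure (Or.inl ⟨a, a.2, rfl⟩))).toAlgebra
  haveI : CharZero K3 := inferInstance
  let x3 : F3 := ⟨x, Subfield.subset_closure (Or.inr (Or.inl rfl))⟩
  let u3 : F3 := ⟨u, Subfield.subset_closure (Or.inr (Or.inr rfl))⟩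
  have hgen3 : Subfield.closure (Set.range (algebraMap K3 F3) ∪ {x3, u3}) = ⊤ := by
    have h1 := closure_preimage_eq_top s
    have h2 : ((Subtype.val : Subfield.closure s → F) ⁻¹' s) =
        Set.range (algebraMap K3 F3) ∪ {x3, u3} := by
      ext z
      constructor
      · rintro (⟨a, ha, haz⟩ | hz | hz)
        · exact Or.inl ⟨⟨a, ha⟩, Subtype.ext haz⟩
        · exact Or.inr (Or.inl (Subtype.ext hz))
        · exact Or.inr (Or.inr (Subtype.ext hz))
      · rintro (⟨a, rfl⟩ | rfl | rfl)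
        · exact Or.inl ⟨a, a.2, rfl⟩
        · exact Or.inr (Or.inl rfl)
        · exact Or.inr (Or.inr rfl)
    rw [← h2]
    exact h1
  have H : BC K3.subtype F3.subtype := subAux_bc h K3.subtype F3.subtype (fun a => rfl) x3 u3 hx Φ3
    (by
      rintro rfl
      rw [Polynomial.map_zero] at hΦ3
      exact hΦ hΦ3.symm)
    (by rw [hΦ3]; exact hrel) hgen3 hgen
  exact ⟨K3, F3, inferInstance, inferInstance, inferInstance, hAC, inferInstance, K3.subtype,
    F3.subtype, emb, H, fun P hP => subAux_place H x3 hx P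
      ⟨⟨val P x, hC _ (Finset.mem_union_right _ (Finset.mem_image_of_mem _ hP))⟩, rfl⟩⟩

end Fermat.Agent.S27.L
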