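import Fermat.Agent.S27.L.Gal
import Fermat.Agent.S27.L.Sub

/-!
# S27, block L : the Lefschetz principle, assembly.      (owner helper3; PROVED from the stubs of the other files)
-/

set_option autoImplicit false

noncomputable section

namespace Fermat.Agent.S27

open AlgebraicCurve Fermat.Agent.S37

universe u v

namespace L

/-- the count over a field which embeds into `ℂ` -/
theorem card_torsion_of_emb
    (hC : ∀ (F' : Type (max u v)) [Field F'] [Algebra ℂ F'], IsFF ℂ F' → ∀ N : ℕ, 0 < N →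
      Nat.card (Pic0.torsion ℂ F' N) = N ^ (2 * genusFF ℂ F'))
    {K3 : Type u} {F3 : Type v} [Field K3] [Field F3] [Algebra K3 F3] [IsAlgClosed K3]
    [CharZero K3] (h3 : IsFF K3 F3) (jC : K3 →+* ℂ) (N : ℕ) (hN : 0 < N) :
    Nat.card (Pic0.torsion K3 F3 N) = N ^ (2 * genusFF K3 F3) := by
  obtain ⟨F', _, _, ι', H'⟩ := exists_bc jC h3
  have hcard := hC F' H'.ff1 N hN
  have hfin : Finite (Pic0.torsion ℂ F' N) := by
    apply Nat.finite_of_card_ne_zero
    rw [hcard]
    exact (pow_pos hN _).ne'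
  rw [← genus_eq H', ← hcard]
  let φ : Pic0.torsion K3 F3 N → Pic0.torsion ℂ F' N :=
    fun x => ⟨extPic H' x.1, (extPic_mem_torsion_iff H' N x.1).2 x.2⟩
  have hφ : Function.Bijective φ := by
    constructor
    · intro x y hxy
      exact Subtype.ext (extPic_injective H' (congrArg Subtype.val hxy))
    · intro y
      obtain ⟨x0, hx0⟩ := exists_extPic_eq H' N hfin y.1 y.2
      exact ⟨⟨x0, (extPic_mem_torsion_iff H' N x0).1 (hx0 ▸ y.2)⟩, Subtype.ext hx0⟩
  exact Nat.card_congr (Equiv.ofBijective φ hφ)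

/-- every finite set of torsion classes lies in a set of torsion classes with `N ^ (2 g)` elements -/
theorem exists_W
    (hC : ∀ (F' : Type (max u v)) [Field F'] [Algebra ℂ F'], IsFF ℂ F' → ∀ N : ℕ, 0 < N →
      Nat.card (Pic0.torsion ℂ F' N) = N ^ (2 * genusFF ℂ F'))
    {K : Type u} {F : Type v} [Field K] [Field F] [Algebra K F] [IsAlgClosed K] [CharZero K]
    (h : IsFF K F) (N : ℕ) (hN : 0 < N) (s : Finset (Pic0 K F))
    (hs : ∀ x ∈ s, x ∈ Pic0.torsion K F N) :
    ∃ W : Set (Pic0 K F), (s : Set (Pic0 K F)) ⊆ W ∧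
      W ⊆ (Pic0.torsion K F N : Set (Pic0 K F)) ∧ W.ncard = N ^ (2 * genusFF K F) := by
  classical
  choose rep hrep using fun x : Pic0 K F => Pic0.mk_surjective x
  obtain ⟨K3, F3, _, _, _, _, _, j, ι, jC, H, hS⟩ :=
    exists_sub h (s.biUnion fun x => (rep x : Divisor K F).support)
  refine ⟨Set.range (fun y : Pic0.torsion K3 F3 N => extPic H y.1), ?_, ?_, ?_⟩
  · intro x hx
    have hx' : x ∈ s := hx
    obtain ⟨E0, hE0⟩ := exists_extD_eq H (rep x : Divisor K F) (fun Q hQ =>
      hS Q (Finset.mem_biUnion.2 ⟨x, hx', hQ⟩))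
    have hdeg : E0 ∈ Divisor.degZero (K := K3) (F := F3) := by
      rw [Divisor.mem_degZero, ← degree_extD H, hE0]
      exact Divisor.mem_degZero.1 (rep x).2
    have hx0 : extPic H (Pic0.mk ⟨E0, hdeg⟩) = x := by
      rw [extPic_mk, ← hrep x]
      exact congrArg Pic0.mk (Subtype.ext hE0)
    exact ⟨⟨Pic0.mk ⟨E0, hdeg⟩, (extPic_mem_torsion_iff H N _).1 (hx0 ▸ hs x hx')⟩, hx0⟩
  · rintro _ ⟨y, rfl⟩
    exact (extPic_mem_torsion_iff H N y.1).2 y.2
  · rw [← Nat.card_coe_set_eq, Nat.card_range_of_injective, genus_eq H]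
    · exact card_torsion_of_emb hC H.ff0 jC N hN
    · intro y y' hy
      exact Subtype.ext (extPic_injective H hy)

end L

/-- **Lefschetz principle** -/
theorem lefschetz
    (hC : ∀ (F' : Type (max u v)) [Field F'] [Algebra ℂ F'], IsFF ℂ F' → ∀ N : ℕ, 0 < N →
      Nat.card (Pic0.torsion ℂ F' N) = N ^ (2 * genusFF ℂ F'))
    (K : Type u) (F : Type v) [Field K] [Field F] [Algebra K F] [IsAlgClosed K] [CharZero K]
    (h : IsFF K F) (N : ℕ) (hN : 0 < N) :
    Nat.card (Pic0.torsion K F N) = N ^ (2 * genusFF K F) := by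
  classical
  set T : Set (Pic0 K F) := (Pic0.torsion K F N : Set (Pic0 K F)) with hT
  have hpos : 0 < N ^ (2 * genusFF K F) := pow_pos hN _
  have hfinT : T.Finite := by
    by_contra hinf
    obtain ⟨s, hsT, hcard⟩ :=
      Set.Infinite.exists_subset_card_eq hinf (N ^ (2 * genusFF K F) + 1)
    obtain ⟨W, hsW, -, hW⟩ := L.exists_W hC h N hN s (fun x hx => hsT hx)
    have hWfin : W.Finite := Set.finite_of_ncard_pos (hW ▸ hpos)
    have := Set.ncard_le_ncard hsW hWfin
    rw [Set.ncard_coe_finset, hcard, hW] at this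
    omega
  obtain ⟨W, hsW, hWT, hW⟩ := L.exists_W hC h N hN hfinT.toFinset
    (fun x hx => hfinT.mem_toFinset.1 hx)
  have hWeq : W = T := by
    apply Set.Subset.antisymm hWT
    intro x hx
    exact hsW (Finset.mem_coe.2 (hfinT.mem_toFinset.2 hx))
  have : Nat.card (Pic0.torsion K F N) = T.ncard := Nat.card_coe_set_eq T
  rw [this, ← hWeq, hW]

end Fermat.Agent.S27
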