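import Fermat.Agent.S27.L.IsFF
import Fermat.Agent.S27.L.End

/-!
# S27, block L : the Lefschetz principle.   INTERFACE FILE (sub-owner: helper3)

`isFF_of_isCurveOver` is in `L/IsFF.lean`, `lefschetz` in `L/End.lean` (proved from the stubs of `L/*.lean`).
-/
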