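import Mathlib

/-!
# S27/L-MIN : descent of subspaces stable under a coordinatewise semilinear action.   (Mathlib only)

`M` a `K1`-vector space with basis `𝔟`, `S` a set of ring automorphisms of `K1` whose common fixed points form the set `k`.
`V ≤ M` stable under the coordinatewise action of every `σ ∈ S`.  Then `V` is spanned by its vectors with all coordinates in `k`.

## Proof
Strong induction on `#(𝔟.repr v).support`.  `v = 0`: trivial.  Otherwise among the NONZERO `w ∈ V` with `supp w ⊆ supp v` choose one with `#supp w` minimal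
(`v` itself is a candidate; `Nat.find` or `Finset.exists_min_image`/`WellFounded.min`); choose `i0 ∈ supp w`, scale: coordinate `i0` of `w` is `1`.
For `σ ∈ S` let `w'∈ V` be the vector with coordinates `σ (w_i)`.  `w' - w ∈ V`, support `⊆ supp w \ {i0}` (`σ 0 = 0`, `σ 1 = 1`), so `w' - w = 0` by minimality:
all coordinates of `w` are fixed by all `σ ∈ S`, so they lie in `k`.  `v - v_{i0} • w ∈ V` has support `⊆ supp v \ {i0}`: induction.
-/

set_option autoImplicit false

namespace Fermat.Agent.S27.L

/-- [S27/L-MIN] -/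
theorem span_fixed {K1 I M : Type*} [Field K1] [AddCommGroup M] [Module K1 M]
    (𝔟 : Module.Basis I K1 M) (S : Set (K1 ≃+* K1)) (k : Set K1)
    (hk : ∀ c : K1, (∀ σ ∈ S, σ c = c) → c ∈ k)
    (V : Submodule K1 M)
    (hV : ∀ σ ∈ S, ∀ v ∈ V, ∃ w ∈ V, ∀ i, 𝔟.repr w i = σ (𝔟.repr v i)) :
    ∀ v ∈ V, v ∈ Submodule.span K1 {w : M | w ∈ V ∧ ∀ i, 𝔟.repr w i ∈ k} := by
  classical
  have hne : ∀ v : M, v ≠ 0 → ∃ i, 𝔟.repr v i ≠ 0 := by
    intro v hv
    by_contra hcon
    push_neg at hcon
    apply hv
    apply 𝔟.repr.injective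
    ext i
    simpa using hcon i
  have key : ∀ n : ℕ, ∀ v ∈ V, v ≠ 0 → (𝔟.repr v).support.card ≤ n →
      ∃ w ∈ V, w ≠ 0 ∧ (𝔟.repr w).support ⊆ (𝔟.repr v).support ∧ ∀ i, 𝔟.repr w i ∈ k := by
    intro n
    induction n with
    | zero =>
      intro v _ hv0 hcard
      obtain ⟨i, hi⟩ := hne v hv0
      have : i ∈ (𝔟.repr v).support := Finsupp.mem_support_iff.2 hi
      have h0 : (𝔟.repr v).support = ∅ := Finset.card_eq_zero.1 (Nat.le_zero.1 hcard)
      rw [h0] at this
      simp at this
    | succ n ih =>
      intro v hv hv0 hcard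
      obtain ⟨i0, hi0⟩ := hne v hv0
      set v' := (𝔟.repr v i0)⁻¹ • v with hv'
      have hv'V : v' ∈ V := V.smul_mem _ hv
      have hrepr : ∀ i, 𝔟.repr v' i = (𝔟.repr v i0)⁻¹ * 𝔟.repr v i := by
        intro i
        simp [hv']
      have hi0' : 𝔟.repr v' i0 = 1 := by rw [hrepr, inv_mul_cancel₀ hi0]
      have hsupp' : (𝔟.repr v').support ⊆ (𝔟.repr v).support := by
        intro i hi
        rw [Finsupp.mem_support_iff] at hi ⊢
        intro h0
        apply hi
        rw [hrepr, h0, mul_zero]
      have hv'0 : v' ≠ 0 := by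
        intro h0
        rw [h0] at hi0'
        simp at hi0'
      by_cases hfix : ∀ σ ∈ S, ∀ i, σ (𝔟.repr v' i) = 𝔟.repr v' i
      · exact ⟨v', hv'V, hv'0, hsupp', fun i => hk _ (fun σ hσ => hfix σ hσ i)⟩
      · push_neg at hfix
        obtain ⟨σ, hσ, i1, hi1⟩ := hfix
        obtain ⟨w, hwV, hw⟩ := hV σ hσ v' hv'V
        have hu : ∀ i, 𝔟.repr (w - v') i = σ (𝔟.repr v' i) - 𝔟.repr v' i := by
          intro i
          rw [map_sub, Finsupp.sub_apply, hw]
        have hu0 : w - v' ≠ 0 := by
          intro h0
          have := hu i1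
          rw [h0] at this
          simp only [map_zero, Finsupp.coe_zero, Pi.zero_apply] at this
          exact hi1 (sub_eq_zero.1 this.symm)
        have husupp : (𝔟.repr (w - v')).support ⊆ (𝔟.repr v).support.erase i0 := by
          intro i hi
          rw [Finsupp.mem_support_iff, hu] at hi
          rw [Finset.mem_erase]
          constructor
          · rintro rfl
            apply hi
            rw [hi0', map_one, sub_self]
          · apply hsupp'
            rw [Finsupp.mem_support_iff]
            intro h0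
            apply hi
            rw [h0, map_zero, sub_self]
        have hcard' : (𝔟.repr (w - v')).support.card ≤ n := by
          have h1 := Finset.card_le_card husupp
          rw [Finset.card_erase_of_mem (Finsupp.mem_support_iff.2 hi0)] at h1
          omega
        obtain ⟨w2, hw2V, hw20, hw2s, hw2k⟩ := ih (w - v') (V.sub_mem hwV hv'V) hu0 hcard'
        exact ⟨w2, hw2V, hw20, fun i hi => Finset.mem_of_mem_erase (husupp (hw2s hi)), hw2k⟩
  have main : ∀ n : ℕ, ∀ v ∈ V, (𝔟.repr v).support.card ≤ n →
      v ∈ Submodule.span K1 {w : M | w ∈ V ∧ ∀ i, 𝔟.repr w i ∈ k} := by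
    intro n
    induction n with
    | zero =>
      intro v _ hcard
      by_cases hv0 : v = 0
      · rw [hv0]; exact Submodule.zero_mem _
      · obtain ⟨i, hi⟩ := hne v hv0
        have : i ∈ (𝔟.repr v).support := Finsupp.mem_support_iff.2 hi
        have h0 : (𝔟.repr v).support = ∅ := Finset.card_eq_zero.1 (Nat.le_zero.1 hcard)
        rw [h0] at this
        simp at this
    | succ n ih =>
      intro v hv hcard
      by_cases hv0 : v = 0
      · rw [hv0]; exact Submodule.zero_mem _
      obtain ⟨w, hwV, hw0, hws, hwk⟩ := key _ v hv hv0 le_rfl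
      obtain ⟨i0, hi0⟩ := hne w hw0
      have hi0v : i0 ∈ (𝔟.repr v).support := hws (Finsupp.mem_support_iff.2 hi0)
      set c := 𝔟.repr v i0 * (𝔟.repr w i0)⁻¹ with hc
      have hrepr : ∀ i, 𝔟.repr (v - c • w) i = 𝔟.repr v i - c * 𝔟.repr w i := by
        intro i
        simp
      have hsupp : (𝔟.repr (v - c • w)).support ⊆ (𝔟.repr v).support.erase i0 := by
        intro i hi
        rw [Finsupp.mem_support_iff, hrepr] at hi
        rw [Finset.mem_erase]
        constructor
        · rintro rfl
          apply hi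
          rw [hc, mul_assoc, inv_mul_cancel₀ hi0, mul_one, sub_self]
        · rw [Finsupp.mem_support_iff]
          intro h0
          apply hi
          have : 𝔟.repr w i = 0 := by
            by_contra hwi
            exact (Finsupp.mem_support_iff.1 (hws (Finsupp.mem_support_iff.2 hwi))) h0
          rw [h0, this, mul_zero, sub_self]
      have hcard' : (𝔟.repr (v - c • w)).support.card ≤ n := by
        have h1 := Finset.card_le_card hsupp
        rw [Finset.card_erase_of_mem hi0v] at h1
        omega
      have h2 := ih (v - c • w) (V.sub_mem hv (V.smul_mem _ hwV)) hcard'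
      have h3 : w ∈ Submodule.span K1 {w : M | w ∈ V ∧ ∀ i, 𝔟.repr w i ∈ k} :=
        Submodule.subset_span ⟨hwV, hwk⟩
      have : v = (v - c • w) + c • w := by abel
      rw [this]
      exact Submodule.add_mem _ h2 (Submodule.smul_mem _ _ h3)
  intro v hv
  exact main _ v hv le_rfl

end Fermat.Agent.S27.L
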