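import Mathlib

/-!
# S27/L-AUT : automorphisms of an algebraically closed field over an algebraically closed subfield.   (Mathlib only)

`exists_aut` : `c ∈ K1` not in `j K0`  ⟹  for every `n` there is an automorphism `σ` of `K1`, trivial on `j K0`, with `σ c = c + n`.

## Proof
`letI := j.toAlgebra`.  `c` is transcendental over `K0` (`K0` algebraically closed: `IsAlgClosed.algebraMap_bijective_of_isIntegral` / `IsAlgClosed.algebraMap_surjective_of_isIntegral'`
applied to `K0 → K0⟮c⟯`, or: the minimal polynomial of an algebraic `c` splits in `K0`, so it has degree one).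
So `fun _ : Unit => c` (or the subtype family on `{c}`) is algebraically independent; extend it to a transcendence basis `v : ι → K1`, `v i0 = c`
(`exists_isTranscendenceBasis_superset` / `AlgebraicIndependent.exists_isTranscendenceBasis_superset`-type lemma in `Mathlib/RingTheory/AlgebraicIndependent/TranscendenceBasis.lean`).
`φ : MvPolynomial ι K0 ≃ₐ[K0] MvPolynomial ι K0`, `X i0 ↦ X i0 + n`, `X i ↦ X i` (inverse: `X i0 ↦ X i0 - n`; `AlgEquiv.ofAlgHom (aeval ..) (aeval ..)`, `MvPolynomial.algHom_ext`).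
`e : Algebra.adjoin K0 (range v) ≃+* Algebra.adjoin K0 (range v) := hv.1.aevalEquiv.symm.trans (φ.trans hv.1.aevalEquiv)`.
`IsAlgClosed.isAlgClosure_of_transcendence_basis v hv : IsAlgClosure (Algebra.adjoin K0 (range v)) K1`;  `σ := IsAlgClosure.equivOfEquiv K1 K1 e`,
`IsAlgClosure.equivOfEquiv_algebraMap` gives `σ (x : K1) = (e x : K1)` for `x` in the adjoin.   MODEL: `IsAlgClosed.equivOfTranscendenceBasis`
(`Mathlib/FieldTheory/IsAlgClosed/Classification.lean`).
-/

set_option autoImplicit false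

namespace Fermat.Agent.S27.L

open IntermediateField

/-- [S27/L-AUT] -/
theorem exists_aut {K0 K1 : Type*} [Field K0] [Field K1] [IsAlgClosed K0] [IsAlgClosed K1]
    (j : K0 →+* K1) (c : K1) (hc : c ∉ Set.range j) (n : ℕ) :
    ∃ σ : K1 ≃+* K1, (∀ a : K0, σ (j a) = j a) ∧ σ c = c + n := by
  classical
  letI : Algebra K0 K1 := j.toAlgebra
  have htr : Transcendental K0 c := by
    intro halg
    apply hc
    have : Algebra.IsAlgebraic K0 K0⟮c⟯ :=
      IntermediateField.isAlgebraic_adjoin_simple halg.isIntegral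
    have hbot := IntermediateField.eq_bot_of_isAlgClosed_of_isAlgebraic K0⟮c⟯
    have hmem : c ∈ (⊥ : IntermediateField K0 K1) := hbot ▸ mem_adjoin_simple_self K0 c
    obtain ⟨a, ha⟩ := IntermediateField.mem_bot.1 hmem
    exact ⟨a, ha⟩
  have hind : AlgebraicIndepOn K0 id ({c} : Set K1) :=
    (algebraicIndependent_singleton_iff (⟨c, rfl⟩ : ({c} : Set K1))).2 htr
  obtain ⟨t, hct, ht⟩ := exists_isTranscendenceBasis_superset hind
  let i0 : t := ⟨c, hct rfl⟩
  let f1 : MvPolynomial t K0 →ₐ[K0] MvPolynomial t K0 :=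
    MvPolynomial.aeval (fun i => if i = i0 then MvPolynomial.X i0 + (n : MvPolynomial t K0)
      else MvPolynomial.X i)
  let f2 : MvPolynomial t K0 →ₐ[K0] MvPolynomial t K0 :=
    MvPolynomial.aeval (fun i => if i = i0 then MvPolynomial.X i0 - (n : MvPolynomial t K0)
      else MvPolynomial.X i)
  let φ : MvPolynomial t K0 ≃ₐ[K0] MvPolynomial t K0 := AlgEquiv.ofAlgHom f1 f2
    (by
      apply MvPolynomial.algHom_ext
      intro i
      by_cases hi : i = i0
      · simp [f1, f2, hi]
      · simp [f1, f2, hi])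
    (by
      apply MvPolynomial.algHom_ext
      intro i
      by_cases hi : i = i0
      · simp [f1, f2, hi]
      · simp [f1, f2, hi])
  letI := IsAlgClosed.isAlgClosure_of_transcendence_basis _ ht
  let e : Algebra.adjoin K0 (Set.range ((↑) : t → K1)) ≃ₐ[K0]
      Algebra.adjoin K0 (Set.range ((↑) : t → K1)) :=
    ht.1.aevalEquiv.symm.trans (φ.trans ht.1.aevalEquiv)
  refine ⟨IsAlgClosure.equivOfEquiv K1 K1 e.toRingEquiv, fun a => ?_, ?_⟩
  · have h1 : j a = algebraMap (Algebra.adjoin K0 (Set.range ((↑) : t → K1))) K1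
        (algebraMap K0 _ a) := rfl
    rw [h1, IsAlgClosure.equivOfEquiv_algebraMap]
    congr 1
    exact e.commutes a
  · have h1 : c = algebraMap (Algebra.adjoin K0 (Set.range ((↑) : t → K1))) K1
        (ht.1.aevalEquiv (MvPolynomial.X i0)) := by
      rw [AlgebraicIndependent.algebraMap_aevalEquiv]
      simp [i0]
    conv_lhs => rw [h1]
    rw [IsAlgClosure.equivOfEquiv_algebraMap]
    have h2 : e.toRingEquiv (ht.1.aevalEquiv (MvPolynomial.X i0)) =
        ht.1.aevalEquiv (MvPolynomial.X i0 + (n : MvPolynomial t K0)) := by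
      simp [e, φ, f1]
    rw [h2, map_add, map_add, ← h1]
    simp

/-- corollary -/
theorem mem_range_of_fixed_aut {K0 K1 : Type*} [Field K0] [Field K1] [IsAlgClosed K0]
    [IsAlgClosed K1] [CharZero K1] (j : K0 →+* K1) (c : K1)
    (hc : ∀ σ : K1 ≃+* K1, (∀ a : K0, σ (j a) = j a) → σ c = c) : c ∈ Set.range j := by
  by_contra h
  obtain ⟨σ, hσ, h1⟩ := exists_aut j c h 1
  rw [hc σ hσ] at h1
  simp at h1

end Fermat.Agent.S27.L
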