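import Fermat.Agent.S27.AR.Main
import Fermat.Prelude.Def_AlgebraicCurve_BaseChangeGalois

/-!
# S27, block L : base change situations.   DEFINITIONS (frozen; owner helper3)

`j : K0 →+* K1` algebraically closed fields of characteristic `0`, `F0 / K0`, `F1 / K1` function fields, `ι : F0 →+* F1` compatible with `j`.
`BC j ι` : `K1` and `F0` are linearly disjoint over `K0` in `F1`, and `F1` is the fraction field of `A ι = K1 · ι F0`  (i.e. `F1 = Frac (K1 ⊗_K0 F0)`).

`Fix ι g` : the semilinear automorphism `g : SemilinearAut K1 F1` (Prelude `Def_AlgebraicCurve_BaseChangeGalois`: it acts on `F1`, `Place K1 F1`, `Divisor K1 F1`,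
`Pic0 K1 F1`; lemmas `SemilinearAut.ord_smul, divisor_smul_apply, degree_smul, smul_mem_principal, pic0_smul_mk, smul_mem_torsion, smul_algebraMap`) fixes `ι F0` pointwise.
-/

set_option autoImplicit false

noncomputable section

namespace Fermat.Agent.S27.L

open AlgebraicCurve Fermat.Agent.S37

variable {K0 K1 F0 F1 : Type*} [Field K0] [Field K1] [Field F0] [Field F1]
  [Algebra K0 F0] [Algebra K1 F1]

/-- the `K1`-span of `ι F0` in `F1` (it is a subring) -/
def A (ι : F0 →+* F1) : Submodule K1 F1 := Submodule.span K1 (Set.range ι)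

/-- base change situation -/
structure BC (j : K0 →+* K1) (ι : F0 →+* F1) : Prop where
  comm : ∀ a : K0, ι (algebraMap K0 F0 a) = algebraMap K1 F1 (j a)
  ld : ∀ (n : ℕ) (f : Fin n → F0), LinearIndependent K0 f → LinearIndependent K1 (fun i => ι (f i))
  gen : ∀ z : F1, ∃ a ∈ A (K1 := K1) ι, ∃ b ∈ A (K1 := K1) ι, b ≠ 0 ∧ z * b = a
  ff0 : IsFF K0 F0
  ff1 : IsFF K1 F1

/-- `g` fixes `ι F0` pointwise -/
def Fix (ι : F0 →+* F1) (g : SemilinearAut K1 F1) : Prop := ∀ f : F0, g • ι f = ι f

/-- `σ` fixes `j K0` pointwise -/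
def FixK (j : K0 →+* K1) (σ : K1 ≃+* K1) : Prop := ∀ a : K0, σ (j a) = j a

/-- the place `Q` of `F1` lies above the place `P` of `F0` -/
def Above (ι : F0 →+* F1) (Q : Place K1 F1) (P : Place K0 F0) : Prop :=
  ∀ f : F0, Reg Q (ι f) ↔ Reg P f

end Fermat.Agent.S27.L
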