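import Fermat.Agent.S27.L.BC

/-!
# S27, block L : the ring `A ι = K1 · ι F0`.      (owner helper3)

## key S27/L-BAS  (~200 lines, linear algebra only; no function fields)
`mul_mem_A`: `Submodule.span_induction` twice (`c • ι f * (c' • ι f') = (c * c') • ι (f * f')`).
`exists_basis`: `𝔅 := Module.Basis.ofVectorSpace K0 F0`.  `fun i => ι (𝔅 i)` is `K1`-linearly independent: `linearIndependent_iff'`/`linearIndependent_iff_finset_linearIndependent` reduces to a finite subfamily,
reindex by `Fin n` (`Finset.equivFin`), `H.ld`.  It spans `A ι`: `f = ∑ c_i 𝔅_i` (`𝔅.sum_repr`/`Module.Basis.linearCombination_repr`), `ι f = ∑ j c_i • ι 𝔅_i` by `H.comm` (`Algebra.smul_def`).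
`Module.Basis.mk` on the submodule (family `fun i => ⟨ι (𝔅 i), _⟩`), or `Module.Basis.span` + `Module.Basis.map (LinearEquiv.ofEq ..)`.
`repr_map`: coordinates of `ι f` are `j (𝔅.repr f i)` (uniqueness of coordinates: `Module.Basis.repr_sum_self`/`Module.Basis.ext_elem`).
`exists_repr_left`: `letI := j.toAlgebra`; `a = ∑_k e'_k • ι f'_k` (`Submodule.mem_span_range_iff_exists_fun`/`Finsupp.mem_span_range_iff_exists_finsupp`); take a `K0`-basis `e_1..e_n` of the (finite dimensional) `K0`-span of the `e'_k`,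
`e'_k = ∑_i j(c_ki) e_i`, so `a = ∑_i e_i • ι (∑_k c_ki • f'_k)`.
`gen_of_closure`: the set of `z` with the property is a subfield containing the generators: `Subfield.closure_induction` (`z = a/b`, `z' = a'/b'`: `z + z' = (a b' + a' b)/(b b')`, `z⁻¹ = b/a` if `a ≠ 0`, ...).
-/

set_option autoImplicit false

noncomputable section

namespace Fermat.Agent.S27.L

open AlgebraicCurve Fermat.Agent.S37

universe u0 u1 v0 v1

variable {K0 : Type u0} {K1 : Type u1} {F0 : Type v0} {F1 : Type v1}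
  [Field K0] [Field K1] [Field F0] [Field F1]
  [Algebra K0 F0] [Algebra K1 F1] {j : K0 →+* K1} {ι : F0 →+* F1}

theorem map_mem_A (f : F0) : ι f ∈ A (K1 := K1) ι := Submodule.subset_span ⟨f, rfl⟩

/-- [S27/L-BAS] -/
theorem algebraMap_mem_A (c : K1) : algebraMap K1 F1 c ∈ A (K1 := K1) ι := by
  have : algebraMap K1 F1 c = c • ι 1 := by rw [map_one, Algebra.algebraMap_eq_smul_one]
  rw [this]
  exact Submodule.smul_mem _ _ (map_mem_A 1)

/-- [S27/L-BAS] -/
theorem mul_mem_A {a b : F1} (ha : a ∈ A (K1 := K1) ι) (hb : b ∈ A (K1 := K1) ι) :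
    a * b ∈ A (K1 := K1) ι := by
  have h : A (K1 := K1) ι * A (K1 := K1) ι ≤ A (K1 := K1) ι := by
    unfold A
    rw [Submodule.span_mul_span]
    apply Submodule.span_mono
    rintro _ ⟨_, ⟨f, rfl⟩, _, ⟨g, rfl⟩, rfl⟩
    exact ⟨f * g, map_mul _ _ _⟩
  exact h (Submodule.mul_mem_mul ha hb)

/-- [S27/L-BAS] a `K0`-basis of `F0` is a `K1`-basis of `A ι` -/
theorem exists_basis (H : BC j ι) : ∃ (I : Type v0) (𝔅 : Module.Basis I K0 F0)
    (𝔟 : Module.Basis I K1 (A (K1 := K1) ι)), (∀ i, (𝔟 i : F1) = ι (𝔅 i)) ∧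
      ∀ (f : F0) (i : I), 𝔟.repr ⟨ι f, map_mem_A f⟩ i = j (𝔅.repr f i) := by
  classical
  let 𝔅 := Module.Basis.ofVectorSpace K0 F0
  have hli : LinearIndependent K1 (fun i => ι (𝔅 i)) := by
    rw [linearIndependent_iff_finset_linearIndependent]
    intro s
    have h1 := H.ld s.card (fun k => 𝔅 (s.equivFin.symm k))
      (𝔅.linearIndependent.comp _ (Subtype.val_injective.comp s.equivFin.symm.injective))
    exact (linearIndependent_equiv s.equivFin.symm).1 h1
  have hexp : ∀ f : F0, ι f = ∑ i ∈ (𝔅.repr f).support, j (𝔅.repr f i) • ι (𝔅 i) := by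
    intro f
    conv_lhs => rw [← 𝔅.linearCombination_repr f, Finsupp.linearCombination_apply, Finsupp.sum]
    rw [map_sum]
    refine Finset.sum_congr rfl fun i _ => ?_
    rw [Algebra.smul_def, map_mul, H.comm, Algebra.smul_def]
  have hspan : Submodule.span K1 (Set.range fun i => ι (𝔅 i)) = A (K1 := K1) ι := by
    apply le_antisymm
    · apply Submodule.span_le.2
      rintro _ ⟨i, rfl⟩
      exact map_mem_A _
    · apply Submodule.span_le.2
      rintro _ ⟨f, rfl⟩
      rw [hexp f]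
      exact Submodule.sum_mem _ fun i _ => Submodule.smul_mem _ _ (Submodule.subset_span ⟨i, rfl⟩)
  let 𝔟 : Module.Basis _ K1 (A (K1 := K1) ι) :=
    (Module.Basis.span hli).map (LinearEquiv.ofEq _ _ hspan)
  have h𝔟 : ∀ i, (𝔟 i : F1) = ι (𝔅 i) := by
    intro i
    simp [𝔟, Module.Basis.span_apply]
  refine ⟨_, 𝔅, 𝔟, h𝔟, fun f i => ?_⟩
  have hc : (⟨ι f, map_mem_A f⟩ : A (K1 := K1) ι) =
      Finsupp.linearCombination K1 𝔟 ((𝔅.repr f).mapRange j (map_zero j)) := by
    apply Subtype.ext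
    rw [Finsupp.linearCombination_apply, Finsupp.sum_mapRange_index (by simp), Finsupp.sum]
    rw [Submodule.coe_sum]
    simp only [Submodule.coe_smul, h𝔟]
    exact hexp f
  rw [hc, Module.Basis.repr_linearCombination, Finsupp.mapRange_apply]

/-- [S27/L-BAS] every element of `A ι` is `∑ e_i ι f_i` with `e_i` linearly independent over `K0` -/
theorem exists_repr_left (hcomm : ∀ a : K0, ι (algebraMap K0 F0 a) = algebraMap K1 F1 (j a))
    {a : F1} (ha : a ∈ A (K1 := K1) ι) :
    ∃ (n : ℕ) (e : Fin n → K1) (f : Fin n → F0),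
      (∀ c : Fin n → K0, ∑ i, j (c i) * e i = 0 → ∀ i, c i = 0) ∧
        a = ∑ i, algebraMap K1 F1 (e i) * ι (f i) := by
  classical
  letI : Algebra K0 K1 := j.toAlgebra
  let 𝔈 := Module.Basis.ofVectorSpace K0 K1
  obtain ⟨c, hc⟩ := Finsupp.mem_span_range_iff_exists_finsupp.1 ha
  let s := c.support.biUnion fun f => (𝔈.repr (c f)).support
  have hexp : ∀ f ∈ c.support, c f = ∑ i ∈ s, j (𝔈.repr (c f) i) * 𝔈 i := by
    intro f hf
    conv_lhs => rw [← 𝔈.linearCombination_repr (c f), Finsupp.linearCombination_apply,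
      Finsupp.sum]
    rw [Finset.sum_subset (Finset.subset_biUnion_of_mem
      (fun f => (𝔈.repr (c f)).support) hf)]
    · refine Finset.sum_congr rfl fun i _ => ?_
      rw [Algebra.smul_def]
      rfl
    · intro i _ hi
      rw [Finsupp.notMem_support_iff.1 hi, zero_smul]
  have key : a = ∑ i ∈ s, algebraMap K1 F1 (𝔈 i) *
      ι (∑ f ∈ c.support, 𝔈.repr (c f) i • f) := by
    rw [← hc, Finsupp.sum]
    calc ∑ f ∈ c.support, c f • ι f
        = ∑ f ∈ c.support, ∑ i ∈ s, algebraMap K1 F1 (𝔈 i) * ι (𝔈.repr (c f) i • f) := by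
          refine Finset.sum_congr rfl fun f hf => ?_
          conv_lhs => rw [hexp f hf]
          rw [Finset.sum_smul]
          refine Finset.sum_congr rfl fun i _ => ?_
          rw [Algebra.smul_def, map_mul, Algebra.smul_def (𝔈.repr (c f) i) f, map_mul, hcomm]
          ring
      _ = _ := by
          rw [Finset.sum_comm]
          refine Finset.sum_congr rfl fun i _ => ?_
          rw [map_sum, Finset.mul_sum]
  refine ⟨s.card, fun k => 𝔈 (s.equivFin.symm k),
    fun k => ∑ f ∈ c.support, 𝔈.repr (c f) (s.equivFin.symm k) • f, ?_, ?_⟩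
  · intro d hd
    have hli : LinearIndependent K0 (fun k : Fin s.card => 𝔈 (s.equivFin.symm k)) :=
      𝔈.linearIndependent.comp _ (Subtype.val_injective.comp s.equivFin.symm.injective)
    refine Fintype.linearIndependent_iff.1 hli d ?_
    rw [← hd]
    refine Finset.sum_congr rfl fun i _ => ?_
    rw [Algebra.smul_def]
    rfl
  · rw [key, ← Finset.sum_coe_sort s]
    exact (Equiv.sum_comp s.equivFin.symm (fun i : s => algebraMap K1 F1 (𝔈 i) *
      ι (∑ f ∈ c.support, 𝔈.repr (c f) i • f))).symm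

/-- [S27/L-BAS] -/
theorem gen_of_closure
    (hgen : Subfield.closure (Set.range (algebraMap K1 F1) ∪ Set.range ι) = ⊤) (z : F1) :
    ∃ a ∈ A (K1 := K1) ι, ∃ b ∈ A (K1 := K1) ι, b ≠ 0 ∧ z * b = a := by
  have h1 : (1 : F1) ∈ A (K1 := K1) ι := by
    have := map_mem_A (K1 := K1) (ι := ι) 1
    rwa [map_one] at this
  have hz : z ∈ Subfield.closure (Set.range (algebraMap K1 F1) ∪ Set.range ι) := by
    rw [hgen]; exact Subfield.mem_top z
  induction hz using Subfield.closure_induction with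
  | mem x hx =>
    refine ⟨x, ?_, 1, h1, one_ne_zero, mul_one x⟩
    rcases hx with ⟨c, rfl⟩ | ⟨f, rfl⟩
    · exact algebraMap_mem_A c
    · exact map_mem_A f
  | one => exact ⟨1, h1, 1, h1, one_ne_zero, mul_one 1⟩
  | add x y _ _ hx hy =>
    obtain ⟨a, ha, b, hb, hb0, hab⟩ := hx
    obtain ⟨a', ha', b', hb', hb0', hab'⟩ := hy
    refine ⟨a * b' + a' * b, Submodule.add_mem _ (mul_mem_A ha hb') (mul_mem_A ha' hb), b * b',
      mul_mem_A hb hb', mul_ne_zero hb0 hb0', ?_⟩
    rw [← hab, ← hab']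
    ring
  | neg x _ hx =>
    obtain ⟨a, ha, b, hb, hb0, hab⟩ := hx
    exact ⟨-a, Submodule.neg_mem _ ha, b, hb, hb0, by rw [← hab]; ring⟩
  | inv x _ hx =>
    obtain ⟨a, ha, b, hb, hb0, hab⟩ := hx
    by_cases ha0 : a = 0
    · have hx0 : x = 0 := by
        rw [ha0] at hab
        exact (mul_eq_zero.1 hab).resolve_right hb0
      exact ⟨0, Submodule.zero_mem _, 1, h1, one_ne_zero, by rw [hx0]; simp⟩
    · refine ⟨b, hb, a, ha, ha0, ?_⟩
      have hx0 : x ≠ 0 := by
        rintro rfl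
        exact ha0 (by rw [← hab, zero_mul])
      rw [← hab]
      field_simp
  | mul x y _ _ hx hy =>
    obtain ⟨a, ha, b, hb, hb0, hab⟩ := hx
    obtain ⟨a', ha', b', hb', hb0', hab'⟩ := hy
    refine ⟨a * a', mul_mem_A ha ha', b * b', mul_mem_A hb hb', mul_ne_zero hb0 hb0', ?_⟩
    rw [← hab, ← hab']
    ring

end Fermat.Agent.S27.L
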