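import Fermat.Agent.S27.L.Basic
import Fermat.Agent.S27.L.FF

/-!
# S27, block L : `K1 ⊗_K0 F0` is a domain; construction of base change situations.      (owner helper3)

## key S27/L-DOM1 : `isDomain_tensor`  (~250 lines)
`T := K1 ⊗[K0] F0`.  Nontrivial (`K1`, `F0` are free and nontrivial).  Let `a b : T`, `a ≠ 0`, `b ≠ 0`; claim `a * b ≠ 0`.
`𝔈 := Module.Basis.ofVectorSpace K0 K1`.  `TensorProduct.equivFinsuppOfBasisLeft 𝔈 : T ≃ₗ[K0] (I →₀ F0)` (lemmas `TensorProduct.eq_repr_basis_left`, `TensorProduct.sum_tmul_basis_left_eq_zero`, file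
`Mathlib/LinearAlgebra/TensorProduct/Basis.lean`): `a = ∑_{i ∈ s} 𝔈 i ⊗ₜ a_i`, `b = ∑_{i ∈ s'} 𝔈 i ⊗ₜ b_i`, `a_{i0} ≠ 0`, `b_{i1} ≠ 0`.
Choose a place `P` of `F0` with `P.ord (a_i) ≥ 0`, `P.ord (b_i) ≥ 0` for all `i` and `P.ord a_{i0} = 0 = P.ord b_{i1}`: the places with `P.ord f ≠ 0` are finitely many for `f ≠ 0` (support of `AR.dv h0 f`, `AR.dv_apply`), and
`infinite_place h0`.   `O := P.toValuationSubring`, a `K0`-algebra; `ρ : O →ₐ[K0] K0`, `ρ y = val P y` (`val_add`, `val_mul`, `val_algebraMap`; or `(AlgEquiv.ofBijective _ (h0.residue_bijective P)).symm ∘ residue`).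
`ψ : K1 ⊗[K0] O →ₐ[K0] K1 := Algebra.TensorProduct.lift (AlgHom.id ..) ((Algebra.ofId K0 K1).comp ρ) ..` (or `productMap`): `ψ (e ⊗ₜ y) = e * algebraMap (ρ y)`.
`θ : K1 ⊗[K0] O →ₐ[K0] T := Algebra.TensorProduct.map (AlgHom.id ..) (O.subtype as AlgHom)`, INJECTIVE (`Module.Flat.lTensor_preserves_injective_linearMap`, everything is flat over the field `K0`).
`a' := ∑ 𝔈 i ⊗ₜ ⟨a_i, _⟩`, `b'` similarly: `θ a' = a`, `θ b' = b`.  If `a * b = 0` then `a' * b' = 0`, so `ψ a' * ψ b' = 0` in the field `K1`; but `ψ a' = ∑ 𝔈 i * algebraMap (val P a_i) = ∑ (val P a_i) • 𝔈 i ≠ 0` as the `𝔈 i` are independent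
and `val P a_{i0} ≠ 0` (`val_eq_zero_iff`).
## key S27/L-DOM2 : `ld_of_transcendental`  (~200 lines)
`letI := j.toAlgebra`; `T := K1 ⊗[K0] F0` is a domain (`isDomain_tensor ⟨x, hx, hfin⟩`).  `φ : T →ₐ[K1] F1`, `φ (e ⊗ₜ f) = algebraMap e * ι f` (`Algebra.TensorProduct.lift`/`productMap`; make `F1` a `K0`-algebra via `(algebraMap K1 F1).comp j`, `ι` is then a `K0`-algebra map by `hcomm`).
CLAIM: `φ` is injective.  Make `T` a `K1[X]`-algebra via `Polynomial.aeval (1 ⊗ₜ x)`.  Every `t : T` is algebraic over `K1[X]`: `Subalgebra.algebraicClosure K1[X] T` (`Mathlib/RingTheory/Algebraic/Integral.lean`; or `IsAlgebraic.add`, `IsAlgebraic.mul`) is a subalgebra;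
it contains `e ⊗ₜ 1 = algebraMap (C e)` and `1 ⊗ₜ f`: `f` is algebraic over `K0⟮x⟯`, hence over `K0[X]` (`IsFractionRing.isAlgebraic_iff`, `open scoped IntermediateField.algebraAdjoinAdjoin` as in `S24/Places.lean`; or clear denominators by hand): `∑ p_m(x) f^m = 0`,
`p ≠ 0`; map the relation to `T` by `f ↦ 1 ⊗ₜ f`; the polynomial `p.map (Polynomial.mapRingHom (algebraMap K0 K1))` is `≠ 0`.  `TensorProduct.induction_on`.
`t ≠ 0`, `φ t = 0`: `IsAlgebraic.exists_nonzero_coeff_and_aeval_eq_zero` (`t` is a nonzerodivisor): `q.coeff 0 ≠ 0`, `aeval t q = 0`.  Apply `φ`: `0 = ∑ φ (algebraMap (q.coeff m)) * (φ t)^m = φ (algebraMap (q.coeff 0)) = aeval (ι x) (q.coeff 0) ≠ 0` (`hx1`).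
CONCLUSION: `f_i` independent over `K0` ⟹ `1 ⊗ₜ f_i` independent over `K1` (extend to a basis `𝔅` of `F0`: `Algebra.TensorProduct.basis K1 𝔅`, `Algebra.TensorProduct.basis_apply`; or `LinearIndependent.baseChange`-type lemma) ⟹ `ι f_i = φ (1 ⊗ₜ f_i)` independent
(`LinearIndependent.map'` with `LinearMap.ker_eq_bot`).
## key S27/L-DOM3 : `isFF_of_ld`  (~200 lines)
`h0 = ⟨x, hx, hfin⟩`.  `ι x` transcendental over `K1`: the powers `x^0..x^n` are `K0`-independent (`S37.RiemannAux.linearIndependent_pow_of_transcendental` or `transcendental_iff`), so the `(ι x)^m` are `K1`-independent.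
`E := algebraicClosure K1⟮ι x⟯ F1` (an intermediate field) contains `K1` and `ι F0` (a relation `∑ p_m(x) f^m = 0` over `K0[x]` maps to a relation over `K1[ι x]`, nonzero since `ι x` is transcendental / `ι` and `j` are injective), so it is `⊤` by `hgen`: `F1` is algebraic over `K1⟮ι x⟯`.
Finitely generated: `b_1..b_n` a basis of `F0` over `K0⟮x⟯`; `K1⟮ι x⟯ (ι b_1, .., ι b_n)` is a subfield containing `K1`, `ι x`, so `ι (K0⟮x⟯)`, and the `ι b_i`, so `ι F0`; so it is `⊤`.  `IntermediateField.finiteDimensional_adjoin` (finite set of integral elements).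
## key S27/L-DOM4 : `exists_bc`  (~200 lines)
`letI := j.toAlgebra`; `T := K1 ⊗[K0] F0` domain; `F1 := ULift.{max u v w} (FractionRing T)` (`ULift.field`, `ULift.ringEquiv`); `Algebra K1 F1` from the ring hom `K1 → T → FractionRing T → F1`; `ι f := up (algebraMap (1 ⊗ₜ f))`.
`comm`: `1 ⊗ₜ (a • 1) = (a • 1) ⊗ₜ 1` (`TensorProduct.tmul_smul`, `smul_tmul`).  `ld`: `Algebra.TensorProduct.basis` as in DOM2 + injectivity of `T → F1` (`IsFractionRing.injective`).
`gen`: `gen_of_closure`; every element of `FractionRing T` is `algebraMap t / algebraMap t'` (`IsFractionRing.div_surjective`), `t` is a sum of `e ⊗ₜ f = (e ⊗ₜ 1) * (1 ⊗ₜ f)` (`TensorProduct.induction_on`).  `ff1`: `isFF_of_ld`.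
-/

set_option autoImplicit false

noncomputable section

namespace Fermat.Agent.S27.L

open AlgebraicCurve Fermat.Agent.S37 IntermediateField Polynomial
open scoped TensorProduct

universe u v w

/-- [S27/L-DOM1] -/
theorem isDomain_tensor {K0 K1 F0 : Type*} [Field K0] [Field K1] [Field F0] [Algebra K0 K1]
    [Algebra K0 F0] [IsAlgClosed K0] [CharZero K0] (h0 : IsFF K0 F0) :
    IsDomain (TensorProduct K0 K1 F0) := by
  classical
  let 𝔈 := Module.Basis.ofVectorSpace K0 K1
  have hnt : Nontrivial (TensorProduct K0 K1 F0) :=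
    (Algebra.TensorProduct.includeRight_injective (R := K0) (A := K1) (B := F0)
      (algebraMap K0 K1).injective).nontrivial
  have hnzd : NoZeroDivisors (TensorProduct K0 K1 F0) := by
    refine ⟨fun {a b} hab => ?_⟩
    by_contra hcon
    push_neg at hcon
    obtain ⟨ha0, hb0⟩ := hcon
    obtain ⟨ca, hca⟩ := TensorProduct.eq_repr_basis_left 𝔈 a
    obtain ⟨cb, hcb⟩ := TensorProduct.eq_repr_basis_left 𝔈 b
    have := infinite_place h0
    obtain ⟨P, hP⟩ := Infinite.exists_notMem_finset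
      ((ca.support.biUnion fun i => (AR.dv h0 (ca i)).support) ∪
        (cb.support.biUnion fun i => (AR.dv h0 (cb i)).support))
    have hord : ∀ c : (Module.Basis.ofVectorSpaceIndex K0 K1) →₀ F0, (P ∉ c.support.biUnion fun i => (AR.dv h0 (c i)).support) →
        ∀ i, P.ord (c i) = 0 := by
      intro c hc i
      by_cases hi : c i = 0
      · rw [hi]; simp
      · rw [← AR.dv_apply h0 hi]
        by_contra hne
        exact hc (Finset.mem_biUnion.2 ⟨i, Finsupp.mem_support_iff.2 hi,
          Finsupp.mem_support_iff.2 hne⟩)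
    have hordA := hord ca (fun h => hP (Finset.mem_union_left _ h))
    have hordB := hord cb (fun h => hP (Finset.mem_union_right _ h))
    let ρ : P.toValuationSubring →ₐ[K0] K0 :=
      { toFun := fun y => val P (y : F0)
        map_one' := by
          have := val_algebraMap h0 P 1
          simpa using this
        map_mul' := fun y y' => val_mul h0 y.2 y'.2
        map_zero' := by
          have := val_algebraMap h0 P 0
          simpa using this
        map_add' := fun y y' => val_add h0 y.2 y'.2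
        commutes' := fun c => val_algebraMap h0 P c }
    let ψ : TensorProduct K0 K1 P.toValuationSubring →ₐ[K0] K1 :=
      Algebra.TensorProduct.productMap (AlgHom.id K0 K1) ((Algebra.ofId K0 K1).comp ρ)
    let θ : TensorProduct K0 K1 P.toValuationSubring →ₐ[K0] TensorProduct K0 K1 F0 :=
      Algebra.TensorProduct.map (AlgHom.id K0 K1)
        (IsScalarTower.toAlgHom K0 P.toValuationSubring F0)
    have hθ : Function.Injective θ :=
      Module.Flat.lTensor_preserves_injective_linearMap (M := K1)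
        (IsScalarTower.toAlgHom K0 P.toValuationSubring F0).toLinearMap Subtype.val_injective
    -- the general construction
    have key : ∀ c : (Module.Basis.ofVectorSpaceIndex K0 K1) →₀ F0, (∀ i, P.ord (c i) = 0) → (c.sum fun i n => 𝔈 i ⊗ₜ[K0] n) ≠ 0 →
        ∃ a' : TensorProduct K0 K1 P.toValuationSubring,
          θ a' = (c.sum fun i n => 𝔈 i ⊗ₜ[K0] n) ∧ ψ a' ≠ 0 := by
      intro c hc hne
      have hreg : ∀ i, c i ∈ P.toValuationSubring := fun i => reg_iff.2 (hc i).ge
      refine ⟨∑ i ∈ c.support, 𝔈 i ⊗ₜ[K0] (⟨c i, hreg i⟩ : P.toValuationSubring), ?_, ?_⟩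
      · rw [map_sum, Finsupp.sum]
        refine Finset.sum_congr rfl fun i _ => ?_
        simp [θ]
      · intro h0'
        rw [map_sum] at h0'
        have h1 : ∑ i ∈ c.support, val P (c i) • 𝔈 i = 0 := by
          rw [← h0']
          refine Finset.sum_congr rfl fun i _ => ?_
          simp only [ψ, Algebra.TensorProduct.productMap_apply_tmul, AlgHom.id_apply,
            AlgHom.comp_apply, Algebra.ofId_apply]
          rw [Algebra.smul_def, mul_comm]
          rfl
        have h2 := linearIndependent_iff'.1 𝔈.linearIndependent c.support _ h1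
        apply hne
        rw [Finsupp.sum]
        refine Finset.sum_eq_zero fun i hi => ?_
        exfalso
        rcases (val_eq_zero_iff h0 (hreg i)).1 (h2 i hi) with h3 | h3
        · exact (Finsupp.mem_support_iff.1 hi) h3
        · rw [hc i] at h3
          exact lt_irrefl _ h3
    obtain ⟨a', ha', hψa⟩ := key ca hordA (hca ▸ ha0)
    obtain ⟨b', hb', hψb⟩ := key cb hordB (hcb ▸ hb0)
    have h1 : θ (a' * b') = 0 := by rw [map_mul, ha', hb', hca, hcb, hab]
    have h2 : a' * b' = 0 := hθ (h1.trans (map_zero θ).symm)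
    have h3 : ψ a' * ψ b' = 0 := by rw [← map_mul, h2, map_zero]
    rcases mul_eq_zero.1 h3 with h | h
    · exact hψa h
    · exact hψb h
  exact ⟨⟩

section

variable {K0 K1 F0 F1 : Type*} [Field K0] [Field K1] [Field F0] [Field F1]
  [Algebra K0 F0] [Algebra K1 F1] [IsAlgClosed K0] [CharZero K0]

open scoped IntermediateField.algebraAdjoinAdjoin in
omit [IsAlgClosed K0] [CharZero K0] in
/-- every element of `F0` satisfies a polynomial relation over `K0[x]` -/
theorem exists_poly_rel (x f : F0) (hfin : FiniteDimensional K0⟮x⟯ F0) :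
    ∃ p : K0[X][X], p ≠ 0 ∧ p.eval₂ (aeval x : K0[X] →ₐ[K0] F0).toRingHom f = 0 := by
  have h1 : IsAlgebraic K0⟮x⟯ f := Algebra.IsAlgebraic.isAlgebraic f
  have h2 : IsAlgebraic (Algebra.adjoin K0 {x}) f :=
    (IsFractionRing.isAlgebraic_iff (Algebra.adjoin K0 {x}) K0⟮x⟯ F0).2 h1
  letI : Algebra K0[X] F0 := (aeval x : K0[X] →ₐ[K0] F0).toRingHom.toAlgebra
  let f0 : K0[X] →+* Algebra.adjoin K0 {x} :=
    ((aeval x : K0[X] →ₐ[K0] F0).codRestrict (Algebra.adjoin K0 {x})
      (fun p => aeval_mem_adjoin_singleton _ _)).toRingHom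
  have hsurj : Function.Surjective f0 := by
    rintro ⟨y, hy⟩
    have hy' := hy
    rw [Algebra.adjoin_singleton_eq_range_aeval] at hy'
    obtain ⟨p, rfl⟩ := hy'
    exact ⟨p, rfl⟩
  have h3 : IsAlgebraic K0[X] f :=
    h2.of_ringHom_of_comp_eq f0 (RingHom.id F0) hsurj Function.injective_id rfl
  obtain ⟨p, hp, hp0⟩ := h3
  exact ⟨p, hp, hp0⟩

/-- [S27/L-DOM2] linear disjointness is automatic -/
theorem ld_of_transcendental (j : K0 →+* K1) (ι : F0 →+* F1)
    (hcomm : ∀ a : K0, ι (algebraMap K0 F0 a) = algebraMap K1 F1 (j a))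
    (x : F0) (hx : Transcendental K0 x) (hfin : FiniteDimensional K0⟮x⟯ F0)
    (hx1 : Transcendental K1 (ι x)) (n : ℕ) (f : Fin n → F0) (hf : LinearIndependent K0 f) :
    LinearIndependent K1 (fun i => ι (f i)) := by
  classical
  letI : Algebra K0 K1 := j.toAlgebra
  letI : Algebra K0 F1 := ((algebraMap K1 F1).comp j).toAlgebra
  haveI : IsScalarTower K0 K1 F1 := IsScalarTower.of_algebraMap_eq (fun _ => rfl)
  haveI hdom : IsDomain (K1 ⊗[K0] F0) := isDomain_tensor ⟨x, hx, hfin⟩
  let ι' : F0 →ₐ[K0] F1 := { ι with commutes' := hcomm }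
  let φ : K1 ⊗[K0] F0 →ₐ[K1] F1 :=
    Algebra.TensorProduct.lift (Algebra.ofId K1 F1) ι' (fun _ _ => Commute.all _ _)
  have hφ : ∀ e f, φ (e ⊗ₜ f) = algebraMap K1 F1 e * ι f := fun e f => by
    simp only [φ, Algebra.TensorProduct.lift_tmul, Algebra.ofId_apply]
    rfl
  let X' : K1 ⊗[K0] F0 := 1 ⊗ₜ x
  letI : Algebra K1[X] (K1 ⊗[K0] F0) := (aeval X' : K1[X] →ₐ[K1] _).toRingHom.toAlgebra
  have halgmap : ∀ r : K1[X], algebraMap K1[X] (K1 ⊗[K0] F0) r = aeval X' r := fun _ => rfl
  have halg : ∀ t : K1 ⊗[K0] F0, IsAlgebraic K1[X] t := by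
    intro t
    induction t using TensorProduct.induction_on with
    | zero => exact isAlgebraic_zero
    | add a b ha hb => exact ha.add hb
    | tmul e f =>
      have h1 : e ⊗ₜ[K0] f = (e ⊗ₜ 1) * (1 ⊗ₜ f) := by simp
      rw [h1]
      apply IsAlgebraic.mul
      · have : (e ⊗ₜ[K0] (1 : F0)) = algebraMap K1[X] (K1 ⊗[K0] F0) (C e) := by
          rw [halgmap, aeval_C]
          rfl
        rw [this]
        exact isAlgebraic_algebraMap _
      · obtain ⟨p, hp, hp0⟩ := exists_poly_rel x f hfin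
        refine ⟨p.map (mapRingHom (algebraMap K0 K1)),
          (Polynomial.map_ne_zero_iff (map_injective _ (algebraMap K0 K1).injective)).2 hp, ?_⟩
        have : aeval (1 ⊗ₜ[K0] f : K1 ⊗[K0] F0) (p.map (mapRingHom (algebraMap K0 K1))) =
            (Algebra.TensorProduct.includeRight : F0 →ₐ[K0] K1 ⊗[K0] F0)
              (p.eval₂ (aeval x : K0[X] →ₐ[K0] F0).toRingHom f) := by
          rw [aeval_def, eval₂_map, ← AlgHom.coe_toRingHom, hom_eval₂]
          congr 1
          apply Polynomial.ringHom_ext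
          · intro a
            simp only [RingHom.comp_apply, coe_mapRingHom, map_C, halgmap, aeval_C,
              AlgHom.toRingHom_eq_coe, RingHom.coe_coe, AlgHom.commutes]
            rw [IsScalarTower.algebraMap_apply K0 K1 (K1 ⊗[K0] F0)]
          · simp only [RingHom.comp_apply, coe_mapRingHom, map_X, halgmap, aeval_X,
              AlgHom.toRingHom_eq_coe, RingHom.coe_coe]
            rfl
        rw [this, hp0, map_zero]
  have hinj : Function.Injective φ := by
    rw [injective_iff_map_eq_zero]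
    intro t ht
    by_contra ht0
    obtain ⟨q, hq0, hq⟩ := (halg t).exists_nonzero_coeff_and_aeval_eq_zero
      (mem_nonZeroDivisors_of_ne_zero ht0)
    have h1 : φ (aeval t q) = aeval (ι x) (q.coeff 0) := by
      rw [aeval_def, ← AlgHom.coe_toRingHom, hom_eval₂, AlgHom.coe_toRingHom, ht, eval₂_at_zero,
        RingHom.comp_apply, halgmap, AlgHom.coe_toRingHom, ← aeval_algHom_apply]
      congr 1
      rw [hφ, map_one, one_mul]
    rw [hq, map_zero] at h1
    exact hq0 ((transcendental_iff.1 hx1) _ h1.symm)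
  have h2 : LinearIndependent K1 (fun i => (1 : K1) ⊗ₜ[K0] f i) :=
    Module.Flat.linearIndependent_one_tmul hf
  have h3 := h2.map' φ.toLinearMap (LinearMap.ker_eq_bot.2 hinj)
  have h4 : (fun i => ι (f i)) = (φ.toLinearMap ∘ fun i => (1 : K1) ⊗ₜ[K0] f i) := by
    funext i
    simp only [Function.comp_apply, AlgHom.toLinearMap_apply, hφ, map_one, one_mul]
  rw [h4]
  exact h3

/-- [S27/L-DOM3] -/
theorem isFF_of_ld (j : K0 →+* K1) (ι : F0 →+* F1)
    (hcomm : ∀ a : K0, ι (algebraMap K0 F0 a) = algebraMap K1 F1 (j a))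
    (hld : ∀ (n : ℕ) (f : Fin n → F0), LinearIndependent K0 f →
      LinearIndependent K1 (fun i => ι (f i)))
    (hgen : Subfield.closure (Set.range (algebraMap K1 F1) ∪ Set.range ι) = ⊤)
    (h0 : IsFF K0 F0) : IsFF K1 F1 := by
  obtain ⟨x, hx, hfin⟩ := h0
  refine ⟨ι x, ?_, ?_⟩
  · rw [transcendental_iff]
    intro p hp
    have h1 : LinearIndependent K0 (fun i : Fin (p.natDegree + 1) => x ^ (i : ℕ)) :=
      (RiemannAux.linearIndependent_pow_of_transcendental hx).comp _ Fin.val_injective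
    have h2 := Fintype.linearIndependent_iff.1 (hld _ _ h1) (fun i => p.coeff (i : ℕ)) (by
      rw [Polynomial.aeval_eq_sum_range, ← Fin.sum_univ_eq_sum_range
        (fun i => p.coeff i • (ι x) ^ i)] at hp
      rw [← hp]
      exact Finset.sum_congr rfl fun i _ => by rw [map_pow])
    ext i
    rw [Polynomial.coeff_zero]
    by_cases hi : i < p.natDegree + 1
    · exact h2 ⟨i, hi⟩
    · exact Polynomial.coeff_eq_zero_of_natDegree_lt (by omega)
  · -- `ι` maps `K0⟮x⟯` into `K1⟮ι x⟯`
    have hE : ∀ a ∈ K0⟮x⟯, ι a ∈ K1⟮ι x⟯ := by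
      let T : IntermediateField K0 F0 := ((K1⟮ι x⟯).toSubfield.comap ι).toIntermediateField
        (fun a => by
          show ι (algebraMap K0 F0 a) ∈ K1⟮ι x⟯
          rw [hcomm]
          exact IntermediateField.algebraMap_mem _ _)
      have h1 : K0⟮x⟯ ≤ T := by
        rw [adjoin_simple_le_iff]
        exact mem_adjoin_simple_self K1 (ι x)
      exact fun a ha => h1 ha
    let ψ : K0⟮x⟯ →+* K1⟮ι x⟯ :=
      (ι.comp (algebraMap K0⟮x⟯ F0)).codRestrict K1⟮ι x⟯ (fun a => hE a a.2)
    have hint : ∀ b : F0, IsIntegral K1⟮ι x⟯ (ι b) := fun b =>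
      IsIntegral.map_of_comp_eq ψ ι rfl (Algebra.IsIntegral.isIntegral (R := K0⟮x⟯) b)
    obtain ⟨S, hS⟩ := (Module.Finite.fg_top : (⊤ : Submodule K0⟮x⟯ F0).FG)
    let L : IntermediateField K1⟮ι x⟯ F1 := adjoin K1⟮ι x⟯ (ι '' (S : Set F0))
    have : Finite (ι '' (S : Set F0)) := (S.finite_toSet.image ι).to_subtype
    have hLfin : FiniteDimensional K1⟮ι x⟯ L := finiteDimensional_adjoin (by
      rintro _ ⟨b, -, rfl⟩
      exact hint b)
    have hιL : ∀ f : F0, ι f ∈ L := by
      intro f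
      have hf : f ∈ Submodule.span K0⟮x⟯ (S : Set F0) := by rw [hS]; trivial
      induction hf using Submodule.span_induction with
      | mem b hb => exact subset_adjoin _ _ ⟨b, hb, rfl⟩
      | zero => rw [map_zero]; exact zero_mem _
      | add a b _ _ ha hb => rw [map_add]; exact add_mem ha hb
      | smul a b _ hb =>
        rw [Algebra.smul_def, map_mul]
        exact mul_mem (L.algebraMap_mem (ψ a)) hb
    have htop : ∀ z : F1, z ∈ L := by
      intro z
      have h1 : Subfield.closure (Set.range (algebraMap K1 F1) ∪ Set.range ι) ≤ L.toSubfield := by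
        rw [Subfield.closure_le]
        rintro _ (⟨c, rfl⟩ | ⟨f, rfl⟩)
        · exact L.algebraMap_mem (algebraMap K1 K1⟮ι x⟯ c)
        · exact hιL f
      exact h1 (by rw [hgen]; trivial)
    exact Module.Finite.of_surjective L.val.toLinearMap (fun z => ⟨⟨z, htop z⟩, rfl⟩)

end

open TensorProduct in
theorem domAux_bc {K0 K1 F0 F1 : Type*} [Field K0] [Field K1] [Field F0] [Field F1]
    [Algebra K0 F0] [Algebra K1 F1] [IsAlgClosed K0] [CharZero K0] [Algebra K0 K1]
    (h0 : IsFF K0 F0) (κ : K1 ⊗[K0] F0 →+* F1) (hinj : Function.Injective κ)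
    (hκ : ∀ e : K1, κ (e ⊗ₜ 1) = algebraMap K1 F1 e)
    (hsurj : ∀ z : F1, ∃ t t', z = κ t / κ t') :
    BC (algebraMap K0 K1)
      (κ.comp (Algebra.TensorProduct.includeRight : F0 →ₐ[K0] K1 ⊗[K0] F0).toRingHom) := by
  set ι : F0 →+* F1 :=
    κ.comp (Algebra.TensorProduct.includeRight : F0 →ₐ[K0] K1 ⊗[K0] F0).toRingHom with hι
  have hιa : ∀ f : F0, ι f = κ ((1 : K1) ⊗ₜ f) := fun f => rfl
  have hcomm : ∀ a : K0, ι (algebraMap K0 F0 a) = algebraMap K1 F1 (algebraMap K0 K1 a) := by
    intro a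
    rw [hιa, ← Algebra.TensorProduct.tmul_one_eq_one_tmul, hκ]
  have hmul : ∀ (e : K1) (f : F0), κ (e ⊗ₜ f) = algebraMap K1 F1 e * ι f := by
    intro e f
    rw [hιa, ← hκ, ← map_mul, Algebra.TensorProduct.tmul_mul_tmul, mul_one, one_mul]
  let κl : K1 ⊗[K0] F0 →ₗ[K1] F1 :=
    { toFun := κ
      map_add' := map_add κ
      map_smul' := fun e t => by
        have h1 : e • t = (e ⊗ₜ[K0] (1 : F0)) * t := by
          induction t using TensorProduct.induction_on with
          | zero => rw [smul_zero, mul_zero]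
          | tmul a b =>
            rw [Algebra.TensorProduct.tmul_mul_tmul, one_mul, TensorProduct.smul_tmul', smul_eq_mul]
          | add a b ha hb => rw [smul_add, mul_add, ha, hb]
        rw [h1, map_mul, hκ, RingHom.id_apply, Algebra.smul_def] }
  have hld : ∀ (n : ℕ) (f : Fin n → F0), LinearIndependent K0 f →
      LinearIndependent K1 (fun i => ι (f i)) := by
    intro n f hf
    have h1 : LinearIndependent K1 (fun i => (1 : K1) ⊗ₜ[K0] f i) :=
      Module.Flat.linearIndependent_one_tmul hf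
    exact h1.map' κl (LinearMap.ker_eq_bot.2 hinj)
  have hgen : Subfield.closure (Set.range (algebraMap K1 F1) ∪ Set.range ι) = ⊤ := by
    rw [eq_top_iff]
    intro z _
    have h1 : ∀ t, κ t ∈ Subfield.closure (Set.range (algebraMap K1 F1) ∪ Set.range ι) := by
      intro t
      induction t using TensorProduct.induction_on with
      | zero => rw [map_zero]; exact zero_mem _
      | tmul e f =>
        rw [hmul]
        exact mul_mem (Subfield.subset_closure (Or.inl ⟨e, rfl⟩))
          (Subfield.subset_closure (Or.inr ⟨f, rfl⟩))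
      | add a b ha hb => rw [map_add]; exact add_mem ha hb
    obtain ⟨t, t', rfl⟩ := hsurj z
    exact div_mem (h1 t) (h1 t')
  exact ⟨hcomm, hld, gen_of_closure hgen, h0, isFF_of_ld _ ι hcomm hld hgen h0⟩

open TensorProduct in
/-- [S27/L-DOM4] -/
theorem exists_bc {K0 : Type u} {F0 : Type v} {K1 : Type w} [Field K0] [Field K1] [Field F0]
    [Algebra K0 F0] [IsAlgClosed K0] [CharZero K0] (j : K0 →+* K1) (h0 : IsFF K0 F0) :
    ∃ (F1 : Type (max u v w)) (_ : Field F1) (_ : Algebra K1 F1) (ι : F0 →+* F1), BC j ι := by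
  letI : Algebra K0 K1 := j.toAlgebra
  haveI : IsDomain (K1 ⊗[K0] F0) := isDomain_tensor h0
  let κ : K1 ⊗[K0] F0 →+* ULift.{max u v w} (FractionRing (K1 ⊗[K0] F0)) :=
    (ULift.ringEquiv.symm : FractionRing (K1 ⊗[K0] F0) ≃+* _).toRingHom.comp
      (algebraMap (K1 ⊗[K0] F0) (FractionRing (K1 ⊗[K0] F0)))
  letI : Algebra K1 (ULift.{max u v w} (FractionRing (K1 ⊗[K0] F0))) :=
    (κ.comp (Algebra.TensorProduct.includeLeftRingHom)).toAlgebra
  refine ⟨ULift.{max u v w} (FractionRing (K1 ⊗[K0] F0)), inferInstance, inferInstance, _,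
    domAux_bc h0 κ ?_ (fun e => rfl) ?_⟩
  · exact (ULift.ringEquiv.symm : FractionRing (K1 ⊗[K0] F0) ≃+* _).injective.comp
      (IsFractionRing.injective _ _)
  · intro z
    obtain ⟨x, y, -, hxy⟩ := IsFractionRing.div_surjective (K1 ⊗[K0] F0) (ULift.ringEquiv z)
    refine ⟨x, y, ?_⟩
    apply (ULift.ringEquiv : ULift.{max u v w} (FractionRing (K1 ⊗[K0] F0)) ≃+* _).injective
    rw [← hxy, map_div₀]
    rfl

end Fermat.Agent.S27.L
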