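import Fermat.Agent.S27.L.Ext

/-!
# S27, block L : extension of divisors and of divisor classes.      (owner helper3)

## key S27/L-DIV  (~250 lines)
`extD H = Finsupp.mapDomain (ext H)`.  `extD_single`: `Finsupp.mapDomain_single`.  `extD_apply_ext`: `Finsupp.mapDomain_apply (ext_injective H)`.  `extD_apply_of_ne`: `Finsupp.mapDomain_notin_range`.
`degree_extD`: `Finsupp.induction_linear` (or `Finsupp.induction`), `Divisor.degree_single`, `H.ff0.deg_eq_one`, `H.ff1.deg_eq_one`.
`extD_eq_ord`: `Q = ext H P`: `extD_apply_ext`, `ord_ext`.  Otherwise `Q.ord (ι f) = 0` by `exists_eq_ext` (contrapositive) and `extD_apply_of_ne`.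
`smul_extD`: `Finsupp.induction_linear`, `SemilinearAut.smul_single`, `smul_ext`, `smul_add`.
`exists_extD_eq`: `E0 := E.comapDomain (ext H) (ext_injective H).injOn`; `Finsupp.mapDomain_comapDomain` (needs `↑E.support ⊆ Set.range (ext H)`).
`extD_nonneg_iff`: by cases `Q ∈ range (ext H)`.
`extD_mem_degZero`, `extD_mem_principal`: from `degree_extD`, `extD_eq_ord` (`Divisor.mem_principal`, `Divisor.IsPrincipal`; `ι f ≠ 0`).
-/

set_option autoImplicit false

noncomputable section

namespace Fermat.Agent.S27.L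

open AlgebraicCurve Fermat.Agent.S37

variable {K0 K1 F0 F1 : Type*} [Field K0] [Field K1] [Field F0] [Field F1]
  [Algebra K0 F0] [Algebra K1 F1] {j : K0 →+* K1} {ι : F0 →+* F1}
  [IsAlgClosed K0] [CharZero K0] [IsAlgClosed K1] [CharZero K1]

/-- extension of divisors -/
def extD (H : BC j ι) : Divisor K0 F0 →+ Divisor K1 F1 := Finsupp.mapDomain.addMonoidHom (ext H)

/-- [S27/L-DIV] -/
theorem extD_single (H : BC j ι) (P : Place K0 F0) (n : ℤ) :
    extD H (Finsupp.single P n) = Finsupp.single (ext H P) n := by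
  exact Finsupp.mapDomain_single

/-- [S27/L-DIV] -/
theorem extD_apply_ext (H : BC j ι) (D : Divisor K0 F0) (P : Place K0 F0) :
    extD H D (ext H P) = D P := by
  exact Finsupp.mapDomain_apply (ext_injective H) D P

/-- [S27/L-DIV] -/
theorem extD_apply_of_ne (H : BC j ι) (D : Divisor K0 F0) {Q : Place K1 F1}
    (hQ : ∀ P, Q ≠ ext H P) : extD H D Q = 0 := by
  apply Finsupp.mapDomain_notin_range
  rintro ⟨P, hP⟩
  exact hQ P hP.symm

/-- [S27/L-DIV] -/
theorem degree_extD (H : BC j ι) (D : Divisor K0 F0) :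
    Divisor.degree (extD H D) = Divisor.degree D := by
  induction D using Finsupp.induction_linear with
  | zero => simp
  | add D D' h h' => rw [map_add, map_add, map_add, h, h']
  | single P n =>
    rw [extD_single, Divisor.degree_single, Divisor.degree_single, H.ff0.deg_eq_one,
      H.ff1.deg_eq_one]

/-- [S27/L-DIV] the divisor of `ι f` is the extension of the divisor of `f` -/
theorem extD_eq_ord (H : BC j ι) {D : Divisor K0 F0} {f : F0} (hD : ∀ P, D P = P.ord f)
    (Q : Place K1 F1) : extD H D Q = Q.ord (ι f) := by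
  by_cases hQ : ∃ P, Q = ext H P
  · obtain ⟨P, rfl⟩ := hQ
    rw [extD_apply_ext, ord_ext, hD]
  · have hQ' : ∀ P, Q ≠ ext H P := fun P hP => hQ ⟨P, hP⟩
    rw [extD_apply_of_ne H D hQ']
    by_contra hne
    exact hQ (exists_eq_ext H Q (fun h => hne h.symm))

/-- [S27/L-DIV] -/
theorem smul_extD (H : BC j ι) {g : SemilinearAut K1 F1} (hg : Fix ι g) (D : Divisor K0 F0) :
    g • extD H D = extD H D := by
  induction D using Finsupp.induction_linear with
  | zero => simp
  | add D D' h h' => rw [map_add, smul_add, h, h']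
  | single P n => rw [extD_single, SemilinearAut.smul_single, smul_ext H hg]

/-- [S27/L-DIV] -/
theorem exists_extD_eq (H : BC j ι) (E : Divisor K1 F1)
    (hE : ∀ Q ∈ E.support, ∃ P, Q = ext H P) : ∃ E0 : Divisor K0 F0, extD H E0 = E := by
  refine ⟨E.comapDomain (ext H) (ext_injective H).injOn, ?_⟩
  apply Finsupp.mapDomain_comapDomain _ (ext_injective H)
  intro Q hQ
  obtain ⟨P, hP⟩ := hE Q hQ
  exact ⟨P, hP.symm⟩

/-- [S27/L-DIV] -/
theorem extD_injective (H : BC j ι) : Function.Injective (extD H) := by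
  exact Finsupp.mapDomain_injective (ext_injective H)

/-- [S27/L-DIV] -/
theorem extD_mem_degZero (H : BC j ι) {D : Divisor K0 F0}
    (hD : D ∈ Divisor.degZero (K := K0) (F := F0)) :
    extD H D ∈ Divisor.degZero (K := K1) (F := F1) := by
  rw [Divisor.mem_degZero] at hD ⊢
  rw [degree_extD, hD]

/-- [S27/L-DIV] -/
theorem extD_mem_principal (H : BC j ι) {D : Divisor K0 F0}
    (hD : D ∈ Divisor.principal (K := K0) (F := F0)) :
    extD H D ∈ Divisor.principal (K := K1) (F := F1) := by
  obtain ⟨f, hf, hD⟩ := hD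
  exact ⟨ι f, (map_ne_zero ι).2 hf, fun Q => extD_eq_ord H hD Q⟩

/-- extension of divisors of degree `0` -/
def extD0 (H : BC j ι) :
    Divisor.degZero (K := K0) (F := F0) →+ Divisor.degZero (K := K1) (F := F1) :=
  ((extD H).comp (Divisor.degZero (K := K0) (F := F0)).subtype).codRestrict _
    (fun D => extD_mem_degZero H D.2)

@[simp]
theorem coe_extD0 (H : BC j ι) (D : Divisor.degZero (K := K0) (F := F0)) :
    (extD0 H D : Divisor K1 F1) = extD H (D : Divisor K0 F0) := rfl

/-- extension of divisor classes -/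
def extPic (H : BC j ι) : Pic0 K0 F0 →+ Pic0 K1 F1 :=
  QuotientAddGroup.map _ _ (extD0 H) (by
    rintro ⟨D, hD0⟩ hD
    simp only [AddSubgroup.mem_addSubgroupOf, AddSubgroup.mem_comap] at hD ⊢
    exact extD_mem_principal H hD)

theorem extPic_mk (H : BC j ι) (D : Divisor.degZero (K := K0) (F := F0)) :
    extPic H (Pic0.mk D) = Pic0.mk (extD0 H D) := rfl

end Fermat.Agent.S27.L
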