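import Fermat.Agent.S27.L.LSpace

/-!
# S27, block L : torsion classes descend (if there are finitely many of them).      (owner helper3)

## key S27/L-GAL1 : `exists_unique_effective`   (one function field; ~200 lines)
`γ` from `exists_mem_L h`.  `r := Nat.find` of `∃ r : ℕ, riemannRochSpace (D + single P0 r) ≠ ⊥` (true for `r ≥ γ`: degree of `D + r P0` is `r`).  `f ≠ 0` in `L(D + r P0)`, `E := D + single P0 r + AR.dv h f ≥ 0`;
`E - D - single P0 r = dv f` is principal (`AR.dv_apply`).  Uniqueness: `E' ≥ 0`, `E' - E` principal `= div u`, `u ≠ 0`.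
`r = 0`: `deg E = 0 = deg E'` (`AR.degree_dv`; a principal divisor has degree `0`: it equals `AR.dv h u`), so `E = 0 = E'` (`RiemannAux.eq_zero_of_degree_eq_zero`).
`r = r' + 1`: `L(D + r' P0) = ⊥` (`Nat.find_min`), so `finrank L(D + r P0) ≤ 1` (`finrank_L_add_single_le`; `single P0 (r'+1) = single P0 r' + single P0 1`); `f`, `f * u` both lie in it (`D + r P0 + div (f u) = E' ≥ 0`), so `f * u = c • f`
(`finrank_le_one_iff`), `u = algebraMap c`, `v.ord u = 0` for all `v` (`u`, `u⁻¹` are in every valuation ring: `Place.algebraMap_mem'`, `reg_iff`, `Place.ord_inv`), `E' = E`.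
## key S27/L-GAL2 : `support_subset_range`   (~300 lines)   THE MAIN ARGUMENT
Let `Q ∈ E.support`, and suppose `Q ≠ ext H P` for all `P`.  `H.ff0 = ⟨y, hy, _⟩`.  By `exists_eq_ext`: `Q.ord (ι f) = 0` for ALL `f : F0`.  So `Reg Q (ι y)`; `c := val Q (ι y)`.
`c ∉ range j`: if `c = j c0` then `Van Q (ι (y - algebraMap c0))` (`van_sub_val H.ff1`, `H.comm`), and `y - algebraMap c0 ≠ 0` (`y` transcendental), so `0 < Q.ord (ι (..))`, contradiction.
For `n : ℕ`: `σ n` from `exists_aut j c _ n` (`σ n c = c + n`), `g n` from `exists_lift H (σ n)`.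
`n ↦ ⟨g n • x, SemilinearAut.smul_mem_torsion ..⟩` takes values in the finite type `Pic0.torsion K1 F1 N`: `Finite.exists_infinite_fiber` gives an infinite set `S1 ⊆ ℕ` on which `g n • x` is constant.  Fix `n0 ∈ S1`,
`t n := (g n0)⁻¹ * g n`: `Fix ι (t n)`, `t n • x = x` for `n ∈ S1`.
`t n • E = E` for `n ∈ S1`: `t n • E ≥ 0` (`SemilinearAut.divisor_smul_apply`); `t n • E - E` is principal: `E - D - r P0' ∈ principal` (`P0' = ext H p0`) gives `t n • E - t n • D - r P0' ∈ principal`
(`SemilinearAut.smul_mem_principal`, `smul_sub`, `SemilinearAut.smul_single`, `smul_ext`), and `t n • D - D ∈ principal` since `t n • Pic0.mk D = Pic0.mk D` (`SemilinearAut.pic0_smul_mk`, `QuotientAddGroup.eq`).  Uniqueness of `E`.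
So `t n • Q ∈ E.support` (`SemilinearAut.divisor_smul_apply_smul`): a map from the infinite set `S1` to a finite set: `n ≠ n'` in `S1` with `t n • Q = t n' • Q` (`Set.Infinite.exists_ne_map_eq_of_mapsTo`).
`val (t n • Q) (ι y) = val (t n • Q) (t n • ι y) = baseAut (t n) c = (σ n0).symm (c + n)` (`val_smul H.ff1`, `SemilinearAut.baseAut_mul`, `baseAut_inv`).  So `c + n = c + n'`, `n = n'` (`CharZero K1`).  Contradiction.
## key S27/L-GAL3 : `exists_extPic_eq`   (~100 lines)
`x = Pic0.mk D`; `p0` a place of `F0` (`infinite_place H.ff0`); `(r, E)` from `exists_unique_effective H.ff1 D (ext H p0)`; `support_subset_range`; `E = extD H E0` (`exists_extD_eq`); `D0 := E0 - single p0 r` has degree `0`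
(`degree_extD`: `deg E0 = deg E = deg (D + r P0' + principal) = r`); `extPic H (Pic0.mk D0) = Pic0.mk (E - single (ext H p0) r) = Pic0.mk D` (`extPic_mk`, `extD_single`, `QuotientAddGroup.eq`).
-/

set_option autoImplicit false

noncomputable section

namespace Fermat.Agent.S27.L

open AlgebraicCurve Fermat.Agent.S37

section One

variable {K F : Type*} [Field K] [Field F] [Algebra K F] [IsAlgClosed K] [CharZero K]

/-- [S27/L-GAL1] -/
theorem exists_unique_effective (h : IsFF K F) (D : Divisor K F) (hD : Divisor.degree D = 0)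
    (P0 : Place K F) : ∃ (r : ℕ) (E : Divisor K F), (∀ Q, 0 ≤ E Q) ∧
      E - D - Finsupp.single P0 (r : ℤ) ∈ Divisor.principal (K := K) (F := F) ∧
      ∀ E' : Divisor K F, (∀ Q, 0 ≤ E' Q) → E' - E ∈ Divisor.principal (K := K) (F := F) →
        E' = E := by
  classical
  obtain ⟨γ, hγ⟩ := exists_mem_L h
  have hdeg : ∀ r : ℕ, Divisor.degree (D + Finsupp.single P0 (r : ℤ)) = r := by
    intro r
    rw [map_add, hD, zero_add, Divisor.degree_single, h.deg_eq_one]; simp
  have hex : ∃ r : ℕ, riemannRochSpace (D + Finsupp.single P0 (r : ℤ)) ≠ ⊥ := by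
    refine ⟨γ.toNat, ?_⟩
    obtain ⟨f, hf, hf0⟩ := hγ (D + Finsupp.single P0 (γ.toNat : ℤ))
      (by rw [hdeg]; exact Int.self_le_toNat γ)
    exact (Submodule.ne_bot_iff _).2 ⟨f, hf, hf0⟩
  obtain ⟨r, hrspec, hrmin⟩ : ∃ r : ℕ, riemannRochSpace (D + Finsupp.single P0 (r : ℤ)) ≠ ⊥ ∧
      ∀ r' < r, riemannRochSpace (D + Finsupp.single P0 (r' : ℤ)) = ⊥ :=
    ⟨Nat.find hex, Nat.find_spec hex, fun r' hr' => not_not.1 (Nat.find_min hex hr')⟩
  obtain ⟨f, hf, hf0⟩ := (Submodule.ne_bot_iff _).1 hrspec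
  obtain ⟨E, hE⟩ : ∃ E, E = D + Finsupp.single P0 (r : ℤ) + AR.dv h f := ⟨_, rfl⟩
  have hEnn : ∀ Q, 0 ≤ E Q := by
    intro v
    rw [hE, Finsupp.add_apply, AR.dv_apply h hf0]
    rcases (mem_riemannRochSpace_iff.1 hf) v with h2 | h2
    · exact absurd h2 hf0
    · omega
  refine ⟨r, E, hEnn, ⟨f, hf0, fun v => ?_⟩, ?_⟩
  · have : E - D - Finsupp.single P0 (r : ℤ) = AR.dv h f := by rw [hE]; abel
    rw [this, AR.dv_apply h hf0]
  · rintro E' hE' ⟨u, hu0, hu⟩
    have hE'eq : E' = E + AR.dv h u := by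
      ext v
      rw [Finsupp.add_apply, AR.dv_apply h hu0]
      have := hu v
      rw [Finsupp.sub_apply] at this
      omega
    rcases Nat.eq_zero_or_pos r with hr0 | hrpos
    · have hdE : Divisor.degree E = 0 := by
        rw [hE, map_add, hdeg, AR.degree_dv, hr0]; simp
      have hE0 : E = 0 := RiemannAux.eq_zero_of_degree_eq_zero h E hEnn hdE
      have hdE' : Divisor.degree E' = 0 := by rw [hE'eq, map_add, hdE, AR.degree_dv, add_zero]
      rw [RiemannAux.eq_zero_of_degree_eq_zero h E' hE' hdE', hE0]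
    · obtain ⟨r', hr'⟩ : ∃ r', r = r' + 1 := ⟨r - 1, by omega⟩
      have hbot := hrmin r' (by omega)
      have hle : Module.finrank K (riemannRochSpace (D + Finsupp.single P0 (r : ℤ))) ≤ 1 := by
        have h1 := finrank_L_add_single_le h (D + Finsupp.single P0 (r' : ℤ)) P0
        rw [hbot, finrank_bot, add_assoc, ← Finsupp.single_add] at h1
        have h2 : ((r' : ℤ) + 1) = (r : ℤ) := by rw [hr']; push_cast; ring
        rw [h2] at h1
        exact h1
      have hfu : f * u ∈ riemannRochSpace (D + Finsupp.single P0 (r : ℤ)) := by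
        refine mem_riemannRochSpace_iff.2 fun v => Or.inr ?_
        rw [v.ord_mul hf0 hu0]
        have := hE' v
        rw [hE'eq, Finsupp.add_apply, hE, Finsupp.add_apply, AR.dv_apply h hf0,
          AR.dv_apply h hu0] at this
        omega
      have := finite_L h (D + Finsupp.single P0 (r : ℤ))
      obtain ⟨w, hw⟩ := finrank_le_one_iff.1 hle
      obtain ⟨c1, hc1⟩ := hw ⟨f, hf⟩
      obtain ⟨c2, hc2⟩ := hw ⟨f * u, hfu⟩
      have hc1' : c1 • (w : F) = f := congrArg Subtype.val hc1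
      have hc2' : c2 • (w : F) = f * u := congrArg Subtype.val hc2
      have hc10 : c1 ≠ 0 := by
        rintro rfl
        rw [zero_smul] at hc1'
        exact hf0 hc1'.symm
      have hu' : u = algebraMap K F (c2 / c1) := by
        apply mul_left_cancel₀ hf0
        rw [← hc2', ← hc1', Algebra.smul_def, Algebra.smul_def, map_div₀]
        have : algebraMap K F c1 ≠ 0 := (map_ne_zero _).2 hc10
        field_simp
      rw [hE'eq]
      ext v
      rw [Finsupp.add_apply, AR.dv_apply h hu0, hu', AR.ord_algebraMap, add_zero]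

end One

variable {K0 K1 F0 F1 : Type*} [Field K0] [Field K1] [Field F0] [Field F1]
  [Algebra K0 F0] [Algebra K1 F1] {j : K0 →+* K1} {ι : F0 →+* F1}
  [IsAlgClosed K0] [CharZero K0] [IsAlgClosed K1] [CharZero K1]

/-- [S27/L-GAL2] -/
theorem support_subset_range (H : BC j ι) (N : ℕ) (hfin : Finite (Pic0.torsion K1 F1 N))
    (D : Divisor.degZero (K := K1) (F := F1)) (hx : Pic0.mk D ∈ Pic0.torsion K1 F1 N)
    (p0 : Place K0 F0) (r : ℕ) (E : Divisor K1 F1) (hE : ∀ Q, 0 ≤ E Q)
    (hED : E - (D : Divisor K1 F1) - Finsupp.single (ext H p0) (r : ℤ) ∈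
      Divisor.principal (K := K1) (F := F1))
    (huniq : ∀ E' : Divisor K1 F1, (∀ Q, 0 ≤ E' Q) →
      E' - E ∈ Divisor.principal (K := K1) (F := F1) → E' = E) :
    ∀ Q ∈ E.support, ∃ P, Q = ext H P := by
  intro Q hQ
  by_contra hcon
  push Not at hcon
  have hord : ∀ f : F0, Q.ord (ι f) = 0 := by
    intro f
    by_contra hf
    obtain ⟨P, hP⟩ := exists_eq_ext H Q hf
    exact hcon P hP
  obtain ⟨y, hy, -⟩ := H.ff0
  have hreg : Reg Q (ι y) := by rw [reg_iff, hord]
  obtain ⟨c, hc⟩ : ∃ c, c = val Q (ι y) := ⟨_, rfl⟩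
  have hcj : c ∉ Set.range j := by
    rintro ⟨c0, hc0⟩
    have h1 := van_sub_val H.ff1 hreg
    rw [← hc, ← hc0, ← H.comm, ← map_sub] at h1
    rcases h1 with h1 | h1
    · have h2 : y - algebraMap K0 F0 c0 = 0 := (map_eq_zero ι).1 h1
      apply hy
      rw [sub_eq_zero.1 h2]
      exact isAlgebraic_algebraMap c0
    · rw [hord] at h1
      exact lt_irrefl _ h1
  choose σ hσ1 hσ2 using fun n : ℕ => exists_aut j c hcj n
  choose g hg1 hg2 using fun n : ℕ => exists_lift H (σ n) (hσ1 n)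
  let φ : ℕ → Pic0.torsion K1 F1 N :=
    fun n => ⟨g n • Pic0.mk D, SemilinearAut.smul_mem_torsion _ hx⟩
  obtain ⟨x0, hx0⟩ := Finite.exists_infinite_fiber φ
  have hS1 : (φ ⁻¹' {x0}).Infinite := Set.infinite_coe_iff.1 hx0
  obtain ⟨n0, hn0⟩ := hS1.nonempty
  let t : ℕ → SemilinearAut K1 F1 := fun n => (g n0)⁻¹ * g n
  have htfix : ∀ n, Fix ι (t n) := by
    intro n f
    show ((g n0)⁻¹ * g n) • ι f = ι f
    rw [mul_smul, hg2 n f, inv_smul_eq_iff, hg2 n0 f]
  have htx : ∀ n ∈ φ ⁻¹' {x0}, t n • Pic0.mk D = Pic0.mk D := by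
    intro n hn
    show ((g n0)⁻¹ * g n) • Pic0.mk D = Pic0.mk D
    rw [mul_smul, inv_smul_eq_iff]
    have h1 : φ n = φ n0 := Eq.trans hn (Eq.symm hn0)
    exact congrArg Subtype.val h1
  have htE : ∀ n ∈ φ ⁻¹' {x0}, t n • E = E := by
    intro n hn
    apply huniq
    · intro Q'
      rw [SemilinearAut.divisor_smul_apply]
      exact hE _
    · have h1 := SemilinearAut.smul_mem_principal (t n) hED
      rw [smul_sub, smul_sub, SemilinearAut.smul_single, smul_ext H (htfix n)] at h1
      have h2 : t n • (D : Divisor K1 F1) - D ∈ Divisor.principal (K := K1) (F := F1) := by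
        have h3 := htx n hn
        rw [SemilinearAut.pic0_smul_mk] at h3
        have h4 := QuotientAddGroup.eq.1 h3
        rw [AddSubgroup.mem_addSubgroupOf] at h4
        have h5 := neg_mem h4
        have h6 : -(((-(SemilinearAut.degZeroSMulHom (t n) D) + D :
            Divisor.degZero (K := K1) (F := F1)) : Divisor K1 F1)) =
            t n • (D : Divisor K1 F1) - D := by
          rw [AddSubgroup.coe_add, AddSubgroup.coe_neg, SemilinearAut.coe_degZeroSMulHom]
          abel
        rwa [h6] at h5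
      have h3 : t n • E - E = (t n • E - t n • (D : Divisor K1 F1) -
          Finsupp.single (ext H p0) (r : ℤ)) -
          (E - (D : Divisor K1 F1) - Finsupp.single (ext H p0) (r : ℤ)) +
          (t n • (D : Divisor K1 F1) - D) := by abel
      rw [h3]
      exact add_mem (sub_mem h1 hED) h2
  have hmaps : Set.MapsTo (fun n => t n • Q) (φ ⁻¹' {x0}) (E.support : Set (Place K1 F1)) := by
    intro n hn
    rw [Finset.mem_coe, Finsupp.mem_support_iff]
    have h1 := SemilinearAut.divisor_smul_apply_smul (t n) E Q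
    rw [htE n hn] at h1
    show E (t n • Q) ≠ 0
    rw [h1]
    exact Finsupp.mem_support_iff.1 hQ
  obtain ⟨n, hn, n', hn', hne, heq⟩ :=
    hS1.exists_ne_map_eq_of_mapsTo hmaps E.support.finite_toSet
  have heq' : t n • Q = t n' • Q := heq
  have hval : ∀ n, val (t n • Q) (ι y) = (σ n0).symm (c + n) := by
    intro n
    have h1 := val_smul H.ff1 (t n) Q hreg
    rw [htfix n y] at h1
    rw [h1, ← hc]
    show SemilinearAut.baseAut ((g n0)⁻¹ * g n) c = _
    rw [SemilinearAut.baseAut_mul, SemilinearAut.baseAut_inv, hg1, hg1, ← hσ2 n]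
    rfl
  have h1 := hval n
  rw [heq', hval n'] at h1
  have h2 := (σ n0).symm.injective h1
  have h3 : (n' : K1) = n := add_left_cancel h2
  exact hne (Nat.cast_injective h3).symm

/-- [S27/L-GAL3] -/
theorem exists_extPic_eq (H : BC j ι) (N : ℕ) (hfin : Finite (Pic0.torsion K1 F1 N))
    (x : Pic0 K1 F1) (hx : x ∈ Pic0.torsion K1 F1 N) : ∃ x0 : Pic0 K0 F0, extPic H x0 = x := by
  obtain ⟨D, rfl⟩ := Pic0.mk_surjective x
  have := infinite_place H.ff0
  let p0 : Place K0 F0 := Classical.arbitrary _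
  obtain ⟨r, E, hE, hED, huniq⟩ :=
    exists_unique_effective H.ff1 (D : Divisor K1 F1) D.2 (ext H p0)
  obtain ⟨E0, hE0⟩ := exists_extD_eq H E (support_subset_range H N hfin D hx p0 r E hE hED huniq)
  have hdegE : Divisor.degree E = r := by
    obtain ⟨u, hu0, hu⟩ := hED
    have h1 : E - (D : Divisor K1 F1) - Finsupp.single (ext H p0) (r : ℤ) = AR.dv H.ff1 u := by
      ext v
      rw [hu, AR.dv_apply _ hu0]
    have h2 := congrArg Divisor.degree h1
    have h3 : Divisor.degree (D : Divisor K1 F1) = 0 := D.2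
    rw [map_sub, map_sub, AR.degree_dv, Divisor.degree_single, H.ff1.deg_eq_one, h3] at h2
    simp only [Nat.cast_one, mul_one, sub_zero] at h2
    omega
  have hD0 : E0 - Finsupp.single p0 (r : ℤ) ∈ Divisor.degZero (K := K0) (F := F0) := by
    rw [Divisor.mem_degZero, map_sub, ← degree_extD H, hE0, hdegE, Divisor.degree_single,
      H.ff0.deg_eq_one]
    simp
  refine ⟨Pic0.mk ⟨_, hD0⟩, ?_⟩
  rw [extPic_mk]
  apply QuotientAddGroup.eq.2
  rw [AddSubgroup.mem_addSubgroupOf, AddSubgroup.coe_add, AddSubgroup.coe_neg, coe_extD0]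
  show -(extD H (E0 - Finsupp.single p0 (r : ℤ))) + (D : Divisor K1 F1) ∈ _
  rw [map_sub, hE0, extD_single]
  have h1 := neg_mem hED
  have h2 : -(E - (D : Divisor K1 F1) - Finsupp.single (ext H p0) (r : ℤ)) =
      -(E - Finsupp.single (ext H p0) (r : ℤ)) + (D : Divisor K1 F1) := by abel
  rwa [h2] at h1

end Fermat.Agent.S27.L
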