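import Fermat.Agent.S27.AR.Main

/-!
# S27/ISFF : the hypotheses of S27 say that `F` is a function field in one variable.   (Mathlib only)

`IsCurveOver K F` gives `Module.finrank F Ω[F⁄K] = 1` (`IsCurveOver.finrank_kaehler`), `Algebra.EssFiniteType K F` says that `F/K` is a finitely generated field.
`IsFF K F := ∃ x, Transcendental K x ∧ FiniteDimensional K⟮x⟯ F`.

## Proof
(1) `F/K` finitely generated field extension: choose a FINITE transcendence basis `x : Fin d → F` (or `ι` finite) inside a finite generating set
    (`Algebra.EssFiniteType` ⟹ `IntermediateField.FG ⊤` / `Algebra.EssFiniteType.iff...`; `exists_isTranscendenceBasis_subset`-type lemma: a transcendence basis can be chosen inside any set `s` with `F` algebraic over `K(s)`).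
    `E := IntermediateField.adjoin K (range x)`; `F/E` is algebraic and finitely generated, so finite; separable (`CharZero`).
(2) `F/E` finite separable ⟹ `Algebra.FormallyEtale E F` (`Algebra.FormallyEtale.of_isSeparable` / `Algebra.FormallyEtale.iff_isSeparable`), so
    `Ω[F⁄K] ≃ F ⊗[E] Ω[E⁄K]` (`KaehlerDifferential.tensorKaehlerEquivOfFormallyEtale`), `finrank F Ω[F⁄K] = finrank E Ω[E⁄K]`.
(3) `E` is a localisation (fraction field) of `MvPolynomial (Fin d) K` via `aeval x` (algebraic independence), localisations are formally etale
    (`Algebra.FormallyEtale.of_isLocalization`), so `Ω[E⁄K] ≃ E ⊗ Ω[MvPolynomial (Fin d) K⁄K]`, free of rank `d` (`KaehlerDifferential.mvPolynomialBasis`).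
(4) `d = 1`.  `x 0` is transcendental, `E = K⟮x 0⟯`.
SEARCH FIRST: Mathlib may already contain `rank Ω[F⁄K] = trdeg` in characteristic `0` (`Mathlib/RingTheory/Kaehler/*`, `Mathlib/FieldTheory/Differential*`, `Algebra.trdeg`,
`Differential`, `Algebra.FormallySmooth` for fields: `Mathlib/RingTheory/Smooth/Field.lean`, `Mathlib/RingTheory/Etale/Field.lean`).
-/

set_option autoImplicit false
set_option linter.style.haveILetI false

noncomputable section

namespace Fermat.Agent.S27

open AlgebraicCurve Fermat.Agent.S37

universe u v

open scoped IntermediateField.algebraAdjoinAdjoin TensorProduct in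
/-- the rank of the differentials is the cardinality of a separating transcendence basis -/
theorem isffAux_finrank {K : Type u} {F : Type v} [Field K] [Field F] [Algebra K F]
    {ι : Type v} [Fintype ι] (x : ι → F) (hx : AlgebraicIndependent K x)
    [Algebra.IsSeparable (IntermediateField.adjoin K (Set.range x)) F] :
    Module.finrank F Ω[F⁄K] = Fintype.card ι := by
  let A := MvPolynomial ι K
  let B := Algebra.adjoin K (Set.range x)
  let E := IntermediateField.adjoin K (Set.range x)
  have h1 : Algebra.FormallyEtale B E := .of_isLocalization (nonZeroDivisors _)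
  have h2 : Algebra.FormallyEtale E F := Algebra.FormallyEtale.of_isSeparable _ F
  have h3 : Algebra.FormallyEtale B F := .comp B E F
  letI : Algebra A B := hx.aevalEquiv.toAlgHom.toAlgebra
  have h4 : Algebra.FormallyEtale A B :=
    Algebra.FormallyEtale.of_equiv (R := A) (A := A) (B := B)
      (AlgEquiv.ofRingEquiv (f := hx.aevalEquiv.toRingEquiv) (fun _ => rfl))
  letI : Algebra A F := ((algebraMap B F).comp (algebraMap A B)).toAlgebra
  haveI : IsScalarTower A B F := IsScalarTower.of_algebraMap_eq' rfl
  have h5 : Algebra.FormallyEtale A F := .comp A B F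
  haveI : IsScalarTower K A F := IsScalarTower.of_algebraMap_eq fun k => by
    show algebraMap K F k = ((hx.aevalEquiv (algebraMap K A k) : B) : F)
    rw [AlgEquiv.commutes]
    rfl
  have e := KaehlerDifferential.tensorKaehlerEquivOfFormallyEtale K A F
  rw [← e.finrank_eq]
  exact Module.finrank_eq_card_basis ((KaehlerDifferential.mvPolynomialBasis K ι).baseChange F)

/-- [S27/ISFF] the hypotheses of S27 say that `F` is a function field in one variable -/
theorem isFF_of_isCurveOver (K : Type u) (F : Type v) [Field K] [Field F] [Algebra K F]
    [IsAlgClosed K] [CharZero K] [IsCurveOver K F] [Algebra.EssFiniteType K F] : IsFF K F := by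
  obtain ⟨s, hs, H⟩ := exists_isTranscendenceBasis_and_isSeparable_of_perfectField K F
  have hr : Set.range ((↑) : s → F) = (s : Set F) := by simp
  haveI : Algebra.IsSeparable (IntermediateField.adjoin K (Set.range ((↑) : s → F))) F := by
    rw [hr]; exact H
  have h1 := isffAux_finrank (K := K) ((↑) : s → F) hs.1
  rw [(IsCurveOver.kaehler_free_rank_one (K := K) (F := F)).2, Fintype.card_coe] at h1
  obtain ⟨x, rfl⟩ := Finset.card_eq_one.1 h1.symm
  refine ⟨x, ?_, ?_⟩
  · exact hs.1.transcendental ⟨x, Finset.mem_singleton_self x⟩
  · have e : IntermediateField.adjoin K ((({x} : Finset F) : Set F)) = IntermediateField.adjoin K {x} := by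
      rw [Finset.coe_singleton]
    rw [e] at H
    haveI : Algebra.EssFiniteType (IntermediateField.adjoin K {x}) F :=
      Algebra.EssFiniteType.of_comp K _ F
    haveI : Algebra.FormallyEtale (IntermediateField.adjoin K {x}) F :=
      Algebra.FormallyEtale.of_isSeparable _ F
    exact Algebra.FormallyUnramified.finite_of_free _ F

end Fermat.Agent.S27
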