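import Fermat.Agent.S27.L.ExtDiv

/-!
# S27, block L : `L_F1 (extD D) = K1 ⊗ L_F0 (D)`, equality of the genera, injectivity of `extPic`.      (owner helper3)

`mem_riemannRochSpace_iff : f ∈ riemannRochSpace D ↔ ∀ v, f = 0 ∨ -D v ≤ v.ord f`.

## key S27/L-LSP1 : `map_mem_L_iff`, `finrank_L_le`, `smul_mem_L`  (~150 lines)
`map_mem_L_iff`: `→` test at `ext H P` (`extD_apply_ext`, `ord_ext`); `←` `Q = ext H P` the same; otherwise `extD H D Q = 0` (`extD_apply_of_ne`) and `Q.ord (ι f) = 0` (`exists_eq_ext`).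
`finrank_L_le`: a `K0`-basis `f_1..f_n` of `L(D)` (`finite_L H.ff0 D`, `Module.finBasis`); `ι f_i ∈ L(extD D)` are `K1`-independent by `H.ld`; `LinearIndependent.fintype_card_le_finrank` (finiteness: `finite_L H.ff1`).
`smul_mem_L`: `Q.ord (g • z) = (g⁻¹ • Q).ord z` (`ord_smul'`), `extD H D (g⁻¹ • Q) = (g • extD H D) Q = extD H D Q` (`SemilinearAut.divisor_smul_apply`, `smul_extD`).
## key S27/L-LSP2 : `exists_ev`, `ev_injective`  (~200 lines)
`exists_ev`: `infinite_place H.ff0`; the complement of the finite set `D.support` is infinite: an injective family of any length `m` (`Infinite.natEmbedding`/`Set.Infinite.exists_subset_card_eq`), `m := (deg D + 1).toNat`.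
`ev_injective`: `z ∈ L(extD D)`, `val (ext H (R i)) z = 0` for all `i`.  `z` is regular at `ext H (R i)` (`D (R i) = 0`), so `Van` (`val_eq_zero_iff H.ff1`).  So `z ∈ L(extD H (D - ∑ single (R i) 1))`
(the `R i` are distinct), of degree `deg D - m < 0`: `L_eq_bot H.ff1`, `degree_extD`.
## key S27/L-LSP3 : `L_le_span`, `finrank_L_eq`  (~250 lines)
`V1 := L(extD D)`.  `(m, R)` from `exists_ev`.  `ev : V1 →ₗ[K1] (Fin m → K1)`, `z ↦ fun i => val (ext H (R i)) z` (`val_add`, `val_mul`, `val_algebraMap` for `H.ff1`; all `z ∈ V1` are regular at `ext H (R i)`), injective by `ev_injective`.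
`V := LinearMap.range ev`.  Stable: `σ` with `FixK j σ`, `g` from `exists_lift H σ`: `ev (g • z) i = val (ext H (R i)) (g • z) = val (g • ext H (R i)) (g • z) = σ (ev z i)` (`smul_ext`, `val_smul H.ff1`, `smul_mem_L`).
`span_fixed (Pi.basisFun K1 (Fin m)) {σ | FixK j σ} (Set.range j) (mem_range_of_fixed_aut j) V _` (`Pi.basisFun_repr`): `ev z` is a combination of vectors `ev w`, `w ∈ V1`, with `ev w i ∈ range j`.
Such a `w` is fixed by every `g` with `Fix ι g`: `baseAut g` fixes `j K0` (`g • ι (algebraMap a) = ι (algebraMap a)`, `H.comm`, `SemilinearAut.smul_algebraMap`, injectivity of `algebraMap K1 F1`), so `ev (g • w) = ev w`, `g • w = w`.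
`mem_range_of_fixed H w`: `w = ι w0`, `w0 ∈ L(D)` by `map_mem_L_iff`.  By injectivity of `ev`, `z` is the same combination of the `w`'s.
`finrank_L_eq`: `≥` is `finrank_L_le`; `≤`: `L(extD D) ≤ span K1 (ι '' basis)` (`ι` of a `K0`-combination is a `K1`-combination: `H.comm`), `finrank_span_le_card`/`finrank_range_le_card`, `Submodule.finrank_mono`.
## key S27/L-GEN : `genus_eq`, `extPic_injective`, `extPic_mem_torsion_iff`  (~150 lines)
`genus_eq`: a place `P` of `F0` (`infinite_place H.ff0`); `m ≥ m₀, m₀'` from `exists_eq_genus H.ff0 P`, `exists_eq_genus H.ff1 (ext H P)`; `extD_single`, `finrank_L_eq`.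
`extPic_injective`: `injective_iff_map_eq_zero`; `x = Pic0.mk D`; `extPic_mk`; `Pic0.mk E = 0 ↔ (E : Divisor) ∈ principal` (`QuotientAddGroup.eq_zero_iff`, `AddSubgroup.mem_addSubgroupOf`).  `extD H D = div z`, `z ≠ 0`: `z⁻¹ ∈ L(extD H D)`, so
`0 < finrank L(extD H D) = finrank L(D)`, `L(D) ≠ ⊥`, `principal_of_L_ne_bot H.ff0`.
`extPic_mem_torsion_iff`: `Pic0.mem_torsion`, `map_zsmul`, injectivity.
-/

set_option autoImplicit false

noncomputable section

namespace Fermat.Agent.S27.L

open AlgebraicCurve Fermat.Agent.S37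

variable {K0 K1 F0 F1 : Type*} [Field K0] [Field K1] [Field F0] [Field F1]
  [Algebra K0 F0] [Algebra K1 F1] {j : K0 →+* K1} {ι : F0 →+* F1}
  [IsAlgClosed K0] [CharZero K0] [IsAlgClosed K1] [CharZero K1]

omit [IsAlgClosed K0] [CharZero K0] [IsAlgClosed K1] [CharZero K1] in
theorem fixK_of_fix (H : BC j ι) {g : SemilinearAut K1 F1} (hg : Fix ι g) :
    FixK j (SemilinearAut.baseAut g) := by
  intro a
  have h1 := hg (algebraMap K0 F0 a)
  rw [H.comm, SemilinearAut.smul_algebraMap] at h1
  exact (algebraMap K1 F1).injective h1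

/-- [S27/L-LSP1] -/
theorem map_mem_L_iff (H : BC j ι) (D : Divisor K0 F0) (f : F0) :
    ι f ∈ riemannRochSpace (extD H D) ↔ f ∈ riemannRochSpace D := by
  rw [mem_riemannRochSpace_iff, mem_riemannRochSpace_iff]
  constructor
  · intro h P
    rcases h (ext H P) with h0 | h1
    · left; exact (map_eq_zero ι).1 h0
    · right; rwa [extD_apply_ext, ord_ext] at h1
  · intro h Q
    by_cases hQ : ∃ P, Q = ext H P
    · obtain ⟨P, rfl⟩ := hQ
      rcases h P with h0 | h1
      · left; rw [h0, map_zero]
      · right; rwa [extD_apply_ext, ord_ext]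
    · right
      rw [extD_apply_of_ne H D (fun P hP => hQ ⟨P, hP⟩)]
      have : Q.ord (ι f) = 0 := by
        by_contra hne
        exact hQ (exists_eq_ext H Q hne)
      rw [this]; simp

/-- [S27/L-LSP1] -/
theorem finrank_L_le (H : BC j ι) (D : Divisor K0 F0) :
    Module.finrank K0 (riemannRochSpace D) ≤ Module.finrank K1 (riemannRochSpace (extD H D)) := by
  have := finite_L H.ff0 D
  have := finite_L H.ff1 (extD H D)
  let b := Module.finBasis K0 (riemannRochSpace D)
  have hli : LinearIndependent K0 (fun i => (b i : F0)) :=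
    b.linearIndependent.map' (Submodule.subtype _) (Submodule.ker_subtype _)
  have h1 := H.ld _ _ hli
  let v : Fin _ → riemannRochSpace (extD H D) :=
    fun i => ⟨ι (b i), (map_mem_L_iff H D _).2 (b i).2⟩
  have hv : LinearIndependent K1 v := LinearIndependent.of_comp (Submodule.subtype _) h1
  have := hv.fintype_card_le_finrank
  simpa using this

/-- [S27/L-LSP1] -/
theorem smul_mem_L (H : BC j ι) {g : SemilinearAut K1 F1} (hg : Fix ι g) (D : Divisor K0 F0)
    {z : F1} (hz : z ∈ riemannRochSpace (extD H D)) : g • z ∈ riemannRochSpace (extD H D) := by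
  rw [mem_riemannRochSpace_iff] at hz ⊢
  intro Q
  rcases hz (g⁻¹ • Q) with h0 | h1
  · left; rw [h0, smul_zero]
  · right
    rw [ord_smul']
    have : extD H D (g⁻¹ • Q) = extD H D Q := by
      have := SemilinearAut.divisor_smul_apply g (extD H D) Q
      rw [smul_extD H hg] at this
      exact this.symm
    rwa [this] at h1

/-- [S27/L-LSP2] -/
theorem exists_ev (H : BC j ι) (D : Divisor K0 F0) : ∃ (m : ℕ) (R : Fin m → Place K0 F0),
    Function.Injective R ∧ (∀ i, D (R i) = 0) ∧ Divisor.degree D < m := by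
  have := infinite_place H.ff0
  obtain ⟨t, ht, hcard⟩ := (D.support.finite_toSet.infinite_compl).exists_subset_card_eq
    (Divisor.degree D + 1).toNat
  refine ⟨_, fun i => ((t.equivFinOfCardEq hcard).symm i).1, ?_, ?_, ?_⟩
  · exact Subtype.val_injective.comp (Equiv.injective _)
  · intro i
    have := ht ((t.equivFinOfCardEq hcard).symm i).2
    simpa using this
  · have := Int.self_le_toNat (Divisor.degree D + 1)
    omega

/-- [S27/L-LSP2] -/
theorem ev_injective (H : BC j ι) (D : Divisor K0 F0) {m : ℕ} (R : Fin m → Place K0 F0)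
    (hR : Function.Injective R) (hD : ∀ i, D (R i) = 0) (hm : Divisor.degree D < m) {z : F1}
    (hz : z ∈ riemannRochSpace (extD H D)) (h0 : ∀ i, val (ext H (R i)) z = 0) : z = 0 := by
  classical
  set S : Divisor K0 F0 := ∑ i, Finsupp.single (R i) (1 : ℤ) with hS
  have hSext : ∀ Q, extD H S Q = ∑ i, if ext H (R i) = Q then (1 : ℤ) else 0 := by
    intro Q
    rw [hS, map_sum, Finsupp.finset_sum_apply]
    refine Finset.sum_congr rfl fun i _ => ?_
    rw [extD_single, Finsupp.single_apply]
  have hdeg : Divisor.degree (extD H (D - S)) < 0 := by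
    rw [degree_extD, map_sub, hS, map_sum]
    simp only [Divisor.degree_single, H.ff0.deg_eq_one]
    simp
    omega
  have hmem : z ∈ riemannRochSpace (extD H (D - S)) := by
    rw [mem_riemannRochSpace_iff] at hz ⊢
    intro Q
    rw [map_sub, Finsupp.sub_apply, hSext]
    by_cases hQ : ∃ i, ext H (R i) = Q
    · obtain ⟨i0, rfl⟩ := hQ
      have hsum : (∑ i, if ext H (R i) = ext H (R i0) then (1 : ℤ) else 0) = 1 := by
        rw [Finset.sum_eq_single i0]
        · simp
        · intro i _ hi
          rw [if_neg]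
          intro h
          exact hi (hR (ext_injective H h))
        · simp
      rw [hsum, extD_apply_ext, hD]
      have hreg : Reg (ext H (R i0)) z := by
        rw [reg_iff]
        rcases hz (ext H (R i0)) with h | h
        · rw [h]; simp
        · rw [extD_apply_ext, hD] at h
          simpa using h
      rcases (val_eq_zero_iff H.ff1 hreg).1 (h0 i0) with h | h
      · left; exact h
      · right; omega
    · have hsum : (∑ i, if ext H (R i) = Q then (1 : ℤ) else 0) = 0 :=
        Finset.sum_eq_zero (fun i _ => if_neg (fun h => hQ ⟨i, h⟩))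
      rw [hsum, sub_zero]
      exact hz Q
  rw [L_eq_bot H.ff1 hdeg] at hmem
  exact (Submodule.mem_bot _).1 hmem

/-- [S27/L-LSP3] -/
theorem L_le_span (H : BC j ι) (D : Divisor K0 F0) :
    riemannRochSpace (extD H D) ≤ Submodule.span K1 (ι '' (riemannRochSpace D : Set F0)) := by
  classical
  intro z hz
  obtain ⟨m, R, hR, hD, hm⟩ := exists_ev H D
  have hreg : ∀ w ∈ riemannRochSpace (extD H D), ∀ i, Reg (ext H (R i)) w := by
    intro w hw i
    rw [reg_iff]
    rcases (mem_riemannRochSpace_iff.1 hw) (ext H (R i)) with h | h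
    · rw [h]; simp
    · rw [extD_apply_ext, hD] at h
      simpa using h
  let ev : riemannRochSpace (extD H D) →ₗ[K1] (Fin m → K1) :=
    { toFun := fun w i => val (ext H (R i)) (w : F1)
      map_add' := fun w w' => funext fun i => val_add H.ff1 (hreg w w.2 i) (hreg w' w'.2 i)
      map_smul' := fun c w => funext fun i => by
        show val _ (c • (w : F1)) = c * val _ (w : F1)
        rw [Algebra.smul_def, val_mul H.ff1 ((ext H (R i)).algebraMap_mem' c) (hreg w w.2 i),
          val_algebraMap H.ff1] }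
  have hinj : Function.Injective ev := (injective_iff_map_eq_zero ev).2 (fun w hw =>
    Subtype.ext (ev_injective H D R hR hD hm w.2 (fun i => congrFun hw i)))
  have hequiv : ∀ g : SemilinearAut K1 F1, Fix ι g → ∀ w : riemannRochSpace (extD H D), ∀ i,
      val (ext H (R i)) (g • (w : F1)) =
        SemilinearAut.baseAut g (val (ext H (R i)) (w : F1)) := by
    intro g hg w i
    have := val_smul H.ff1 g (ext H (R i)) (hreg w w.2 i)
    rwa [smul_ext H hg] at this
  have hV : ∀ σ ∈ {σ : K1 ≃+* K1 | FixK j σ}, ∀ v ∈ LinearMap.range ev,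
      ∃ w ∈ LinearMap.range ev, ∀ i, (Pi.basisFun K1 (Fin m)).repr w i =
        σ ((Pi.basisFun K1 (Fin m)).repr v i) := by
    rintro σ hσ _ ⟨w, rfl⟩
    obtain ⟨g, hgσ, hg⟩ := exists_lift H σ hσ
    refine ⟨ev ⟨g • (w : F1), smul_mem_L H hg D w.2⟩, ⟨_, rfl⟩, fun i => ?_⟩
    simp only [Pi.basisFun_repr]
    show val _ (g • (w : F1)) = σ (val _ (w : F1))
    rw [hequiv g hg w i, hgσ]
  have hspan := span_fixed (Pi.basisFun K1 (Fin m)) {σ : K1 ≃+* K1 | FixK j σ} (Set.range j)
    (fun c hc => mem_range_of_fixed_aut j c hc) (LinearMap.range ev) hV (ev ⟨z, hz⟩) ⟨_, rfl⟩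
  let U : Submodule K1 (riemannRochSpace (extD H D)) :=
    (Submodule.span K1 (ι '' (riemannRochSpace D : Set F0))).comap
      (riemannRochSpace (extD H D)).subtype
  have hsub : Submodule.span K1 {w | w ∈ LinearMap.range ev ∧
      ∀ i, (Pi.basisFun K1 (Fin m)).repr w i ∈ Set.range j} ≤ U.map ev := by
    apply Submodule.span_le.2
    rintro _ ⟨⟨w, rfl⟩, hwk⟩
    refine ⟨w, ?_, rfl⟩
    have hfix : ∀ g : SemilinearAut K1 F1, Fix ι g → g • (w : F1) = w := by
      intro g hg
      have : ev ⟨g • (w : F1), smul_mem_L H hg D w.2⟩ = ev w := by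
        funext i
        show val _ (g • (w : F1)) = val _ (w : F1)
        rw [hequiv g hg w i]
        obtain ⟨c, hc⟩ := hwk i
        simp only [Pi.basisFun_repr] at hc
        have hc' : val (ext H (R i)) (w : F1) = j c := hc.symm
        rw [hc', fixK_of_fix H hg]
      exact congrArg Subtype.val (hinj this)
    obtain ⟨w0, hw0⟩ := mem_range_of_fixed H w hfix
    show (w : F1) ∈ Submodule.span K1 (ι '' (riemannRochSpace D : Set F0))
    apply Submodule.subset_span
    exact ⟨w0, (map_mem_L_iff H D w0).1 (hw0 ▸ w.2), hw0⟩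
  obtain ⟨u, hu, hev⟩ := hsub hspan
  have hu1 : u = ⟨z, hz⟩ := hinj hev
  have hu' : (u : F1) ∈ Submodule.span K1 (ι '' (riemannRochSpace D : Set F0)) := hu
  rw [hu1] at hu'
  exact hu'

/-- [S27/L-LSP3] -/
theorem finrank_L_eq (H : BC j ι) (D : Divisor K0 F0) :
    Module.finrank K1 (riemannRochSpace (extD H D)) = Module.finrank K0 (riemannRochSpace D) := by
  apply le_antisymm _ (finrank_L_le H D)
  have := finite_L H.ff0 D
  let b := Module.finBasis K0 (riemannRochSpace D)
  have h1 : riemannRochSpace (extD H D) ≤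
      Submodule.span K1 (Set.range fun i => ι (b i : F0)) := by
    refine (L_le_span H D).trans (Submodule.span_le.2 ?_)
    rintro _ ⟨f, hf, rfl⟩
    have hf2 : f = ∑ i, b.repr ⟨f, hf⟩ i • (b i : F0) := by
      have h := congrArg Subtype.val (b.sum_repr ⟨f, hf⟩).symm
      rw [Submodule.coe_sum] at h
      exact h
    have hf3 : ι f = ∑ i, j (b.repr ⟨f, hf⟩ i) • ι (b i : F0) := by
      conv_lhs => rw [hf2]
      rw [map_sum]
      refine Finset.sum_congr rfl fun i _ => ?_
      rw [Algebra.smul_def, map_mul, H.comm, Algebra.smul_def]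
    show ι f ∈ _
    rw [hf3]
    exact Submodule.sum_mem _ fun i _ => Submodule.smul_mem _ _ (Submodule.subset_span ⟨i, rfl⟩)
  have : Module.Finite K1 (Submodule.span K1 (Set.range fun i => ι (b i : F0))) :=
    Module.Finite.span_of_finite K1 (Set.finite_range _)
  calc Module.finrank K1 (riemannRochSpace (extD H D))
      ≤ Module.finrank K1 (Submodule.span K1 (Set.range fun i => ι (b i : F0))) :=
        Submodule.finrank_mono h1
    _ ≤ Fintype.card (Fin (Module.finrank K0 (riemannRochSpace D))) := finrank_range_le_card _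
    _ = Module.finrank K0 (riemannRochSpace D) := by simp

/-- [S27/L-GEN] -/
theorem genus_eq (H : BC j ι) : genusFF K1 F1 = genusFF K0 F0 := by
  have := infinite_place H.ff0
  obtain ⟨P⟩ : Nonempty (Place K0 F0) := inferInstance
  obtain ⟨m0, h0⟩ := exists_eq_genus H.ff0 P
  obtain ⟨m1, h1⟩ := exists_eq_genus H.ff1 (ext H P)
  have e0 := h0 (max m0 m1) (le_max_left _ _)
  have e1 := h1 (max m0 m1) (le_max_right _ _)
  rw [← extD_single, finrank_L_eq] at e1
  have : (genusFF K1 F1 : ℤ) = genusFF K0 F0 := by rw [← e0, ← e1]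
  exact_mod_cast this

/-- [S27/L-GEN] -/
theorem extPic_injective (H : BC j ι) : Function.Injective (extPic H) := by
  rw [injective_iff_map_eq_zero]
  intro x hx
  obtain ⟨D, rfl⟩ := Pic0.mk_surjective x
  rw [extPic_mk] at hx
  have hpr : extD H (D : Divisor K0 F0) ∈ Divisor.principal (K := K1) (F := F1) := by
    have := (QuotientAddGroup.eq_zero_iff _).1 hx
    simpa [AddSubgroup.mem_addSubgroupOf] using this
  obtain ⟨z, hz0, hz⟩ := hpr
  have hmem : z⁻¹ ∈ riemannRochSpace (extD H (D : Divisor K0 F0)) := by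
    rw [mem_riemannRochSpace_iff]
    intro Q
    right
    rw [hz Q, Place.ord_inv]
  have hne : riemannRochSpace (D : Divisor K0 F0) ≠ ⊥ := by
    intro hbot
    have h1 := finrank_L_eq H (D : Divisor K0 F0)
    rw [hbot, finrank_bot] at h1
    have := finite_L H.ff1 (extD H (D : Divisor K0 F0))
    have h2 : riemannRochSpace (extD H (D : Divisor K0 F0)) = ⊥ := Submodule.finrank_eq_zero.1 h1
    rw [h2] at hmem
    exact inv_ne_zero hz0 ((Submodule.mem_bot _).1 hmem)
  have := principal_of_L_ne_bot H.ff0 (Divisor.mem_degZero.1 D.2) hne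
  exact (QuotientAddGroup.eq_zero_iff _).2 (by simpa [AddSubgroup.mem_addSubgroupOf] using this)

/-- [S27/L-GEN] -/
theorem extPic_mem_torsion_iff (H : BC j ι) (N : ℕ) (x : Pic0 K0 F0) :
    extPic H x ∈ Pic0.torsion K1 F1 N ↔ x ∈ Pic0.torsion K0 F0 N := by
  rw [Pic0.mem_torsion, Pic0.mem_torsion, ← map_zsmul]
  exact map_eq_zero_iff (extPic H) (extPic_injective H)

end Fermat.Agent.S27.L
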