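import Fermat.Agent.S27.L.Basic
import Fermat.Agent.S27.L.Aut
import Fermat.Agent.S27.L.Min

/-!
# S27, block L : the Galois action of `Aut (K1 / K0)` on `F1 = Frac (K1 ⊗ F0)`.      (owner helper3)

## key S27/L-LIFT : `exists_lift`  (~200 lines; algebra only)
`(I, 𝔅, 𝔟)` from `exists_basis H`.  `T : A ι → A ι`, `T a = ∑ σ (a_i) • 𝔟_i` (`𝔟.repr`, `Finsupp.mapRange σ`, `𝔟.repr.symm`): additive, bijective (inverse: the same with `σ.symm`, which also fixes `j K0`).
`T (c • ι f) = σ c • ι f` (coordinates of `ι f` are `j (..)`, fixed by `σ`).  Hence `T (a * b) = T a * T b` (span induction in both variables), `T 1 = 1`.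
`A ι` as a subring `A' : Subring F1` (carrier `A ι`; `mul_mem_A`, `algebraMap_mem_A 1`), `T : A' ≃+* A'`.  `IsFractionRing A' F1` (`IsFractionRing` of a subring of a field: `IsLocalization` constructor,
`surj` from `H.gen`; or `IsFractionRing.of_field`-type lemma: `IsFractionRing.of_field (R) (K) (surj : ∀ z, ∃ x y, z = algebraMap x / algebraMap y)`).
`τ := IsFractionRing.ringEquivOfRingEquiv T : F1 ≃+* F1` (`IsFractionRing.ringEquivOfRingEquiv_algebraMap`/`IsLocalization.ringEquivOfRingEquiv_eq`): `τ a = T a` on `A'`.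
`g := ⟨(τ, σ), fun c => _⟩ : SemilinearAut K1 F1` (`algebraMap c = c • ι 1`).   `SemilinearAut.baseAut g = σ` is `rfl`; `g • z = τ z` is `rfl` (`SemilinearAut.smul_def`).
ALTERNATIVE: `letI := j.toAlgebra`, `K1 ⊗[K0] F0 → F1` injective (`H.ld`), `Algebra.TensorProduct.congr`.
## key S27/L-FIX : `smul_mem_A`, `repr_smul`, `mem_range_of_fixed`  (~200 lines)
`repr_smul`: `a = ∑ a_i • 𝔟_i`, `g • a = ∑ baseAut g (a_i) • ι 𝔅_i` (`smul_mul'`, `SemilinearAut.smul_algebraMap`, `hg`; `Algebra.smul_def`, `map_sum`/`Finset.smul_sum`).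
`mem_range_of_fixed`: `z` fixed by all `g` with `Fix ι g`.  `V := {b ∈ A ι | z * b ∈ A ι}`, a `K1`-submodule of `A ι` (as a submodule of the module `↥(A ι)`), `≠ 0` by `H.gen`.
It is stable: for `σ` with `FixK j σ` take `g` from `exists_lift`; `g • b ∈ A ι`, `z * g • b = g • (z * b) ∈ A ι`; coordinates by `repr_smul`.
`span_fixed 𝔟 {σ | FixK j σ} (Set.range j) (mem_range_of_fixed_aut j) V _`: `V` is spanned by vectors with coordinates in `j K0`; as `V ≠ 0` there is `b ≠ 0` in `V` with coordinates `j (c_i)`, i.e. `b = ι b₀`, `b₀ = ∑ c_i 𝔅_i ≠ 0`.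
`a := z * b ∈ A ι` is fixed by all `g` (`g • (z * ι b₀) = z * ι b₀`), so by `repr_smul` + `exists_lift` its coordinates are fixed by all `σ`: `a = ι a₀`.  `z = ι (a₀ / b₀)`.
-/

set_option autoImplicit false

noncomputable section

namespace Fermat.Agent.S27.L

open AlgebraicCurve Fermat.Agent.S37

variable {K0 K1 F0 F1 : Type*} [Field K0] [Field K1] [Field F0] [Field F1]
  [Algebra K0 F0] [Algebra K1 F1] {j : K0 →+* K1} {ι : F0 →+* F1}

/-- the coordinatewise action of `τ` on `A ι` -/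
def coordMap {I : Type*} (𝔟 : Module.Basis I K1 (A (K1 := K1) ι)) (τ : K1 ≃+* K1) :
    A (K1 := K1) ι →+ A (K1 := K1) ι :=
  (𝔟.repr.symm.toLinearMap.toAddMonoidHom).comp
    ((Finsupp.mapRange.addMonoidHom τ.toAddMonoidHom).comp 𝔟.repr.toLinearMap.toAddMonoidHom)

theorem repr_coordMap {I : Type*} (𝔟 : Module.Basis I K1 (A (K1 := K1) ι)) (τ : K1 ≃+* K1)
    (a : A (K1 := K1) ι) (i : I) : 𝔟.repr (coordMap 𝔟 τ a) i = τ (𝔟.repr a i) := by
  simp [coordMap]

/-- `A ι` as a subalgebra -/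
def Aalg (ι : F0 →+* F1) : Subalgebra K1 F1 where
  carrier := A (K1 := K1) ι
  mul_mem' := mul_mem_A
  add_mem' := Submodule.add_mem _
  algebraMap_mem' := algebraMap_mem_A

/-- [S27/L-LIFT] -/
theorem exists_lift (H : BC j ι) (σ : K1 ≃+* K1) (hσ : FixK j σ) :
    ∃ g : SemilinearAut K1 F1, SemilinearAut.baseAut g = σ ∧ Fix ι g := by
  classical
  obtain ⟨I, 𝔅, 𝔟, h𝔟, hrepr⟩ := exists_basis H
  let m : K1 → F0 → A (K1 := K1) ι := fun c f => c • ⟨ι f, map_mem_A f⟩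
  have hm : ∀ c f, (m c f : F1) = c • ι f := fun c f => rfl
  have hT : ∀ τ : K1 ≃+* K1, FixK j τ → ∀ c f, coordMap 𝔟 τ (m c f) = m (τ c) f := by
    intro τ hτ c f
    apply 𝔟.repr.injective
    ext i
    rw [repr_coordMap]
    simp only [m, map_smul, Finsupp.smul_apply, hrepr, smul_eq_mul, map_mul]
    rw [hτ]
  have hdec : ∀ a : A (K1 := K1) ι, a = ∑ i ∈ (𝔟.repr a).support, m (𝔟.repr a i) (𝔅 i) := by
    intro a
    conv_lhs => rw [← 𝔟.linearCombination_repr a, Finsupp.linearCombination_apply, Finsupp.sum]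
    refine Finset.sum_congr rfl fun i _ => ?_
    have : 𝔟 i = ⟨ι (𝔅 i), map_mem_A _⟩ := Subtype.ext (h𝔟 i)
    rw [this]
  have hTc : ∀ τ : K1 ≃+* K1, FixK j τ → ∀ a : A (K1 := K1) ι,
      (coordMap 𝔟 τ a : F1) = ∑ i ∈ (𝔟.repr a).support, τ (𝔟.repr a i) • ι (𝔅 i) := by
    intro τ hτ a
    conv_lhs => rw [hdec a, map_sum]
    rw [Submodule.coe_sum]
    refine Finset.sum_congr rfl fun i _ => ?_
    rw [hT τ hτ, hm]
  have hmul : ∀ τ : K1 ≃+* K1, FixK j τ → ∀ a b : A (K1 := K1) ι,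
      (coordMap 𝔟 τ ⟨a * b, mul_mem_A a.2 b.2⟩ : F1) = coordMap 𝔟 τ a * coordMap 𝔟 τ b := by
    intro τ hτ a b
    have hab : (⟨a * b, mul_mem_A a.2 b.2⟩ : A (K1 := K1) ι) =
        ∑ i ∈ (𝔟.repr a).support, ∑ k ∈ (𝔟.repr b).support,
          m (𝔟.repr a i * 𝔟.repr b k) (𝔅 i * 𝔅 k) := by
      apply Subtype.ext
      rw [Submodule.coe_sum]
      simp only [Submodule.coe_sum, hm]
      conv_lhs => rw [hdec a, hdec b]
      rw [Submodule.coe_sum, Submodule.coe_sum, Finset.sum_mul_sum]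
      refine Finset.sum_congr rfl fun i _ => Finset.sum_congr rfl fun k _ => ?_
      rw [hm, hm, map_mul, smul_mul_smul_comm]
    rw [hab, map_sum, Submodule.coe_sum, hTc τ hτ a, hTc τ hτ b, Finset.sum_mul_sum]
    refine Finset.sum_congr rfl fun i _ => ?_
    rw [map_sum, Submodule.coe_sum]
    refine Finset.sum_congr rfl fun k _ => ?_
    rw [hT τ hτ, hm, map_mul, map_mul, smul_mul_smul_comm]
  have hσ' : FixK j σ.symm := by
    intro a
    rw [RingEquiv.symm_apply_eq, hσ]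
  have hinv : ∀ τ τ' : K1 ≃+* K1, (∀ c, τ' (τ c) = c) → ∀ a,
      coordMap 𝔟 τ' (coordMap 𝔟 τ a) = a := by
    intro τ τ' h a
    apply 𝔟.repr.injective
    ext i
    rw [repr_coordMap, repr_coordMap, h]
  let T : Aalg (K1 := K1) ι ≃+* Aalg (K1 := K1) ι :=
    { toFun := fun a => ⟨coordMap 𝔟 σ ⟨a.1, a.2⟩, (coordMap 𝔟 σ ⟨a.1, a.2⟩).2⟩
      invFun := fun a => ⟨coordMap 𝔟 σ.symm ⟨a.1, a.2⟩, (coordMap 𝔟 σ.symm ⟨a.1, a.2⟩).2⟩
      left_inv := fun a => Subtype.ext (by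
        exact congrArg Subtype.val (hinv σ σ.symm σ.symm_apply_apply ⟨a.1, a.2⟩))
      right_inv := fun a => Subtype.ext (by
        exact congrArg Subtype.val (hinv σ.symm σ σ.apply_symm_apply ⟨a.1, a.2⟩))
      map_mul' := fun a b => Subtype.ext (hmul σ hσ ⟨a.1, a.2⟩ ⟨b.1, b.2⟩)
      map_add' := fun a b => Subtype.ext (by
        exact congrArg Subtype.val (map_add (coordMap 𝔟 σ) ⟨a.1, a.2⟩ ⟨b.1, b.2⟩)) }
  have hfr : IsFractionRing (Aalg (K1 := K1) ι) F1 := by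
    apply IsFractionRing.of_field
    intro z
    obtain ⟨a, ha, b, hb, hb0, hab⟩ := H.gen z
    refine ⟨⟨a, ha⟩, ⟨b, hb⟩, ?_⟩
    show z = a / b
    rw [← hab]
    field_simp
  let τ : F1 ≃+* F1 := IsFractionRing.ringEquivOfRingEquiv T
  have hτ : ∀ c f, τ (c • ι f) = σ c • ι f := by
    intro c f
    have h1 : c • ι f = algebraMap (Aalg (K1 := K1) ι) F1 ⟨c • ι f, (m c f).2⟩ := rfl
    rw [h1, IsFractionRing.ringEquivOfRingEquiv_algebraMap]
    show (coordMap 𝔟 σ (m c f) : F1) = _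
    rw [hT σ hσ, hm]
  refine ⟨⟨(τ, σ), fun c => ?_⟩, rfl, fun f => ?_⟩
  · have h1 : ∀ c : K1, algebraMap K1 F1 c = c • ι 1 := by
      intro c
      rw [map_one, Algebra.algebraMap_eq_smul_one]
    show τ (algebraMap K1 F1 c) = algebraMap K1 F1 (σ c)
    rw [h1, h1, hτ]
  · show τ (ι f) = ι f
    have := hτ 1 f
    rwa [map_one, one_smul] at this

/-- [S27/L-FIX] -/
theorem smul_mem_A {g : SemilinearAut K1 F1} (hg : Fix ι g) {a : F1}
    (ha : a ∈ A (K1 := K1) ι) : g • a ∈ A (K1 := K1) ι := by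
  induction ha using Submodule.span_induction with
  | mem x hx =>
    obtain ⟨f, rfl⟩ := hx
    rw [hg f]
    exact map_mem_A f
  | zero =>
    rw [smul_zero]
    exact Submodule.zero_mem _
  | add x y _ _ hx hy =>
    rw [smul_add]
    exact Submodule.add_mem _ hx hy
  | smul c x _ hx =>
    rw [Algebra.smul_def, smul_mul', SemilinearAut.smul_algebraMap, ← Algebra.smul_def]
    exact Submodule.smul_mem _ _ hx

/-- [S27/L-FIX] -/
theorem repr_smul {I : Type*} (𝔟 : Module.Basis I K1 (A (K1 := K1) ι))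
    (h𝔟 : ∀ i, (𝔟 i : F1) ∈ Set.range ι) {g : SemilinearAut K1 F1} (hg : Fix ι g)
    (a : A (K1 := K1) ι) (i : I) :
    𝔟.repr ⟨g • (a : F1), smul_mem_A hg a.2⟩ i = SemilinearAut.baseAut g (𝔟.repr a i) := by
  classical
  have hc : (⟨g • (a : F1), smul_mem_A hg a.2⟩ : A (K1 := K1) ι) =
      Finsupp.linearCombination K1 𝔟
        ((𝔟.repr a).mapRange (SemilinearAut.baseAut g) (map_zero _)) := by
    apply Subtype.ext
    rw [Finsupp.linearCombination_apply, Finsupp.sum_mapRange_index (by simp), Finsupp.sum,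
      Submodule.coe_sum]
    show g • (a : F1) = _
    conv_lhs => rw [← 𝔟.linearCombination_repr a, Finsupp.linearCombination_apply, Finsupp.sum,
      Submodule.coe_sum, Finset.smul_sum]
    refine Finset.sum_congr rfl fun i _ => ?_
    simp only [Submodule.coe_smul]
    obtain ⟨f, hf⟩ := h𝔟 i
    rw [Algebra.smul_def, smul_mul', SemilinearAut.smul_algebraMap, ← hf, hg f,
      ← Algebra.smul_def]
  rw [hc, Module.Basis.repr_linearCombination, Finsupp.mapRange_apply]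

/-- [S27/L-FIX] the fixed field of the Galois action is `ι F0` -/
theorem mem_range_of_fixed [IsAlgClosed K0] [IsAlgClosed K1] [CharZero K1] (H : BC j ι) (z : F1)
    (hz : ∀ g : SemilinearAut K1 F1, Fix ι g → g • z = z) : z ∈ Set.range ι := by
  classical
  obtain ⟨I, 𝔅, 𝔟, h𝔟, hrepr⟩ := exists_basis H
  have h𝔟' : ∀ i, (𝔟 i : F1) ∈ Set.range ι := fun i => ⟨𝔅 i, (h𝔟 i).symm⟩
  -- vectors with coordinates in `j K0` come from `F0`
  have hC : ∀ w : A (K1 := K1) ι, (∀ i, 𝔟.repr w i ∈ Set.range j) → (w : F1) ∈ Set.range ι := by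
    intro w hw
    choose c hc using hw
    refine ⟨∑ i ∈ (𝔟.repr w).support, c i • 𝔅 i, ?_⟩
    conv_rhs => rw [← 𝔟.linearCombination_repr w, Finsupp.linearCombination_apply, Finsupp.sum,
      Submodule.coe_sum]
    rw [map_sum]
    refine Finset.sum_congr rfl fun i _ => ?_
    rw [Algebra.smul_def, map_mul, H.comm, hc, Submodule.coe_smul, h𝔟, Algebra.smul_def]
  let V : Submodule K1 (A (K1 := K1) ι) :=
    { carrier := {b | z * (b : F1) ∈ A (K1 := K1) ι}
      add_mem' := by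
        intro a b ha hb
        show z * ((a : F1) + (b : F1)) ∈ A (K1 := K1) ι
        rw [mul_add]
        exact Submodule.add_mem _ ha hb
      zero_mem' := by
        show z * (0 : F1) ∈ A (K1 := K1) ι
        rw [mul_zero]
        exact Submodule.zero_mem _
      smul_mem' := by
        intro c b hb
        show z * (c • (b : F1)) ∈ A (K1 := K1) ι
        rw [mul_smul_comm]
        exact Submodule.smul_mem _ _ hb }
  have hV : ∀ σ ∈ {σ : K1 ≃+* K1 | FixK j σ}, ∀ v ∈ V, ∃ w ∈ V,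
      ∀ i, 𝔟.repr w i = σ (𝔟.repr v i) := by
    intro σ hσ v hv
    obtain ⟨g, hgσ, hg⟩ := exists_lift H σ hσ
    refine ⟨⟨g • (v : F1), smul_mem_A hg v.2⟩, ?_, fun i => ?_⟩
    · show z * (g • (v : F1)) ∈ A (K1 := K1) ι
      have : z * (g • (v : F1)) = g • (z * (v : F1)) := by rw [smul_mul', hz g hg]
      rw [this]
      exact smul_mem_A hg hv
    · rw [repr_smul 𝔟 h𝔟' hg, hgσ]
  have hspan := span_fixed 𝔟 {σ : K1 ≃+* K1 | FixK j σ} (Set.range j)
    (fun c hc => mem_range_of_fixed_aut j c hc) V hV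
  obtain ⟨a, ha, b, hb, hb0, hab⟩ := H.gen z
  have hbV : (⟨b, hb⟩ : A (K1 := K1) ι) ∈ V := by
    show z * b ∈ A (K1 := K1) ι
    rw [hab]
    exact ha
  obtain ⟨w, hwV, hwk, hw0⟩ : ∃ w : A (K1 := K1) ι, w ∈ V ∧ (∀ i, 𝔟.repr w i ∈ Set.range j) ∧
      w ≠ 0 := by
    by_contra hcon
    push_neg at hcon
    have hle : Submodule.span K1 {w : A (K1 := K1) ι | w ∈ V ∧ ∀ i, 𝔟.repr w i ∈ Set.range j} ≤
        ⊥ := by
      apply Submodule.span_le.2
      rintro w ⟨hwV, hwk⟩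
      exact hcon w hwV hwk
    have := hle (hspan _ hbV)
    rw [Submodule.mem_bot] at this
    exact hb0 (congrArg Subtype.val this)
  obtain ⟨b0, hb0'⟩ := hC w hwk
  have hw0' : (w : F1) ≠ 0 := fun h => hw0 (Subtype.ext h)
  have hfix : ∀ g : SemilinearAut K1 F1, Fix ι g → g • (z * (w : F1)) = z * (w : F1) := by
    intro g hg
    rw [smul_mul', hz g hg, ← hb0', hg]
  obtain ⟨a0, ha0⟩ := hC ⟨z * (w : F1), hwV⟩ (by
    intro i
    apply mem_range_of_fixed_aut j
    intro σ hσ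
    obtain ⟨g, hgσ, hg⟩ := exists_lift H σ hσ
    have h1 := repr_smul 𝔟 h𝔟' hg ⟨z * (w : F1), hwV⟩ i
    rw [hgσ] at h1
    rw [← h1]
    congr 2
    exact Subtype.ext (hfix g hg))
  refine ⟨a0 / b0, ?_⟩
  rw [map_div₀, ha0, hb0']
  field_simp

end Fermat.Agent.S27.L
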